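import Fermat.Agent.DeligneSerre.Curve.Kummer
import Fermat.Agent.GaloisReps.DegeneracyFun
import Fermat.Agent.RT.GammaH.Hecke

/-!
# Coset correspondences on the functions of `±Γ₁(M)`

For representatives `rep` permuted by `±Γ₁(M)` the correspondence sends `x` to `∏ x ∘ rep i`.
It preserves functions with divisor divisible by `m`, and on monodromy it is `opOf rep`.

See `corr` and `corr_divGrp`.
-/

set_option autoImplicit false

noncomputable section

open UpperHalfPlane hiding I
open Function Complex CongruenceSubgroup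
open Matrix.SpecialLinearGroup (mapGL)
open Fermat.Agent.RT.GammaH
open Fermat.Agent.GaloisReps (actGL actGLHom actGL_algebraMap actGL_congr actGL_mul det_mapGL_pos
  actGL_mapGL det_mul_pos)
open Fermat.Agent.ModFun (MerH HolH CuspAlg MeroAtInfty affine scaleH qFun qFun_ne_zero PerH
  actMer actHol actMer_algebraMap exists_hasSum mem_CuspAlg_of_hasSum comp_affine_mem)
open Fermat.Agent.JacTorsion (divGrp powGrp zetaPow zetaPow_zero zetaPow_add eq_of_zetaPow_mul
  meroAtInfty_of_pow)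
open scoped MatrixGroups Classical

namespace Fermat.Agent.DeligneSerre.Curve

/-! ## Translates by integral matrices -/

/-- An integral matrix of positive determinant is unimodular times upper triangular. -/
theorem exists_tri {g : GLR} {B : Matrix (Fin 2) (Fin 2) ℤ} (hg : IsIntMat g B) (hB : 0 < B.det) :
    ∃ (δ : SL(2, ℤ)) (a : ℕ) (b : ℤ) (e : ℕ) (_ : NeZero a) (_ : NeZero e),
      ∀ τ : ℍ, g • τ = δ • affine a b e τ := by
  rw [Matrix.det_fin_two] at hB
  set d : ℕ := Int.gcd (B 0 0) (B 1 0) with hd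
  have hd0 : d ≠ 0 := by
    intro h
    rw [hd, Int.gcd_eq_zero_iff] at h
    rw [h.1, h.2] at hB
    simp at hB
  obtain ⟨u, hu⟩ := Int.gcd_dvd_left (B 0 0) (B 1 0)
  obtain ⟨w, hw⟩ := Int.gcd_dvd_right (B 0 0) (B 1 0)
  rw [← hd] at hu hw
  have hcop : IsCoprime u w := by
    rw [Int.isCoprime_iff_gcd_eq_one]
    have h := hd
    rw [hu, hw, Int.gcd_mul_left, Int.natAbs_natCast] at h
    exact mul_left_cancel₀ hd0 (h.symm.trans (mul_one d).symm)
  obtain ⟨δ, h0, h1⟩ := Gamma0.exists_col hcop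
  have hδ := Matrix.SpecialLinearGroup.det_coe δ
  rw [Matrix.det_fin_two] at hδ
  set b := δ 1 1 * B 0 1 - δ 0 1 * B 1 1 with hb
  set e' := -δ 1 0 * B 0 1 + δ 0 0 * B 1 1 with he'
  have hde : (d : ℤ) * e' = B 0 0 * B 1 1 - B 0 1 * B 1 0 := by
    rw [he', h0, h1, hu, hw]; ring
  have hepos : 0 < e' := by
    rcases lt_trichotomy e' 0 with h | h | h
    · nlinarith [show (0 : ℤ) < d by omega]
    · rw [h, mul_zero] at hde; omega
    · exact h
  obtain ⟨e, he⟩ := Int.eq_ofNat_of_zero_le hepos.le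
  have : NeZero d := ⟨hd0⟩
  have : NeZero e := ⟨by omega⟩
  refine ⟨δ, d, b, e, inferInstance, inferInstance, fun τ => ?_⟩
  -- `B = δ (d b; 0 e)`
  have hT : IsIntMat ((mapGL ℝ δ : GLR)⁻¹ * g) !![(d : ℤ), b; 0, (e : ℤ)] := by
    have h := (isIntMat_mapGL δ⁻¹).mul hg
    rw [map_inv] at h
    convert h using 1
    rw [Matrix.SpecialLinearGroup.SL2_inv_expl δ]
    have h00 : δ 1 1 * B 0 0 + -δ 0 1 * B 1 0 = (d : ℤ) := by
      rw [h0, h1] at hδ; rw [hu, hw]; linear_combination (d : ℤ) * hδ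
    have h10 : -δ 1 0 * B 0 0 + δ 0 0 * B 1 0 = 0 := by rw [h0, h1, hu, hw]; ring
    have h01 : δ 1 1 * B 0 1 + -δ 0 1 * B 1 1 = b := by rw [hb]; ring
    have h11 : -δ 1 0 * B 0 1 + δ 0 0 * B 1 1 = (e : ℤ) := by rw [← he, he']
    ext i j
    fin_cases i <;> fin_cases j <;>
      simp [Matrix.mul_apply, Fin.sum_univ_two] <;> linarith [h00, h10, h01, h11]
  have hsmul : ((mapGL ℝ δ : GLR)⁻¹ * g) • τ = affine d b e τ := by
    set G := (mapGL ℝ δ : GLR)⁻¹ * g with hG
    have hval : (G : Matrix (Fin 2) (Fin 2) ℝ) = !![(d : ℝ), (b : ℝ); 0, (e : ℝ)] := by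
      rw [hT]
      ext i j
      fin_cases i <;> fin_cases j <;> simp
    have hdet : 0 < G.det.val := by
      rw [Matrix.GeneralLinearGroup.val_det_apply, hval, Matrix.det_fin_two_of]
      have : (0 : ℝ) < d := by exact_mod_cast Nat.pos_of_ne_zero hd0
      have : (0 : ℝ) < e := by exact_mod_cast Nat.pos_of_ne_zero (NeZero.ne e)
      nlinarith
    apply UpperHalfPlane.ext
    rw [coe_smul_of_det_pos hdet, ModFun.coe_affine]
    simp [num, denom, hval]
  rw [← hsmul, MulAction.compHom_smul_def, ← mul_smul]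
  show g • τ = (mapGL ℝ δ * ((mapGL ℝ δ : GLR)⁻¹ * g)) • τ
  rw [mul_inv_cancel_left]

variable {M : ℕ} [NeZero M]

/-- Translates of functions of `±Γ₁(M)` by upper triangular integral matrices stay meromorphic
at infinity. -/
theorem meroAtInfty_comp_affine {f : ℍ → ℂ} (hf : f ∈ Hol1 M) (δ : SL(2, ℤ)) (a : ℕ) (b : ℤ)
    (e : ℕ) [NeZero a] [NeZero e] : MeroAtInfty fun τ => f (δ • affine a b e τ) := by
  set F : CuspAlg M := ⟨_, comp_SL_mem_CuspAlg1 hf δ⟩
  obtain ⟨n, c, hc, -⟩ := exists_hasSum F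
  have hq : ∀ τ : ℍ, qFun M (scaleH M τ) = qFun 1 τ := by
    intro τ
    simp only [qFun, Periodic.qParam, ModFun.coe_scaleH]
    congr 1
    have : (M : ℂ) ≠ 0 := Nat.cast_ne_zero.mpr (NeZero.ne M)
    push_cast
    field_simp
  have hscale : (fun τ => f (δ • scaleH M τ)) ∈ CuspAlg 1 :=
    mem_CuspAlg_of_hasSum ((ModFun.mdifferentiable_comp_affine M 0 1 F.2.1))
      (fun τ => by
        have h := hc (scaleH M τ)
        rw [hq] at h
        exact h)
  have : NeZero (e * M) := ⟨mul_ne_zero (NeZero.ne e) (NeZero.ne M)⟩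
  have h := (comp_affine_mem a b (e * M) hscale).2.2
  have heq : (fun τ => f (δ • scaleH M (affine a b (e * M) τ))) = fun τ =>
      f (δ • affine a b e τ) := by
    funext τ
    congr 2
    apply UpperHalfPlane.ext
    rw [ModFun.coe_scaleH, ModFun.coe_affine, ModFun.coe_affine]
    have : (M : ℂ) ≠ 0 := Nat.cast_ne_zero.mpr (NeZero.ne M)
    have : (e : ℂ) ≠ 0 := Nat.cast_ne_zero.mpr (NeZero.ne e)
    push_cast
    field_simp
  rw [← heq]
  exact h

theorem meroAtInfty_finset_prod {ι : Type*} (s : Finset ι) {F : ι → ℍ → ℂ}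
    (h : ∀ i ∈ s, MeroAtInfty (F i)) : MeroAtInfty (∏ i ∈ s, F i) :=
  Finset.prod_induction F MeroAtInfty (fun _ _ => MeroAtInfty.mul)
    (MeroAtInfty.of_isBounded ModFun.isBounded_one) h

/-! ## The correspondence on functions -/

/-- The representatives are integral matrices of positive determinant. -/
def IntReps {ι : Type} (rep : ι → GLR) : Prop :=
  ∀ i, ∃ B : Matrix (Fin 2) (Fin 2) ℤ, IsIntMat (rep i) B ∧ 0 < B.det

theorem IntReps.det_pos {ι : Type} {rep : ι → GLR} (h : IntReps rep) (i : ι) :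
    0 < (rep i).det.val := by
  obtain ⟨B, hB, hd⟩ := h i
  rw [Matrix.GeneralLinearGroup.val_det_apply, hB, ← RingHom.mapMatrix_apply, ← RingHom.map_det]
  simpa using hd

variable {ι : Type} [Fintype ι] {rep : ι → GLR}
  (hadm : Admissible (G1 M) (G1 M) rep) (hint : IntReps rep)

include hadm hint in
theorem prod_comp_mem_Hol1 {f : ℍ → ℂ} (hf : f ∈ Hol1 M) :
    (fun τ => ∏ i, f (rep i • τ)) ∈ Hol1 M := by
  refine ⟨?_, fun g hg τ => ?_, fun g => ?_⟩
  · have : (fun τ => ∏ i, f (rep i • τ)) =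
        ((∏ i, actGLHom (rep i) (hint.det_pos i) ⟨f, hf.1⟩ : HolH) : ℍ → ℂ) := by
      funext τ
      rw [SubmonoidClass.coe_finsetProd, Finset.prod_apply]
      rfl
    rw [this]
    exact (∏ i, actGLHom (rep i) (hint.det_pos i) ⟨f, hf.1⟩ : HolH).2
  · obtain ⟨σ, hσ, hσ'⟩ := hadm ⟨g, hg⟩
    show ∏ i, f (rep i • g • τ) = ∏ i, f (rep i • τ)
    rw [← hσ.prod_comp fun i => f (rep i • τ)]
    refine Finset.prod_congr rfl fun i _ => ?_
    obtain ⟨c, hc⟩ := exists_of_mem_img (hσ' i)
    have h : rep i * mapGL ℝ g = mapGL ℝ (c : SL(2, ℤ)) * rep (σ i) := by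
      rw [hc, inv_mul_cancel_right]
    show f (rep i • (mapGL ℝ g : GLR) • τ) = _
    rw [← mul_smul, h, mul_smul]
    exact hf.2.1 _ c.2 _
  · have : (fun τ => ∏ i, f (rep i • (g • τ))) = ∏ i, fun τ => f (rep i • (g • τ)) := by
      funext τ; rw [Finset.prod_apply]
    show MeroAtInfty fun τ => ∏ i, f (rep i • (g • τ))
    rw [this]
    refine meroAtInfty_finset_prod _ fun i _ => ?_
    obtain ⟨B, hB, hd⟩ := hint i
    obtain ⟨δ, a, b, e, _, _, hδ⟩ := exists_tri (hB.mul (isIntMat_mapGL g))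
      (by rw [Matrix.det_mul, Matrix.SpecialLinearGroup.det_coe, mul_one]; exact hd)
    have : (fun τ => f (rep i • (g • τ))) = fun τ => f (δ • affine a b e τ) := by
      funext τ
      show f (rep i • (mapGL ℝ g : GLR) • τ) = _
      rw [← mul_smul, hδ]
    rw [this]
    exact meroAtInfty_comp_affine hf δ a b e

variable [GoodLevel M]

/-- The correspondence on holomorphic functions. -/
def corrHol (a : Hol1 M) : Hol1 M := ⟨_, prod_comp_mem_Hol1 hadm hint a.2⟩

omit [GoodLevel M] in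
theorem corrHol_apply (a : Hol1 M) (τ : ℍ) :
    (corrHol hadm hint a : ℍ → ℂ) τ = ∏ i, (a : ℍ → ℂ) (rep i • τ) := rfl

/-- The correspondence on meromorphic functions. -/
def corrMer (x : F1C M) : MerH := ∏ i, actGL (rep i) (hint.det_pos i) (e11 M x)

theorem corrMer_toF1C (a : Hol1 M) :
    corrMer hint (toF1C M a) = e11 M (toF1C M (corrHol hadm hint a)) := by
  simp only [corrMer, e11_toF1C, actGL_algebraMap, ← map_prod]
  refine congrArg _ (Subtype.ext (funext fun τ => ?_))
  rw [SubmonoidClass.coe_finsetProd, Finset.prod_apply]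
  rfl

theorem corrMer_div (x y : F1C M) : corrMer hint (x / y) = corrMer hint x / corrMer hint y := by
  simp only [corrMer, map_div₀, Finset.prod_div_distrib]

include hadm in
theorem exists_corr (x : F1C M) : ∃ y : F1C M, e11 M y = corrMer hint x := by
  obtain ⟨a, b, -, rfl⟩ := exists_div_eq1 x
  exact ⟨toF1C M (corrHol hadm hint a) / toF1C M (corrHol hadm hint b), by
    rw [map_div₀, corrMer_div, corrMer_toF1C hadm, corrMer_toF1C hadm]⟩

/-- The correspondence. -/
def corr (x : F1C M) : F1C M := (exists_corr hadm hint x).choose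

theorem e11_corr (x : F1C M) : e11 M (corr hadm hint x) = corrMer hint x :=
  (exists_corr hadm hint x).choose_spec

theorem corr_div (x y : F1C M) :
    corr hadm hint (x / y) = corr hadm hint x / corr hadm hint y :=
  (e11 M).toRingHom.injective (by
    show e11 M _ = e11 M _
    rw [map_div₀, e11_corr, e11_corr, e11_corr, corrMer_div])

theorem corr_toF1C (a : Hol1 M) :
    corr hadm hint (toF1C M a) = toF1C M (corrHol hadm hint a) :=
  (e11 M).toRingHom.injective (by
    show e11 M _ = e11 M _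
    rw [e11_corr, corrMer_toF1C hadm])

theorem corr_ne_zero {x : F1C M} (hx : x ≠ 0) : corr hadm hint x ≠ 0 := fun h => by
  have h1 := e11_corr hadm hint x
  rw [h, map_zero, corrMer] at h1
  exact Finset.prod_ne_zero_iff.mpr
    (fun i _ => (_root_.map_ne_zero _).mpr ((_root_.map_ne_zero _).mpr hx)) h1.symm

variable {m : ℕ} [NeZero m]

/-! ## The correspondence on monodromy -/

include hadm hint in
omit [NeZero M] [GoodLevel M] in
/-- The product of the translates of a function with monodromy `φ` has the monodromy obtained by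
applying the correspondence to `φ`. -/
private theorem actMer_prod_translates {h : MerH} {φ : Additive (G1 M) →+ ZMod m}
    (hh : ∀ c : G1 M, actMer (c : SL(2, ℤ)) h =
      algebraMap ℂ MerH (zetaPow m (φ (Additive.ofMul c))) * h) (γ : G1 M) :
    actMer (γ : SL(2, ℤ)) (∏ i, actGL (rep i) (hint.det_pos i) h) =
      algebraMap ℂ MerH (zetaPow m (opOf (A := ZMod m) hadm ℕ φ (Additive.ofMul γ))) *
        ∏ i, actGL (rep i) (hint.det_pos i) h := by
  obtain ⟨σ, hσ⟩ := hadm γ
  rw [opOf_apply_of_isPerm hadm _ γ hσ, JacTorsion.zetaPow_sum, map_prod, map_prod,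
    ← hσ.1.prod_comp (fun j => actGL (rep j) (hint.det_pos j) h), ← Finset.prod_mul_distrib]
  refine Finset.prod_congr rfl fun i _ => ?_
  obtain ⟨c, hc⟩ := exists_of_mem_img (hσ.2 i)
  rw [← hc, onImg_mapGL]
  have hA : rep i * mapGL ℝ (γ : SL(2, ℤ)) = mapGL ℝ (c : SL(2, ℤ)) * rep (σ i) := by
    rw [hc, inv_mul_cancel_right]
  rw [← actGL_mapGL, ← actGL_mul,
    actGL_congr hA _ (det_mul_pos (det_mapGL_pos _) (hint.det_pos _)),
    actGL_mul (det_mapGL_pos _) (hint.det_pos _), actGL_mapGL,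
    hh c, map_mul, AlgEquiv.commutes]

include hadm hint in
/-- The correspondence on functions with divisor divisible by `m`, and on their monodromy. -/
theorem corr_divGrp
    (hell : ∀ φ ∈ Gamma0.ellParHoms (G1 M) (ZMod m),
      opOf (A := ZMod m) hadm ℕ φ ∈ Gamma0.ellParHoms (G1 M) (ZMod m))
    (f : divGrp ℂ (F1C M) m) :
    ∃ g : divGrp ℂ (F1C M) m,
      ((g : (F1C M)ˣ) : F1C M) = corr hadm hint ((f : (F1C M)ˣ) : F1C M) ∧
      (rootChar1 M m g).1 = opOf hadm ℕ (rootChar1 M m f).1 := by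
  set x : F1C M := ((f : (F1C M)ˣ) : F1C M) with hxdef
  have hx0 : x ≠ 0 := Units.ne_zero _
  set χ := opOf (A := ZMod m) hadm ℕ (rootChar1 M m f).1 with hχ
  -- Some `y` with divisor divisible by `m` has monodromy `χ`. Let `h`, `h'` be `m`-th roots of
  -- `x`, `y`; the product `HT` of the translates of `h` is one of `corr x`, also of monodromy `χ`.
  obtain ⟨f', hf'⟩ := exists_rootChar1_eq (M := M) (m := m)
    ⟨χ, hell _ (rootChar1 M m f).2⟩
  set y : F1C M := ((f' : (F1C M)ˣ) : F1C M) with hydef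
  have hy0 : y ≠ 0 := Units.ne_zero _
  obtain ⟨H, b, C, hH0, hb, hHC, -, hh⟩ := exists_root1 hx0 f.2
  obtain ⟨H', b', C', hH'0, hb', hHC', hC', hh'⟩ := exists_root1 hy0 f'.2
  set h := algebraMap HolH MerH H / e11 M (toF1C M b) with hhdef
  set h' := algebraMap HolH MerH H' / e11 M (toF1C M b') with hh'def
  set HT : MerH := ∏ i, actGL (rep i) (hint.det_pos i) h with hHT
  have hHTm : HT ^ m = e11 M (corr hadm hint x) := by
    rw [e11_corr, corrMer, hHT, ← Finset.prod_pow]
    exact Finset.prod_congr rfl fun i _ => by rw [← map_pow, hh]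
  have hHTγ : ∀ γ : G1 M, actMer (γ : SL(2, ℤ)) HT =
      algebraMap ℂ MerH (zetaPow m (χ (Additive.ofMul γ))) * HT := by
    intro γ
    rw [hχ]
    exact actMer_prod_translates hadm hint (rootChar1_spec f h hh) γ
  have hh'0 : h' ≠ 0 := root_ne_zero1 hy0 hh'
  have hh'γ : ∀ γ : G1 M, actMer (γ : SL(2, ℤ)) h' =
      algebraMap ℂ MerH (zetaPow m (χ (Additive.ofMul γ))) * h' := fun γ => by
    rw [rootChar1_spec f' h' hh' γ, hf']
  -- So `u = HT / h'` is invariant. It is an invariant holomorphic `Num` times an element of the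
  -- field, and `Num ^ m` is meromorphic at the cusps, so `u = U` is in the field and
  -- `corr x = U ^ m * y` has divisor divisible by `m`.
  set u := HT / h' with hu
  have hinv : ∀ γ : G1 M, actMer (γ : SL(2, ℤ)) u = u := fun γ => by
    rw [hu, map_div₀, hHTγ, hh'γ, mul_div_mul_left]
    exact (_root_.map_ne_zero _).mpr (Fermat.Agent.JacTorsion.zetaPow_ne_zero _)
  set HP : HolH := ∏ i, actGLHom (rep i) (hint.det_pos i) H with hHP
  set Tb := toF1C M (corrHol hadm hint b) with hTb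
  have hTb' : e11 M Tb = corrMer hint (toF1C M b) := (corrMer_toF1C hadm hint b).symm
  have hbF : toF1C M b ≠ 0 := fun h0 => hb (toF1C_injective (h0.trans (map_zero (toF1C M)).symm))
  have hbF' : toF1C M b' ≠ 0 :=
    fun h0 => hb' (toF1C_injective (h0.trans (map_zero (toF1C M)).symm))
  have hHTP : HT = algebraMap HolH MerH HP / e11 M Tb := by
    rw [hTb', hHT, hHP, map_prod, corrMer, ← Finset.prod_div_distrib]
    exact Finset.prod_congr rfl fun i _ => by rw [hhdef, map_div₀, actGL_algebraMap]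
  obtain ⟨k, hk⟩ : ∃ k, m = k + 1 := ⟨m - 1, by have := NeZero.ne m; omega⟩
  set Num : HolH := HP * H' ^ k with hNum
  have hTb0 : Tb ≠ 0 := by
    rw [hTb, ← corr_toF1C]; exact corr_ne_zero hadm hint hbF
  have hC'0 : toF1C M C' ≠ 0 := by
    rw [hC']; exact mul_ne_zero hy0 (pow_ne_zero _ hbF')
  have hueq : u = algebraMap HolH MerH Num * (e11 M (toF1C M b') / e11 M (Tb * toF1C M C')) := by
    have e1 : e11 M (toF1C M C') = algebraMap HolH MerH H' ^ m := by
      rw [e11_toF1C, ← hHC', map_pow]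
    have hH'M : algebraMap HolH MerH H' ≠ 0 :=
      Fermat.Agent.JacTorsion.algebraMap_ne_zero' hH'0
    rw [hu, hHTP, hh'def, hNum, map_mul, map_mul, map_pow, e1, hk]
    have hTb0' : e11 M Tb ≠ 0 := (_root_.map_ne_zero _).mpr hTb0
    have hbF'' : e11 M (toF1C M b') ≠ 0 := (_root_.map_ne_zero _).mpr hbF'
    field_simp
    ring
  have hNinv : ∀ γ : G1 M, actHol (γ : SL(2, ℤ)) Num = Num := fun γ => by
    refine IsFractionRing.injective HolH MerH ?_
    rw [← actMer_algebraMap]
    have hne : e11 M (toF1C M b') / e11 M (Tb * toF1C M C') ≠ 0 :=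
      div_ne_zero ((_root_.map_ne_zero _).mpr hbF')
        ((_root_.map_ne_zero _).mpr (mul_ne_zero hTb0 hC'0))
    refine mul_right_cancel₀ hne ?_
    rw [← hueq]
    conv_rhs => rw [← hinv γ, hueq, map_mul, map_div₀, actMer_e11 γ.2, actMer_e11 γ.2]
  have hNm : ∃ D : Hol1 M, Num ^ m = hol1ToHolH M D := by
    refine ⟨corrHol hadm hint C * C' ^ k, ?_⟩
    rw [hNum, mul_pow, map_mul, map_pow, ← hHC', ← pow_mul, ← pow_mul, mul_comm k m]
    refine congrArg (· * _) ?_
    rw [hHP, ← Finset.prod_pow]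
    refine Subtype.ext (funext fun τ => ?_)
    rw [SubmonoidClass.coe_finsetProd, Finset.prod_apply]
    refine Finset.prod_congr rfl fun i _ => ?_
    exact congrFun (congrArg Subtype.val hHC) (rep i • τ)
  obtain ⟨D, hD⟩ := hNm
  have hmem : (Num : ℍ → ℂ) ∈ Hol1 M := by
    refine ⟨Num.2, fun g hg τ => congrFun (congrArg Subtype.val (hNinv ⟨g, hg⟩)) τ, fun g => ?_⟩
    refine meroAtInfty_of_pow (m := m) ?_
    have : (fun τ => (Num : ℍ → ℂ) (g • τ)) ^ m = fun τ => (D : ℍ → ℂ) (g • τ) := by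
      funext τ
      exact congrFun (congrArg Subtype.val hD) (g • τ)
    rw [this]
    exact D.2.2.2 g
  set U : F1C M := toF1C M ⟨_, hmem⟩ * (toF1C M b' / (Tb * toF1C M C')) with hU
  have heU : e11 M U = u := by
    rw [hU, map_mul, map_div₀, e11_toF1C, hueq]; rfl
  have hUy : corr hadm hint x = U ^ m * y := (e11 M).toRingHom.injective (by
    show e11 M _ = e11 M _
    rw [map_mul, map_pow, heU, ← hHTm, ← hh', hu, div_pow,
      div_mul_cancel₀ _ (pow_ne_zero _ hh'0)])
  have hU0 : U ≠ 0 := fun h0 => corr_ne_zero hadm hint hx0 (by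
    rw [hUy, h0, zero_pow (NeZero.ne m), zero_mul])
  have hmem' : Units.mk0 _ (corr_ne_zero hadm hint hx0) ∈ divGrp ℂ (F1C M) m := fun Q => by
    rw [Units.val_mk0, hUy, Q.ord_mul (pow_ne_zero _ hU0) hy0, FF.ord_pow]
    exact dvd_add (dvd_mul_right _ _) (f'.2 Q)
  refine ⟨⟨_, hmem'⟩, rfl, rootChar1_eq_of_isRootChar1 _ ?_⟩
  exact isRootChar1_of_root (corr_ne_zero hadm hint hx0) hHTm hHTγ

end Fermat.Agent.DeligneSerre.Curve
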