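import Fermat.Agent.DeligneSerre.Curve.Gen
import Fermat.Agent.DeligneSerre.Curve.Corr
import Fermat.Agent.DeligneSerre.PeriodsOps
import Fermat.Agent.Semistable.ModRel

/-!
# The Hecke correspondences and diamond automorphisms on series

For a prime `p ∤ M` the correspondence `heckeC` satisfies
`(T x)(q^p) = (⟨p⟩ x)(q^(p²)) · ∏_{u^p = 1} x(u q)`; hence it is defined over `ℚ`.
On monodromy it is `T_p`, and the diamond automorphism is `⟨u⟩`.
-/

set_option autoImplicit false

noncomputable section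

open ModularCurve
open Matrix.SpecialLinearGroup (mapGL)
open Fermat.Agent.RT.GammaH (hRep admissible_hRep admissible_diaRep IsIntMat HIdx gamma0Elt
  gamma0Elt_mem gamma0Elt_inv_lowerRight isIntMat_mapGL hRep_mem_heckeSet opOf)
open Fermat.Agent.ModFun (MerH HolH CuspAlg affine affineRoot compAffine compAffine_apply
  laurentExp laurentExp_compAffine twist)
open Fermat.Agent.JacTorsion (divGrp KummerGrp)
open scoped UpperHalfPlane

namespace Fermat.Agent.DeligneSerre.Curve

local notation "Qb" => AlgebraicClosure ℚ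

/-- The roots of unity as a finite type. -/
scoped instance fintypeRootsOfUnityDS (K : Type*) [CommRing K] [IsDomain K] (p : ℕ) [NeZero p] :
    Fintype (rootsOfUnity p K) :=
  Fintype.ofFinite _

/-- `∏ x(u q)` over `u ^ p = 1`. -/
def twistProd (K : Type*) [Field K] (p : ℕ) [NeZero p] (x : LaurentSeries K) : LaurentSeries K :=
  ∏ u : rootsOfUnity p K, twist (u : Kˣ) x

section TwistProd

variable {K L : Type*} [Field K] [Field L] (p : ℕ) [NeZero p]

theorem twistProd_div (x y : LaurentSeries K) :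
    twistProd K p (x / y) = twistProd K p x / twistProd K p y := by
  simp only [twistProd, map_div₀, Finset.prod_div_distrib]

theorem coeffMap_twistProd [HasEnoughRootsOfUnity K p] (φ : K →+* L) (x : LaurentSeries K) :
    coeffMap φ (twistProd K p x) = twistProd L p (coeffMap φ x) := by
  rw [twistProd, twistProd, map_prod]
  have hbij : Function.Bijective (restrictRootsOfUnity φ p) := by
    have hinj : Function.Injective (restrictRootsOfUnity φ p) := fun u v h => by
      refine Subtype.ext (Units.ext (φ.injective ?_))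
      exact congrArg (fun w : rootsOfUnity p L => ((w : Lˣ) : L)) h
    refine (Fintype.bijective_iff_injective_and_card _).mpr
      ⟨hinj, le_antisymm (Fintype.card_le_of_injective _ hinj) ?_⟩
    rw [← Nat.card_eq_fintype_card, ← Nat.card_eq_fintype_card,
      HasEnoughRootsOfUnity.natCard_rootsOfUnity K p]
    exact card_rootsOfUnity L p
  refine Fintype.prod_bijective _ hbij _ _ fun u => ?_
  rw [Semistable.coeffMap_twist]
  exact congrArg (fun w => twist w (coeffMap φ x)) (Units.ext rfl)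

theorem twistProd_eq_prod_affineRoot (x : LaurentSeries ℂ) :
    twistProd ℂ p x = ∏ j : Fin p, twist (affineRoot ((j : ℕ) : ℤ) p) x := by
  have hprim : IsPrimitiveRoot (affineRoot 1 p) p := by
    refine IsPrimitiveRoot.coe_units_iff.mp ?_
    have := Complex.isPrimitiveRoot_exp p (NeZero.ne p)
    simpa [affineRoot] using this
  have hpow : ∀ j : ℕ, affineRoot (j : ℤ) p = affineRoot 1 p ^ j := fun j => by
    refine Units.ext ?_
    simp only [affineRoot, Units.val_mk0, Units.val_pow_eq_pow_val, ← Complex.exp_nat_mul]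
    congr 1
    push_cast
    ring
  have hmem : ∀ j : Fin p, affineRoot ((j : ℕ) : ℤ) p ∈ rootsOfUnity p ℂ := fun j => by
    rw [mem_rootsOfUnity, hpow, ← pow_mul, mul_comm, pow_mul, hprim.pow_eq_one, one_pow]
  have hinj : Function.Injective fun j : Fin p => (⟨_, hmem j⟩ : rootsOfUnity p ℂ) :=
    fun i j h => by
    have h1 : affineRoot ((i : ℕ) : ℤ) p = affineRoot ((j : ℕ) : ℤ) p := congrArg Subtype.val h
    rw [hpow, hpow] at h1
    exact Fin.ext (hprim.pow_inj i.2 j.2 h1)
  refine (Fintype.prod_bijective _ ((Fintype.bijective_iff_injective_and_card _).mpr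
    ⟨hinj, le_antisymm (Fintype.card_le_of_injective _ hinj) ?_⟩) _ _ fun j => rfl).symm
  rw [Fintype.card_fin, ← Nat.card_eq_fintype_card]
  exact card_rootsOfUnity ℂ p

end TwistProd

variable {M : ℕ} [NeZero M] [GoodLevel M]

/-! ### Over `ℂ` -/

omit [NeZero M] [GoodLevel M] in
theorem intReps_diaRep (u : (ZMod M)ˣ) : IntReps (RT.GammaH.diaRep (M := M) u) := fun _ =>
  ⟨_, isIntMat_mapGL _, by rw [Matrix.SpecialLinearGroup.det_coe]; exact one_pos⟩

theorem corr_diaRep (u : (ZMod M)ˣ) (x : F1C M) :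
    corr (admissible_diaRep u) (intReps_diaRep u) x = diaF M u x := by
  have key : ∀ a : Hol1 M, corr (admissible_diaRep u) (intReps_diaRep u) (toF1C M a) =
      diaF M u (toF1C M a) := fun a => by
    rw [corr_toF1C, diaF_toF1C]
    refine congrArg _ (hol1_ext fun τ => ?_)
    rw [corrHol_apply, Fintype.prod_unique]
    exact comp_gamma0_eq_dia a (gamma0Elt_mem _) u (Or.inl (gamma0Elt_inv_lowerRight u)) τ
  obtain ⟨a, b, -, rfl⟩ := exists_div_eq1 x
  rw [corr_div, map_div₀, key, key]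

variable (p : ℕ) [hp : Fact p.Prime]

omit [NeZero M] [GoodLevel M] in
theorem intReps_hRep : IntReps (hRep M p) := fun i => by
  obtain ⟨B, hB, hd, -⟩ := hRep_mem_heckeSet (K := Subgroup.zpowers (-1 : (ZMod M)ˣ)) i
  exact ⟨B, hB, by rw [hd]; exact_mod_cast hp.out.pos⟩

/-- The Hecke correspondence. -/
def heckeC (x : F1C M) : F1C M := corr admissible_hRep (intReps_hRep p) x

variable {p} (hpM : ¬ p ∣ M)

/-- The class of `p`. -/
def unitP : (ZMod M)ˣ :=
  ZMod.unitOfCoprime p ((Nat.Prime.coprime_iff_not_dvd hp.out).2 hpM)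

omit [NeZero M] [GoodLevel M] in
theorem coe_unitP : ((unitP hpM : (ZMod M)ˣ) : ZMod M) = p := ZMod.coe_unitOfCoprime _ _

/-- The representatives as a sum. -/
def hIdxEquiv : Option (Fin p) ≃ HIdx M p where
  toFun o := ⟨o, fun _ => hpM⟩
  invFun i := i.1
  left_inv _ := rfl
  right_inv _ := Subtype.ext rfl

include hpM in
theorem qExpand_heckeC (x : F1C M) :
    haveI : NeZero p := ⟨hp.out.ne_zero⟩
    qExpand ℂ p (heckeC p x : LaurentSeries ℂ) =
      qExpand ℂ p (qExpand ℂ p (diaF M (unitP hpM) x : LaurentSeries ℂ)) *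
        twistProd ℂ p (x : LaurentSeries ℂ) := by
  have : NeZero p := ⟨hp.out.ne_zero⟩
  have : NeZero (p * p) := ⟨mul_ne_zero hp.out.ne_zero hp.out.ne_zero⟩
  -- For holomorphic functions compare the two sides on the upper half plane.
  have key : ∀ a : Hol1 M, qExpand ℂ p (heckeC p (toF1C M a) : LaurentSeries ℂ) =
      qExpand ℂ p (qExpand ℂ p (diaF M (unitP hpM) (toF1C M a) : LaurentSeries ℂ)) *
        twistProd ℂ p (toF1C M a : LaurentSeries ℂ) := fun a => by
    rw [heckeC, corr_toF1C, diaF_toF1C, coe_toF1C, coe_toF1C, coe_toF1C, qExpand_qExpand,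
      twistProd_eq_prod_affineRoot]
    set T := corrHol admissible_hRep (intReps_hRep (M := M) p) a
    set D := dia M (unitP hpM) a
    let ι1 : Hol1 M →ₐ[ℂ] CuspAlg 1 := Subalgebra.inclusion Hol1_le_CuspAlg_one
    have hfun : compAffine p 0 p (ι1 T) = compAffine (p * p) 0 p (ι1 D) *
        ∏ j : Fin p, compAffine 1 ((j : ℕ) : ℤ) p (ι1 a) := by
      refine Subtype.ext (funext fun τ => ?_)
      rw [Subalgebra.coe_mul, Pi.mul_apply, SubmonoidClass.coe_finsetProd, Finset.prod_apply]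
      show (T : ℍ → ℂ) (affine p 0 p τ) = (D : ℍ → ℂ) (affine (p * p) 0 p τ) *
        ∏ j : Fin p, (a : ℍ → ℂ) (affine 1 ((j : ℕ) : ℤ) p τ)
      have hp0 : (p : ℂ) ≠ 0 := Nat.cast_ne_zero.mpr hp.out.ne_zero
      have e1 : affine p 0 p τ = τ := UpperHalfPlane.ext (by
        rw [ModFun.coe_affine]; push_cast; field_simp; ring)
      -- The correspondence is the product over the standard coset representatives.
      rw [e1, corrHol_apply, ← (hIdxEquiv (p := p) hpM).prod_comp, Fintype.prod_option]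
      refine congrArg₂ (· * ·) ?_ (Finset.prod_congr rfl fun j _ => ?_)
      · show (a : ℍ → ℂ) ((mapGL ℝ (gamma0Elt (unitP hpM)⁻¹) *
          ModularForm.heckeDiagMatrix p) • τ) = _
        rw [mul_smul]
        have e2 : ModularForm.heckeDiagMatrix p • τ = affine (p * p) 0 p τ :=
          UpperHalfPlane.ext (by
            rw [ModularForm.coe_heckeDiagMatrix_smul hp.out.ne_zero, ModFun.coe_affine]
            push_cast; field_simp; ring)
        rw [e2]
        exact comp_gamma0_eq_dia a (gamma0Elt_mem _) _ (Or.inl (gamma0Elt_inv_lowerRight _)) _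
      · refine congrArg (a : ℍ → ℂ) (UpperHalfPlane.ext ?_)
        show ((ModularForm.heckeMatrix p j • τ : UpperHalfPlane) : ℂ) = _
        rw [ModularForm.coe_heckeMatrix_smul hp.out.ne_zero, ModFun.coe_affine]
        push_cast; ring
    have h := congrArg (laurentExp p) hfun
    rw [map_mul, map_prod, laurentExp_compAffine, laurentExp_compAffine] at h
    simp only [laurentExp_compAffine, ModFun.affineRoot_zero, ModFun.twist_one,
      qExpand_one_apply] at h
    exact h
  -- For quotients use multiplicativity.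
  obtain ⟨a, b, -, rfl⟩ := exists_div_eq1 x
  have hdiv : heckeC p (toF1C M a / toF1C M b) =
      heckeC p (toF1C M a) / heckeC p (toF1C M b) := corr_div _ _ _ _
  rw [hdiv, map_div₀ (diaF M _)]
  simp only [IntermediateField.coe_div, map_div₀, twistProd_div, key]
  rw [div_mul_div_comm]

/-! ### Over `ℚ̄` -/

/-- The arithmetic action on the field over `ℚ̄`. -/
abbrev galF (σ : Qb ≃ₐ[ℚ] Qb) : JacTorsion.FQ (F1 M) ≃+* JacTorsion.FQ (F1 M) :=
  arithmeticRingAut (F1 M) σ

theorem galF_diaQ (σ : Qb ≃ₐ[ℚ] Qb) (r : (ZMod M)ˣ) (x : JacTorsion.FQ (F1 M)) :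
    galF σ (diaQ M r x) = diaQ M r (galF σ x) := by
  have hU : ∀ a, galF σ (uQ M a) = uQ M a := fun a => Subtype.ext (by
    rw [coe_arithmeticRingAut_apply, coe_uQ, coeffMap_uK])
  have hbase : ∀ y : modularFunctionFieldBar M,
      galF σ (algebraMap (modularFunctionFieldBar M) (JacTorsion.FQ (F1 M)) y) =
        algebraMap (modularFunctionFieldBar M) (JacTorsion.FQ (F1 M))
          (arithmeticRingAut (modularFunctionFieldFull M) σ y) := fun y => Subtype.ext (by
    rw [coe_arithmeticRingAut_apply, coe_algebraMap_F0, coe_algebraMap_F0,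
      coe_arithmeticRingAut_apply])
  have h : (galF (M := M) σ).toRingHom.comp (diaQ M r).toRingHom =
      (diaQ M r).toRingHom.comp (galF (M := M) σ).toRingHom := by
    refine hom_ext_FQ (fun y => ?_) ?_
    · rw [RingHom.comp_apply, RingHom.comp_apply, RingEquiv.toRingHom_eq_coe, RingHom.coe_coe,
        AlgHom.toRingHom_eq_coe, RingHom.coe_coe, AlgHom.commutes, hbase, AlgHom.commutes]
    · rw [RingHom.comp_apply, RingHom.comp_apply, RingEquiv.toRingHom_eq_coe, RingHom.coe_coe,
        AlgHom.toRingHom_eq_coe, RingHom.coe_coe, diaQ_uQ_one, hU, hU, diaQ_uQ_one]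
  have h2 := DFunLike.congr_fun h x
  rw [RingHom.comp_apply, RingHom.comp_apply, RingEquiv.toRingHom_eq_coe, RingHom.coe_coe,
    AlgHom.toRingHom_eq_coe, RingHom.coe_coe] at h2
  exact h2

include hpM in
theorem exists_heckeQ (x : JacTorsion.FQ (F1 M)) :
    ∃ z : JacTorsion.FQ (F1 M),
      (JacTorsion.extQ (F1 M)).emb z = heckeC p ((JacTorsion.extQ (F1 M)).emb x) := by
  have : NeZero p := ⟨hp.out.ne_zero⟩
  set e := (JacTorsion.extQ (F1 M)).emb
  set S : LaurentSeries Qb :=
    qExpand Qb p (qExpand Qb p (diaQ M (unitP hpM) x : LaurentSeries Qb)) *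
    twistProd Qb p (x : LaurentSeries Qb)
  set y : LaurentSeries ℂ := (heckeC p (e x) : LaurentSeries ℂ)
  have hS : coeffMap JacTorsion.ιQ S = qExpand ℂ p y := by
    rw [qExpand_heckeC hpM (e x), map_mul, coeffMap_qExpand, coeffMap_qExpand,
      coeffMap_twistProd, ← emb_diaQ, JacTorsion.coe_extQ, JacTorsion.coe_extQ]
  have hc : ∀ n : ℤ, JacTorsion.ιQ (S.coeff ((p : ℤ) * n)) = y.coeff n := fun n => by
    rw [← qExpand_coeff_mul p y n, ← hS, coeffMap_coeff]
  let y0 : LaurentSeries Qb := ⟨fun n => S.coeff ((p : ℤ) * n),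
    y.isPWO_support.mono fun n hn => by
      simp only [Function.mem_support, HahnSeries.mem_support, ne_eq] at hn ⊢
      rw [← hc n]
      exact (_root_.map_ne_zero _).mpr hn⟩
  have hy0 : coeffMap JacTorsion.ιQ y0 = y := HahnSeries.ext (funext fun n => by
    rw [coeffMap_coeff]; exact hc n)
  have hmem : y0 ∈ JacTorsion.FQ (F1 M) := by
    refine JacTorsion.mem_of_coeffMap_mem_cExt (ι := JacTorsion.ιQ) ?_
    rw [hy0, JacTorsion.cExt_laurentBaseChange]
    exact (heckeC p (e x)).2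
  exact ⟨⟨y0, hmem⟩, Subtype.ext hy0⟩

/-- The Hecke correspondence over `ℚ̄`. -/
def heckeQ (x : JacTorsion.FQ (F1 M)) : JacTorsion.FQ (F1 M) := (exists_heckeQ hpM x).choose

theorem emb_heckeQ (x : JacTorsion.FQ (F1 M)) :
    (JacTorsion.extQ (F1 M)).emb (heckeQ hpM x) = heckeC p ((JacTorsion.extQ (F1 M)).emb x) :=
  (exists_heckeQ hpM x).choose_spec

theorem qExpand_heckeQ (x : JacTorsion.FQ (F1 M)) :
    haveI : NeZero p := ⟨hp.out.ne_zero⟩
    qExpand Qb p (heckeQ hpM x : LaurentSeries Qb) =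
      qExpand Qb p (qExpand Qb p (diaQ M (unitP hpM) x : LaurentSeries Qb)) *
        twistProd Qb p (x : LaurentSeries Qb) := by
  have : NeZero p := ⟨hp.out.ne_zero⟩
  have hinj : Function.Injective (coeffMap JacTorsion.ιQ) := fun a b h =>
    HahnSeries.ext (funext fun k => JacTorsion.ιQ.injective (by
      simpa using congrArg (fun z => HahnSeries.coeff z k) h))
  refine hinj ?_
  rw [map_mul, coeffMap_qExpand, coeffMap_qExpand, coeffMap_qExpand, coeffMap_twistProd,
    ← JacTorsion.coe_extQ, ← JacTorsion.coe_extQ, ← JacTorsion.coe_extQ, emb_heckeQ, emb_diaQ]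
  exact qExpand_heckeC hpM _

theorem galF_heckeQ (σ : Qb ≃ₐ[ℚ] Qb) (x : JacTorsion.FQ (F1 M)) :
    galF σ (heckeQ hpM x) = heckeQ hpM (galF σ x) := by
  have : NeZero p := ⟨hp.out.ne_zero⟩
  refine Subtype.ext (qExpand_injective (R := Qb) (N := p) ?_)
  rw [qExpand_heckeQ, ← galF_diaQ, coe_arithmeticRingAut_apply, coe_arithmeticRingAut_apply,
    coe_arithmeticRingAut_apply, ← coeffMap_qExpand, qExpand_heckeQ, map_mul, coeffMap_qExpand,
    coeffMap_qExpand, coeffMap_twistProd]

/-! ### On monodromy -/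

variable {m : ℕ} [NeZero m]

theorem exists_divGrp_of_emb {f : divGrp ℂ (F1C M) m} {z : JacTorsion.FQ (F1 M)}
    (hz : (JacTorsion.extQ (F1 M)).emb z = ((f : (F1C M)ˣ) : F1C M)) :
    ∃ g : divGrp Qb (JacTorsion.FQ (F1 M)) m,
      ((g : (JacTorsion.FQ (F1 M))ˣ) : JacTorsion.FQ (F1 M)) = z ∧
      (kummerChar1 M m (QuotientGroup.mk g)).toAdd.1 = (rootChar1 M m f).1 := by
  have hz0 : z ≠ 0 := fun h => Units.ne_zero (f : (F1C M)ˣ) (by rw [← hz, h, map_zero])
  have hmem : Units.mk0 z hz0 ∈ divGrp Qb (JacTorsion.FQ (F1 M)) m := fun P => by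
    obtain ⟨P', hP'⟩ := JacTorsion.exists_place_over (JacTorsion.extQ (F1 M)) P
      (JacTorsion.residueConst_of_isFunctionField P)
    rw [Units.val_mk0, ← hP', hz]
    exact f.2 P'
  refine ⟨⟨_, hmem⟩, rfl, ?_⟩
  have : JacTorsion.divGrpExt m ⟨_, hmem⟩ = f := Subtype.ext (Units.ext hz)
  show (rootChar1 M m (JacTorsion.divGrpExt m ⟨_, hmem⟩)).1 = _
  rw [this]

theorem heckeQ_kummerChar1 (f : divGrp Qb (JacTorsion.FQ (F1 M)) m) :
    ∃ g : divGrp Qb (JacTorsion.FQ (F1 M)) m,
      ((g : (JacTorsion.FQ (F1 M))ˣ) : JacTorsion.FQ (F1 M)) =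
        heckeQ hpM ((f : (JacTorsion.FQ (F1 M))ˣ) : JacTorsion.FQ (F1 M)) ∧
      (kummerChar1 M m (QuotientGroup.mk g)).toAdd.1 =
        RT.GammaH.hecke M (Subgroup.zpowers (-1)) p ℕ
          (kummerChar1 M m (QuotientGroup.mk f)).toAdd.1 := by
  obtain ⟨g, hg, hgχ⟩ := corr_divGrp (m := m) admissible_hRep (intReps_hRep (M := M) p)
    (fun φ hφ => hecke_mem_ellParHoms (R := ℕ) hφ) (JacTorsion.divGrpExt m f)
  obtain ⟨g', hg', hg'χ⟩ := exists_divGrp_of_emb (f := g)
    (z := heckeQ hpM ((f : (JacTorsion.FQ (F1 M))ˣ) : JacTorsion.FQ (F1 M)))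
    (by rw [hg, emb_heckeQ]; rfl)
  exact ⟨g', hg', hg'χ.trans hgχ⟩

theorem diaQ_kummerChar1 (u : (ZMod M)ˣ) (f : divGrp Qb (JacTorsion.FQ (F1 M)) m) :
    ∃ g : divGrp Qb (JacTorsion.FQ (F1 M)) m,
      ((g : (JacTorsion.FQ (F1 M))ˣ) : JacTorsion.FQ (F1 M)) =
        diaQ M u ((f : (JacTorsion.FQ (F1 M))ˣ) : JacTorsion.FQ (F1 M)) ∧
      (kummerChar1 M m (QuotientGroup.mk g)).toAdd.1 =
        RT.GammaH.diamond M (Subgroup.zpowers (-1)) ℕ u
          (kummerChar1 M m (QuotientGroup.mk f)).toAdd.1 := by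
  obtain ⟨g, hg, hgχ⟩ := corr_divGrp (m := m) (admissible_diaRep u) (intReps_diaRep (M := M) u)
    (fun φ hφ => diamond_mem_ellParHoms (R := ℕ) u hφ) (JacTorsion.divGrpExt m f)
  obtain ⟨g', hg', hg'χ⟩ := exists_divGrp_of_emb (f := g)
    (z := diaQ M u ((f : (JacTorsion.FQ (F1 M))ˣ) : JacTorsion.FQ (F1 M)))
    (by rw [hg, corr_diaRep, emb_diaQ]; rfl)
  exact ⟨g', hg', hg'χ.trans hgχ⟩

end Fermat.Agent.DeligneSerre.Curve
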