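import Fermat.Agent.DeligneSerre.Curve.Field
import Fermat.Agent.ModFun.Embed
import Mathlib.FieldTheory.PrimitiveElement

/-!
# Embeddings of the field of `±Γ₁(M)` and its degree over the `j`-line
-/

set_option autoImplicit false

noncomputable section

open UpperHalfPlane hiding I
open Function Filter CongruenceSubgroup Polynomial
open Fermat.Agent.ModFun (MerH HolH CuspAlg laurentExp toMerH jd evalC evJC actMer actHol)
open scoped MatrixGroups IntermediateField

attribute [local instance 10000] SubalgebraClass.toAlgebra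
attribute [local instance 10001] Subalgebra.algebra
attribute [-instance] IsScalarTower.of_algHom

namespace Fermat.Agent.DeligneSerre.Curve

variable {M : ℕ} [NeZero M]

attribute [local instance] Fintype.ofFinite

omit [NeZero M] in
theorem injective_toMerH_tr1 (c : Coset1 M) :
    Function.Injective ((toMerH M).comp (tr1 M c)) :=
  fun _ _ h => compSL1_injective _ (ModFun.toMerH_injective M h)

theorem injective_laurentExp_tr1 (c : Coset1 M) :
    Function.Injective ((laurentExp M).comp (tr1 M c)) :=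
  fun _ _ h => compSL1_injective _ (ModFun.laurentExp_injective M h)

variable [GoodLevel M]

/-- The embedding `x ↦ x (c⁻¹ τ)` into meromorphic functions. -/
def emb1 (M : ℕ) [NeZero M] [GoodLevel M] (c : Coset1 M) : F1C M →ₐ[ℂ] MerH :=
  IsFractionRing.liftAlgHom (A := Hol1 M) (g := (toMerH M).comp (tr1 M c))
    (injective_toMerH_tr1 c)

theorem emb1_toF1C (c : Coset1 M) (a : Hol1 M) :
    emb1 M c (toF1C M a) = toMerH M (tr1 M c a) := by
  rw [emb1, ← algebraMap_hol1_apply, IsFractionRing.liftAlgHom_apply]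
  exact IsFractionRing.lift_algebraMap _ a

/-- The expansion in `exp (2πiτ/M)` of `x (c⁻¹ τ)`. -/
def cuspEmb1 (M : ℕ) [NeZero M] [GoodLevel M] (c : Coset1 M) : F1C M →ₐ[ℂ] LaurentSeries ℂ :=
  IsFractionRing.liftAlgHom (A := Hol1 M) (g := (laurentExp M).comp (tr1 M c))
    (injective_laurentExp_tr1 c)

theorem cuspEmb1_toF1C (c : Coset1 M) (a : Hol1 M) :
    cuspEmb1 M c (toF1C M a) = laurentExp M (tr1 M c a) := by
  rw [cuspEmb1, ← algebraMap_hol1_apply, IsFractionRing.liftAlgHom_apply]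
  exact IsFractionRing.lift_algebraMap _ a

variable (M)

/-- `j` in the complex field. -/
def jF1 : F1C M := toF1C M (Subalgebra.inclusion Hol_le_Hol1 (jd (one_dvd M)))

variable {M}

theorem coe_jF1 : (jF1 M : LaurentSeries ℂ) = ModularCurve.jqModC ℂ := by
  rw [jF1, coe_toF1C, qExp1_inclusion, ModFun.qExp_jd_one]

theorem jF1_eq_jBase1 : jF1 M = jBase1 M ℂ :=
  Subtype.ext (by rw [coe_jF1, coe_jBase1])

theorem transcendental_jF1 : Transcendental ℂ (jF1 M) :=
  jF1_eq_jBase1 (M := M) ▸ transcendental_jBase1 M ℂ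

theorem finite_jF1 : FiniteDimensional ℂ⟮jF1 M⟯ (F1C M) := by
  rw [jF1_eq_jBase1]; exact finite_jBase1 M ℂ

omit [GoodLevel M] [NeZero M] in
theorem tr1_jd_one (c : Coset1 M) :
    tr1 M c (Subalgebra.inclusion Hol_le_Hol1 (jd (one_dvd M))) = ModFun.jC M := by
  refine Subtype.ext (funext fun τ => ?_)
  induction c using QuotientGroup.induction_on with
  | H x =>
    rw [tr1_mk]
    show (jd (one_dvd M) : ℍ → ℂ) (x⁻¹ • τ) = ModFun.jH τ
    rw [ModFun.jd_one_apply, ModFun.jH_smul]

/-- In every embedding `j` of the function field is the modular invariant. -/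
theorem emb1_jF1 (c : Coset1 M) : emb1 M c (jF1 M) = toMerH M (ModFun.jC M) := by
  rw [jF1, emb1_toF1C, tr1_jd_one]

theorem cuspEmb1_jF1 (c : Coset1 M) : cuspEmb1 M c (jF1 M) = laurentExp M (ModFun.jC M) := by
  rw [jF1, cuspEmb1_toF1C, tr1_jd_one]

/-- The translates of `j (M τ)` and of `u` separate the cosets. -/
theorem coset1_ext {x y : SL(2, ℤ)}
    (hj : ∀ τ : ℍ, (jd (dvd_refl M) : ℍ → ℂ) (x⁻¹ • τ) = (jd (dvd_refl M) : ℍ → ℂ) (y⁻¹ • τ))
    (hu : ∀ τ : ℍ, (uC (M := M) 1 : ℍ → ℂ) (x⁻¹ • τ) = (uC (M := M) 1 : ℍ → ℂ) (y⁻¹ • τ)) :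
    (x : Coset1 M) = y := by
  rw [QuotientGroup.eq]
  have h0 : x⁻¹ * y ∈ Gamma0 M := ModFun.mem_Gamma0_of_jd_smul _ fun τ => by
    have := hj (y • τ)
    rw [inv_smul_smul, ModFun.jd_apply, ModFun.jd_apply] at this
    rwa [mul_smul]
  obtain ⟨d, hd⟩ := isUnit_lowerRight h0
  have h1 : uC (M := M) d = uC 1 := by
    refine hol1_ext fun τ => ?_
    rw [← dia_uC_one, ← comp_gamma0_eq_dia (uC 1) h0 d (Or.inl hd.symm)]
    have := hu (y • τ)
    rw [inv_smul_smul] at this
    rwa [mul_smul]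
  have h2 := congrArg (qExp1 M) h1
  rw [qExp1_uC, qExp1_uC] at h2
  rw [mem_G1_iff]
  refine ⟨Gamma0_mem.1 h0, ?_⟩
  rcases uK_eq_iff (Nat.cast_ne_zero.2 (NeZero.ne M)) h2.symm with h | h
  · left; rw [← hd, h]; rfl
  · right; rw [← hd, h]; simp

theorem tr1_pair_injective {c c' : Coset1 M}
    (hj : tr1 M c (Subalgebra.inclusion Hol_le_Hol1 (jd (dvd_refl M)))
      = tr1 M c' (Subalgebra.inclusion Hol_le_Hol1 (jd (dvd_refl M))))
    (hu : tr1 M c (uC 1) = tr1 M c' (uC 1)) : c = c' := by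
  induction c using QuotientGroup.induction_on with
  | H x =>
    induction c' using QuotientGroup.induction_on with
    | H y =>
      refine coset1_ext (fun τ => ?_) fun τ => ?_
      · have := congrFun (congrArg Subtype.val hj) τ
        rwa [tr1_mk, tr1_mk] at this
      · have := congrFun (congrArg Subtype.val hu) τ
        rwa [tr1_mk, tr1_mk] at this

theorem emb1_injective : Function.Injective (emb1 M) := by
  intro c c' h
  refine tr1_pair_injective (ModFun.toMerH_injective M ?_) (ModFun.toMerH_injective M ?_)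
  · have := DFunLike.congr_fun h (toF1C M (Subalgebra.inclusion Hol_le_Hol1 (jd (dvd_refl M))))
    rwa [emb1_toF1C, emb1_toF1C] at this
  · have := DFunLike.congr_fun h (toF1C M (uC 1))
    rwa [emb1_toF1C, emb1_toF1C] at this

theorem cuspEmb1_injective : Function.Injective (cuspEmb1 M) := by
  intro c c' h
  refine tr1_pair_injective (ModFun.laurentExp_injective M ?_) (ModFun.laurentExp_injective M ?_)
  · have := DFunLike.congr_fun h (toF1C M (Subalgebra.inclusion Hol_le_Hol1 (jd (dvd_refl M))))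
    rwa [cuspEmb1_toF1C, cuspEmb1_toF1C] at this
  · have := DFunLike.congr_fun h (toF1C M (uC 1))
    rwa [cuspEmb1_toF1C, cuspEmb1_toF1C] at this

/-- Composition with `g` permutes the embeddings by left translation of the cosets. -/
theorem emb1_smul (g : SL(2, ℤ)) (c : Coset1 M) (x : F1C M) :
    actMer g (emb1 M c x) = emb1 M (g⁻¹ • c) x := by
  obtain ⟨a, b, -, rfl⟩ := exists_div_eq1 x
  have key : ∀ f : Hol1 M, actMer g (toMerH M (tr1 M c f)) = toMerH M (tr1 M (g⁻¹ • c) f) := by
    intro f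
    rw [ModFun.toMerH_apply, ModFun.actMer_algebraMap, ModFun.toMerH_apply]
    congr 1
    exact Subtype.ext (funext fun τ => tr1_smul_eq g c f τ)
  simp only [map_div₀, emb1_toF1C, key]

/-! ### Characteristic polynomials over `ℂ[j]` -/

/-- `P ↦ P (j)` in `Hol1 M`. -/
def evJ1 (M : ℕ) [NeZero M] : Polynomial ℂ →ₐ[ℂ] Hol1 M :=
  (Subalgebra.inclusion Hol_le_Hol1).comp (ModFun.evJ M)

omit [GoodLevel M] in
theorem tr1_comp_evJ1 (c : Coset1 M) :
    (tr1 M c).toRingHom.comp (evJ1 M).toRingHom = (evJC M).toRingHom := by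
  have h : (tr1 M c).comp (evJ1 M) = evJC M := by
    refine Polynomial.algHom_ext ?_
    rw [AlgHom.comp_apply, evJ1, AlgHom.comp_apply, ModFun.evJ, evJC, aeval_X, aeval_X]
    exact tr1_jd_one c
  exact congrArg AlgHom.toRingHom h

omit [GoodLevel M] in
theorem tr1_eval₂ (c : Coset1 M) (x : Hol1 M) (Q : Polynomial (Polynomial ℂ)) :
    tr1 M c (Q.eval₂ (evJ1 M).toRingHom x) = (Q.map (evJC M).toRingHom).eval (tr1 M c x) := by
  rw [Polynomial.eval_map, ← tr1_comp_evJ1 c]
  exact Polynomial.hom_eval₂ _ _ (tr1 M c).toRingHom _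

/-- `∏ (X - g_c)` over all translates. -/
def trPoly1 (g : Hol1 M) : Polynomial (CuspAlg M) := ∏ c : Coset1 M, (X - C (tr1 M c g))

omit [GoodLevel M] in
theorem trPoly1_mem_lifts (g : Hol1 M) : trPoly1 g ∈ Polynomial.lifts (evJC M).toRingHom := by
  refine ModFun.exists_lift _ fun γ τ => ?_
  have h : ∀ τ, (trPoly1 g).map (evalC M τ).toRingHom
      = ∏ c : Coset1 M, (X - C ((tr1 M c g : ℍ → ℂ) τ)) := by
    intro τ
    rw [trPoly1, Polynomial.map_prod]
    exact Finset.prod_congr rfl fun c _ => by simp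
  simp only [h, tr1_smul_eq]
  exact Fintype.prod_equiv (MulAction.toPerm γ⁻¹) _ _ fun c => rfl

omit [GoodLevel M] in
theorem exists_charPoly1 (g : Hol1 M) : ∃ Q : Polynomial (Polynomial ℂ),
    Q.Monic ∧ Q.natDegree = Nat.card (Coset1 M) ∧ Q.map (evJC M).toRingHom = trPoly1 g ∧
      Q.eval₂ (evJ1 M).toRingHom g = 0 := by
  obtain ⟨Q, hQ, hdeg, hmon⟩ :=
    Polynomial.lifts_and_natDegree_eq_and_monic (trPoly1_mem_lifts g)
      (monic_prod_of_monic _ _ fun _ _ => monic_X_sub_C _)
  refine ⟨Q, hmon, hdeg.trans ?_, hQ, ?_⟩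
  · rw [trPoly1, natDegree_finsetProd_X_sub_C_eq_card, Finset.card_univ,
      Nat.card_eq_fintype_card]
  refine compSL1_injective ((1 : SL(2, ℤ)) : Coset1 M).out⁻¹ ?_
  show tr1 M ((1 : SL(2, ℤ)) : Coset1 M) _ = tr1 M ((1 : SL(2, ℤ)) : Coset1 M) 0
  rw [map_zero, tr1_eval₂, hQ, trPoly1, Polynomial.eval_prod]
  exact Finset.prod_eq_zero (Finset.mem_univ ((1 : SL(2, ℤ)) : Coset1 M)) (by simp)

theorem toF1C_evJ1 (P : Polynomial ℂ) : toF1C M (evJ1 M P) = aeval (jF1 M) P := by
  have h : (toF1C M).comp (evJ1 M) = aeval (jF1 M) := by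
    refine Polynomial.algHom_ext ?_
    rw [AlgHom.comp_apply, evJ1, AlgHom.comp_apply, ModFun.evJ, aeval_X, aeval_X]
    rfl
  exact DFunLike.congr_fun h P

omit [GoodLevel M] in
theorem exists_mul_eq_evJ1 {b : Hol1 M} (hb : b ≠ 0) :
    ∃ (b' : Hol1 M) (P : Polynomial ℂ), P ≠ 0 ∧ b * b' = evJ1 M P := by
  obtain ⟨Q, -, -, hQ, h0⟩ := exists_charPoly1 b
  refine ⟨-((Q.divX).eval₂ (evJ1 M).toRingHom b), Q.coeff 0, fun h => ?_, ?_⟩
  · have h1 := congrArg (fun p => Polynomial.coeff p 0) hQ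
    simp only [Polynomial.coeff_map, h, map_zero, trPoly1, Polynomial.coeff_zero_prod] at h1
    obtain ⟨c, -, hc⟩ := Finset.prod_eq_zero_iff.mp h1.symm
    exact hb (compSL1_injective _ ((by simpa using hc : tr1 M c b = 0).trans (map_zero _).symm))
  · have h1 := congrArg (fun p => Polynomial.eval₂ (evJ1 M).toRingHom b p)
      (Polynomial.X_mul_divX_add Q)
    simp only [Polynomial.eval₂_add, Polynomial.eval₂_mul, Polynomial.eval₂_X, Polynomial.eval₂_C,
      h0] at h1
    have h2 : (evJ1 M).toRingHom (Q.coeff 0) = evJ1 M (Q.coeff 0) := rfl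
    rw [h2] at h1
    linear_combination -h1

theorem emb1_eq_on_adjoin (c c' : Coset1 M) (x : ℂ⟮jF1 M⟯) :
    emb1 M c (x : F1C M) = emb1 M c' (x : F1C M) := by
  obtain ⟨r, t, hrt⟩ := (IntermediateField.mem_adjoin_simple_iff ℂ _).mp x.2
  rw [hrt, map_div₀, map_div₀, ← Polynomial.aeval_algHom_apply, ← Polynomial.aeval_algHom_apply,
    ← Polynomial.aeval_algHom_apply, ← Polynomial.aeval_algHom_apply, emb1_jF1, emb1_jF1]

/-- The degree of the field of `±Γ₁(M)` over `ℂ(j)`. -/
theorem finrank_jF1 : Module.finrank ℂ⟮jF1 M⟯ (F1C M) = Nat.card (Coset1 M) := by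
  have := finite_jF1 (M := M)
  set L := ℂ⟮jF1 M⟯ with hL
  refine le_antisymm ?_ ?_
  -- A primitive element may be taken integral, killed by its characteristic polynomial.
  · have : CharZero L := charZero_of_injective_algebraMap (algebraMap ℂ L).injective
    have : Algebra.IsIntegral L (F1C M) := Algebra.IsIntegral.of_finite L (F1C M)
    have : Algebra.IsSeparable L (F1C M) := Algebra.IsSeparable.of_integral L (F1C M)
    obtain ⟨θ, hθ⟩ := Field.exists_primitive_element L (F1C M)
    obtain ⟨a, b, hb, hab⟩ := exists_div_eq1 θ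
    obtain ⟨b', P, hP, hbb⟩ := exists_mul_eq_evJ1 hb
    set g := a * b'
    have hPj : toF1C M (evJ1 M P) ∈ L := by
      rw [toF1C_evJ1]
      exact (IntermediateField.mem_adjoin_simple_iff ℂ _).mpr ⟨P, 1, by rw [map_one, div_one]⟩
    have hb0 : toF1C M b ≠ 0 := (map_ne_zero_iff _ toF1C_injective).mpr hb
    have hb'0 : toF1C M b' ≠ 0 := by
      refine (map_ne_zero_iff _ toF1C_injective).mpr fun h => hP ?_
      refine transcendental_iff.mp (transcendental_jF1 (M := M)) P ?_
      rw [← toF1C_evJ1, ← hbb, h, mul_zero, map_zero]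
    have hθ' : θ = toF1C M g / toF1C M (evJ1 M P) := by
      rw [hab, ← hbb, map_mul, map_mul, mul_div_mul_right _ _ hb'0]
    have hg : L⟮toF1C M g⟯ = ⊤ := by
      refine top_le_iff.mp (hθ ▸ IntermediateField.adjoin_le_iff.mpr ?_)
      rw [Set.singleton_subset_iff, SetLike.mem_coe, hθ']
      exact div_mem (IntermediateField.mem_adjoin_simple_self L _)
        (L⟮toF1C M g⟯.algebraMap_mem ⟨_, hPj⟩)
    obtain ⟨Q, hQm, hQd, -, hQ⟩ := exists_charPoly1 g
    let ι : ℂ[X] →+* L :=
      (Polynomial.aeval (R := ℂ) (⟨jF1 M, IntermediateField.mem_adjoin_simple_self ℂ _⟩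
        : L)).toRingHom
    have hι : (algebraMap L (F1C M)).comp ι = (toF1C M).toRingHom.comp (evJ1 M).toRingHom := by
      refine RingHom.ext fun P => ?_
      show _ = toF1C M (evJ1 M P)
      rw [toF1C_evJ1]
      exact (Polynomial.aeval_algHom_apply (IsScalarTower.toAlgHom ℂ L (F1C M)) _ P).symm
    have hroot : Polynomial.aeval (toF1C M g) (Q.map ι) = 0 := by
      rw [Polynomial.aeval_def, Polynomial.eval₂_map, hι]
      refine (Polynomial.hom_eval₂ Q (evJ1 M).toRingHom (toF1C M).toRingHom g).symm.trans ?_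
      rw [hQ, map_zero]
    have hint : IsIntegral L (toF1C M g) := ⟨Q.map ι, hQm.map ι, hroot⟩
    rw [← IntermediateField.finrank_top', ← hg, IntermediateField.adjoin.finrank hint]
    refine (Polynomial.natDegree_le_of_dvd (minpoly.dvd L _ hroot) (hQm.map ι).ne_zero).trans ?_
    exact Polynomial.natDegree_map_le.trans hQd.le
  -- Conversely the embeddings attached to the cosets are distinct.
  · let : Algebra L MerH :=
      ((emb1 M ((1 : SL(2, ℤ)) : Coset1 M)).toRingHom.comp (algebraMap L (F1C M))).toAlgebra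
    let ψ : Coset1 M → (F1C M →ₐ[L] MerH) := fun c =>
      { (emb1 M c).toRingHom with commutes' := fun x => emb1_eq_on_adjoin c _ x }
    have hψ : Function.Injective ψ := fun a b h =>
      emb1_injective (AlgHom.ext fun x => DFunLike.congr_fun h x)
    have : Finite (F1C M →ₐ[L] MerH) := Finite.of_fintype _
    have : Module.Free L (F1C M) := Module.Free.of_divisionRing L (F1C M)
    exact (Nat.card_le_card_of_injective ψ hψ).trans (card_algHom_le_finrank L (F1C M) MerH)

end Fermat.Agent.DeligneSerre.Curve
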