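import Fermat.Agent.DeligneSerre.Curve.Reduce
import Fermat.Agent.DeligneSerre.Curve.CorrSeries
import Fermat.Agent.Arith.RootsOfUnity
import Fermat.Prelude.Def_GaloisRep_Residual

/-!
# The Galois action on the homomorphisms of `±Γ₁(M)` modulo `ℓ`

It is transported from the Kummer group over `ℚ̄`. It commutes with Hecke and diamond operators,
is unramified at `p ∤ M ℓ` and satisfies the Eichler–Shimura relation there.
-/

set_option autoImplicit false

noncomputable section

open ModularCurve AlgebraicCurve IsLocalRing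
open Fermat.Agent.JacTorsion (divGrp powGrp KummerGrp)
open Fermat.Agent.EichlerShimura (pow_eq_qExpand_frobenius)

namespace Fermat.Agent.DeligneSerre.Curve

local notation "Qb" => AlgebraicClosure ℚ
local notation "GalQ" => (AlgebraicClosure ℚ ≃ₐ[ℚ] AlgebraicClosure ℚ)

variable (M : ℕ) [NeZero M] [GoodLevel M] (ℓ : ℕ) [NeZero ℓ]

/-- `Hom(±Γ₁(M), ℤ/ℓ)` with trivial values on elliptic and parabolic elements. -/
abbrev homV : Type := Gamma0.ellParHoms (G1 M) (ZMod ℓ)

/-- Functions with divisor divisible by `ℓ`. -/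
abbrev divQb : Type := divGrp Qb (JacTorsion.FQ (F1 M)) ℓ

variable {M ℓ}

/-- The function underlying an element of `divQb`. -/
abbrev fn (f : divQb M ℓ) : JacTorsion.FQ (F1 M) :=
  ((f : (JacTorsion.FQ (F1 M))ˣ) : JacTorsion.FQ (F1 M))

omit [NeZero M] [NeZero ℓ] in
theorem fn_injective : Function.Injective (fn (M := M) (ℓ := ℓ)) := fun _ _ h =>
  Subtype.ext (Units.ext h)

/-- The monodromy of a function. -/
def chi (f : divQb M ℓ) : homV M ℓ := (kummerChar1 M ℓ (QuotientGroup.mk f)).toAdd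

theorem chi_mul (f g : divQb M ℓ) : chi (f * g) = chi f + chi g := by
  rw [chi, QuotientGroup.mk_mul, map_mul, toAdd_mul, chi, chi]

theorem chi_pow (f : divQb M ℓ) : ∀ n : ℕ, chi (f ^ n) = n • chi f
  | 0 => by rw [pow_zero, zero_smul, chi, QuotientGroup.mk_one, map_one, toAdd_one]
  | n + 1 => by rw [pow_succ, chi_mul, chi_pow f n, succ_nsmul]

theorem chi_surjective : Function.Surjective (chi (M := M) (ℓ := ℓ)) := fun v => by
  obtain ⟨z, hz⟩ := (kummerChar1_bijective M ℓ).surjective (Multiplicative.ofAdd v)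
  obtain ⟨f, rfl⟩ := QuotientGroup.mk_surjective z
  exact ⟨f, by rw [chi, hz, toAdd_ofAdd]⟩

/-- The Galois action on functions with divisor divisible by `ℓ`. -/
def galDiv (σ : GalQ) : divQb M ℓ →* divQb M ℓ :=
  ((Units.map (galF (M := M) σ).toRingHom.toMonoidHom).comp (Subgroup.subtype _)).codRestrict _
    fun f => by
      intro P
      show (ℓ : ℤ) ∣ P.ord (galF σ (fn f))
      have h := SemilinearAut.ord_smul (arithmeticGalois (F1 M) σ)
        ((arithmeticGalois (F1 M) σ)⁻¹ • P) (fn f)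
      rw [smul_inv_smul] at h
      exact (f.2 _).trans (dvd_of_eq h.symm)

omit [NeZero M] [NeZero ℓ] in
theorem fn_galDiv (σ : GalQ) (f : divQb M ℓ) : fn (galDiv σ f) = galF σ (fn f) := rfl

/-- The Galois action on the Kummer group. -/
def galKum (σ : GalQ) : KummerGrp Qb (JacTorsion.FQ (F1 M)) ℓ →*
    KummerGrp Qb (JacTorsion.FQ (F1 M)) ℓ :=
  QuotientGroup.map _ _ (galDiv σ) fun f hf => by
    obtain ⟨g, hg⟩ := hf
    refine ⟨Units.map (galF (M := M) σ).toRingHom.toMonoidHom g, ?_⟩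
    rw [powMonoidHom_apply] at hg ⊢
    rw [← map_pow, hg]
    rfl

variable (M ℓ) in
/-- The equivalence of the Kummer group with `homV`. -/
def kummerEquiv1 : KummerGrp Qb (JacTorsion.FQ (F1 M)) ℓ ≃* Multiplicative (homV M ℓ) :=
  MulEquiv.ofBijective (kummerChar1 M ℓ) (kummerChar1_bijective M ℓ)

/-- The Galois action on `homV`, as a function. -/
def galFun (σ : GalQ) : AddMonoid.End (homV M ℓ) :=
  AddMonoidHom.mk'
    (fun v => (kummerEquiv1 M ℓ (galKum σ ((kummerEquiv1 M ℓ).symm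
      (Multiplicative.ofAdd v)))).toAdd)
    fun v w => by rw [ofAdd_add, map_mul, map_mul, map_mul, toAdd_mul]

theorem galFun_chi (σ : GalQ) (f : divQb M ℓ) : galFun σ (chi f) = chi (galDiv σ f) := by
  have h : (kummerEquiv1 M ℓ).symm (Multiplicative.ofAdd (chi f)) = QuotientGroup.mk f :=
    (MulEquiv.symm_apply_eq _).mpr rfl
  show (kummerEquiv1 M ℓ (galKum σ ((kummerEquiv1 M ℓ).symm
    (Multiplicative.ofAdd (chi f))))).toAdd = _
  rw [h]
  rfl

variable (M ℓ) in
/-- The Galois action on `homV`. -/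
def galV : GalQ →* AddMonoid.End (homV M ℓ) where
  toFun := galFun
  map_one' := AddMonoidHom.ext fun v => by
    obtain ⟨f, rfl⟩ := chi_surjective v
    show galFun 1 (chi f) = chi f
    rw [galFun_chi]
    refine congrArg chi (fn_injective ?_)
    rw [fn_galDiv]
    refine Subtype.ext ?_
    rw [coe_arithmeticRingAut_apply,
      show ((1 : GalQ) : Qb →+* Qb) = RingHom.id Qb from RingHom.ext fun _ => rfl, coeffMap_id]
  map_mul' σ τ := AddMonoidHom.ext fun v => by
    obtain ⟨f, rfl⟩ := chi_surjective v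
    show galFun (σ * τ) (chi f) = galFun σ (galFun τ (chi f))
    rw [galFun_chi, galFun_chi, galFun_chi]
    refine congrArg chi (fn_injective ?_)
    rw [fn_galDiv, fn_galDiv, fn_galDiv]
    refine Subtype.ext ?_
    rw [coe_arithmeticRingAut_apply, coe_arithmeticRingAut_apply, coe_arithmeticRingAut_apply,
      coeffMap_coeffMap]
    exact coeffMap_congr (RingHom.ext fun _ => rfl) _

theorem galV_chi (σ : GalQ) (f : divQb M ℓ) : galV M ℓ σ (chi f) = chi (galDiv σ f) :=
  galFun_chi σ f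

/-! ### Operators -/

theorem galV_hecke {p : ℕ} [Fact p.Prime] (hpM : ¬ p ∣ M) (σ : GalQ) {v w : homV M ℓ}
    (hw : w.1 = RT.GammaH.hecke M (Subgroup.zpowers (-1)) p ℕ v.1) :
    (galV M ℓ σ w).1 = RT.GammaH.hecke M (Subgroup.zpowers (-1)) p ℕ (galV M ℓ σ v).1 := by
  obtain ⟨f, rfl⟩ := chi_surjective v
  obtain ⟨g, hg, hgχ⟩ := heckeQ_kummerChar1 hpM f
  obtain ⟨g', hg', hg'χ⟩ := heckeQ_kummerChar1 hpM (galDiv σ f)
  have hwg : w = chi g := Subtype.ext (hw.trans hgχ.symm)
  rw [hwg, galV_chi, galV_chi]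
  refine Eq.trans ?_ hg'χ
  refine congrArg (fun f => (chi f).1) (fn_injective ?_)
  show galF σ (fn g) = fn g'
  rw [show fn g = _ from hg, show fn g' = _ from hg', galF_heckeQ]
  rfl

theorem galV_diamond (u : (ZMod M)ˣ) (σ : GalQ) {v w : homV M ℓ}
    (hw : w.1 = RT.GammaH.diamond M (Subgroup.zpowers (-1)) ℕ u v.1) :
    (galV M ℓ σ w).1 = RT.GammaH.diamond M (Subgroup.zpowers (-1)) ℕ u (galV M ℓ σ v).1 := by
  obtain ⟨f, rfl⟩ := chi_surjective v
  obtain ⟨g, hg, hgχ⟩ := diaQ_kummerChar1 u f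
  obtain ⟨g', hg', hg'χ⟩ := diaQ_kummerChar1 u (galDiv σ f)
  have hwg : w = chi g := Subtype.ext (hw.trans hgχ.symm)
  rw [hwg, galV_chi, galV_chi]
  refine Eq.trans ?_ hg'χ
  refine congrArg (fun f => (chi f).1) (fn_injective ?_)
  show galF σ (fn g) = fn g'
  rw [show fn g = _ from hg, show fn g' = _ from hg', galF_diaQ]
  rfl

/-! ### Finite level -/

omit [NeZero M] in
theorem exists_finset_fix (x : JacTorsion.FQ (F1 M)) :
    ∃ S : Finset Qb, ∀ σ : GalQ, (∀ c ∈ S, σ c = c) → galF σ x = x := by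
  suffices h : ∀ y ∈ JacTorsion.FQ (F1 M), ∃ S : Finset Qb, ∀ σ : GalQ, (∀ c ∈ S, σ c = c) →
      coeffMap (σ : Qb →+* Qb) y = y by
    obtain ⟨S, hS⟩ := h x x.2
    exact ⟨S, fun σ hσ => Subtype.ext ((coe_arithmeticRingAut_apply _ _ _).trans (hS σ hσ))⟩
  intro y hy
  induction hy using IntermediateField.adjoin_induction with
  | mem z hz =>
    obtain ⟨z₀, -, rfl⟩ := hz
    refine ⟨∅, fun σ _ => ?_⟩
    rw [coeffEmb, coeffMap_coeffMap]
    exact coeffMap_congr (RingHom.ext fun a => σ.commutes a) _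
  | algebraMap c =>
    refine ⟨{c}, fun σ hσ => ?_⟩
    rw [coeffMap_algebraMap]
    exact congrArg _ (hσ c (Finset.mem_singleton_self c))
  | add a b _ _ ha hb =>
    obtain ⟨S, hS⟩ := ha
    obtain ⟨T, hT⟩ := hb
    refine ⟨S ∪ T, fun σ hσ => ?_⟩
    rw [map_add, hS σ fun c hc => hσ c (Finset.mem_union_left _ hc),
      hT σ fun c hc => hσ c (Finset.mem_union_right _ hc)]
  | inv a _ ha =>
    obtain ⟨S, hS⟩ := ha
    exact ⟨S, fun σ hσ => by rw [map_inv₀, hS σ hσ]⟩
  | mul a b _ _ ha hb =>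
    obtain ⟨S, hS⟩ := ha
    obtain ⟨T, hT⟩ := hb
    refine ⟨S ∪ T, fun σ hσ => ?_⟩
    rw [map_mul, hS σ fun c hc => hσ c (Finset.mem_union_left _ hc),
      hT σ fun c hc => hσ c (Finset.mem_union_right _ hc)]

variable (M ℓ) in
theorem galV_finite_level : GaloisFactorsThroughFiniteLevel (galV M ℓ) := by
  have := finite_ellParHoms1 M ℓ
  have : Fintype (homV M ℓ) := Fintype.ofFinite _
  choose f hf using chi_surjective (M := M) (ℓ := ℓ)
  choose S hS using fun v : homV M ℓ => exists_finset_fix (fn (f v))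
  let T : Finset Qb := Finset.univ.biUnion S
  refine ⟨IntermediateField.adjoin ℚ (T : Set Qb),
    IntermediateField.finiteDimensional_adjoin fun x _ => Algebra.IsIntegral.isIntegral x,
    fun σ hσ => AddMonoidHom.ext fun v => ?_⟩
  show galV M ℓ σ v = v
  conv_lhs => rw [← hf v]
  rw [galV_chi]
  refine Eq.trans (congrArg chi (fn_injective ?_)) (hf v)
  rw [fn_galDiv]
  exact hS v σ fun c hc => hσ c (IntermediateField.subset_adjoin ℚ _
    (Finset.mem_biUnion.mpr ⟨v, Finset.mem_univ v, hc⟩))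

/-! ### Places prime to `M ℓ` -/

variable {A : ValuationSubring Qb}

/-- Functions with the same reduction have the same monodromy. -/
theorem chi_eq_of_isRed [IsAlgClosed (ResidueField A)] (hℓ : ℓ.Prime)
    (hMA : (M : ResidueField A) ≠ 0) (hℓA : (ℓ : ResidueField A) ≠ 0) {f g : divQb M ℓ}
    {r : LaurentSeries (ResidueField A)} (hf : IsRed A (fn f : LaurentSeries Qb) r)
    (hg : IsRed A (fn g : LaurentSeries Qb) r) : chi f = chi g := by
  have hq : IsRed A (fn (f * g⁻¹) : LaurentSeries Qb) 1 := by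
    have h := hf.mul hg.inv
    rw [mul_inv_cancel₀ hf.red_ne_zero] at h
    show IsRed A (((((f : (JacTorsion.FQ (F1 M))ˣ) * (g : (JacTorsion.FQ (F1 M))ˣ)⁻¹) :
      (JacTorsion.FQ (F1 M))ˣ) : JacTorsion.FQ (F1 M)) : LaurentSeries Qb) 1
    rw [Units.val_mul, Units.val_inv_eq_inv_val, IntermediateField.coe_mul,
      IntermediateField.coe_inv]
    exact h
  obtain ⟨w, hw⟩ := (exists_red_and_lift hMA (fn (f * g⁻¹)) (Units.ne_zero _)).2 ℓ hℓ hℓA
    (f * g⁻¹).2 hq
  have hw0 : w ≠ 0 := fun h => Units.ne_zero ((f * g⁻¹ : divQb M ℓ) : (JacTorsion.FQ (F1 M))ˣ)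
    (show fn (f * g⁻¹) = 0 by rw [← hw, h, zero_pow (NeZero.ne ℓ)])
  have hmk : (QuotientGroup.mk (f * g⁻¹) : KummerGrp Qb (JacTorsion.FQ (F1 M)) ℓ) = 1 :=
    (QuotientGroup.eq_one_iff _).mpr ⟨Units.mk0 w hw0, Units.ext (by
      rw [powMonoidHom_apply, Units.val_pow_eq_pow_val, Units.val_mk0, hw]; rfl)⟩
  have h0 : chi (f * g⁻¹) = 0 := by rw [chi, hmk, map_one, toAdd_one]
  calc chi f = chi (f * g⁻¹) + chi g := by rw [← chi_mul, inv_mul_cancel_right]
    _ = chi g := by rw [h0, zero_add]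

theorem galV_inertia (hℓ : ℓ.Prime) {p : ℕ} (hp : p.Prime) (hpM : ¬ p ∣ M) (hpℓ : p ≠ ℓ)
    (hA : A.LiesOverPrime p) {σ : GalQ} (hσ : σ ∈ A.inertiaSubgroupIn ℚ) : galV M ℓ σ = 1 := by
  have := Arith.residueField_isAlgClosed A
  have hMA := Arith.natCast_residue_ne_zero hA hp hpM
  have hℓA := Arith.natCast_residue_ne_zero hA hp fun h =>
    hpℓ ((Nat.prime_dvd_prime_iff_eq hp hℓ).mp h)
  obtain ⟨hdec, hin⟩ := Arith.mem_inertia_iff_forall_mem.mp hσ
  refine AddMonoidHom.ext fun v => ?_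
  obtain ⟨f, rfl⟩ := chi_surjective v
  show galV M ℓ σ (chi f) = chi f
  rw [galV_chi]
  obtain ⟨r, hr⟩ := (exists_red_and_lift hMA (fn f) (Units.ne_zero _)).1
  have h2 := hr.coeffMap (σ : Qb →+* Qb)
    (fun x hx => Arith.map_mem_of_mem_decomposition hdec hx) (RingHom.id _)
    (fun x => (Arith.residue_eq_iff.mpr (hin x x.2)).symm)
  rw [coeffMap_id] at h2
  exact chi_eq_of_isRed hℓ hMA hℓA (by rw [fn_galDiv, coe_arithmeticRingAut_apply]; exact h2) hr

/-- The Eichler–Shimura relation. -/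
theorem galV_frobenius (hℓ : ℓ.Prime) {p : ℕ} [hp : Fact p.Prime] (hpM : ¬ p ∣ M) (hpℓ : p ≠ ℓ)
    (hA : A.LiesOverPrime p) {σ : GalQ} (hσ : A.IsFrobeniusAt σ p) (v : homV M ℓ) :
    (galV M ℓ σ (galV M ℓ σ v)).1
      + p • RT.GammaH.diamond M (Subgroup.zpowers (-1)) ℕ (unitP hpM) v.1
      = RT.GammaH.hecke M (Subgroup.zpowers (-1)) p ℕ (galV M ℓ σ v).1 := by
  have := Arith.residueField_isAlgClosed A
  have := Arith.residueField_charP hA hp.out
  have : NeZero p := ⟨hp.out.ne_zero⟩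
  have hMA := Arith.natCast_residue_ne_zero hA hp.out hpM
  have hℓA := Arith.natCast_residue_ne_zero hA hp.out
    fun h => hpℓ ((Nat.prime_dvd_prime_iff_eq hp.out hℓ).mp h)
  obtain ⟨hdec, hfr⟩ := Arith.isFrobeniusAt_iff_forall_mem.mp hσ
  have hgal : ∀ {x : JacTorsion.FQ (F1 M)} {r : LaurentSeries (ResidueField A)},
      IsRed A (x : LaurentSeries Qb) r →
      IsRed A (galF σ x : LaurentSeries Qb) (coeffMap (frobenius (ResidueField A) p) r) := by
    intro x r hx
    rw [coe_arithmeticRingAut_apply]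
    exact hx.coeffMap (σ : Qb →+* Qb) (fun x hx => Arith.map_mem_of_mem_decomposition hdec hx) _
      fun x => by
        rw [frobenius_def, ← map_pow]
        exact (Arith.residue_eq_iff.mpr (hfr x x.2)).symm
  obtain ⟨f, rfl⟩ := chi_surjective v
  obtain ⟨d, hd, hdχ⟩ := diaQ_kummerChar1 (unitP hpM) f
  obtain ⟨t, ht, htχ⟩ := heckeQ_kummerChar1 hpM (galDiv σ f)
  rw [galV_chi, galV_chi]
  refine Eq.trans ?_ htχ
  have hdχ' : (chi d).1 = RT.GammaH.diamond M (Subgroup.zpowers (-1)) ℕ (unitP hpM) (chi f).1 :=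
    hdχ
  rw [← hdχ', ← AddSubgroup.coe_nsmul, ← AddSubgroup.coe_add]
  refine congrArg Subtype.val ?_
  show chi (galDiv σ (galDiv σ f)) + p • chi d = chi t
  rw [← chi_pow, ← chi_mul]
  -- reductions
  obtain ⟨r, hr⟩ := (exists_red_and_lift hMA (fn f) (Units.ne_zero _)).1
  obtain ⟨s, hs⟩ := (exists_red_and_lift hMA (fn d) (Units.ne_zero _)).1
  have hy := hgal hr
  have hyy := hgal hy
  have hsum : IsRed A (fn (galDiv σ (galDiv σ f) * d ^ p) : LaurentSeries Qb)
      (coeffMap (frobenius (ResidueField A) p) (coeffMap (frobenius (ResidueField A) p) r)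
        * s ^ p) := by
    show IsRed A (((((galDiv σ (galDiv σ f) : divQb M ℓ) : (JacTorsion.FQ (F1 M))ˣ) *
      ((d : divQb M ℓ) : (JacTorsion.FQ (F1 M))ˣ) ^ p : (JacTorsion.FQ (F1 M))ˣ) :
        JacTorsion.FQ (F1 M)) : LaurentSeries Qb) _
    rw [Units.val_mul, Units.val_pow_eq_pow_val, IntermediateField.coe_mul,
      IntermediateField.coe_pow]
    exact hyy.mul (hs.pow p)
  obtain ⟨u, hu⟩ := (exists_red_and_lift hMA (fn t) (Units.ne_zero _)).1
  have htser : qExpand Qb p (fn t : LaurentSeries Qb) =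
      qExpand Qb p (qExpand Qb p (galF σ (fn d) : LaurentSeries Qb)) *
        twistProd Qb p (galF σ (fn f) : LaurentSeries Qb) := by
    rw [show fn t = _ from ht, qExpand_heckeQ, show fn d = _ from hd, galF_diaQ]
    rfl
  have hprod : IsRed A (twistProd Qb p (galF σ (fn f) : LaurentSeries Qb))
      (coeffMap (frobenius (ResidueField A) p) r ^ p) := by
    have h := IsRed.prod (A := A) (Finset.univ : Finset (rootsOfUnity p Qb))
      (F := fun u : rootsOfUnity p Qb => ModFun.twist (u : Qbˣ) (galF σ (fn f) : LaurentSeries Qb))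
      (R := fun _ => coeffMap (frobenius (ResidueField A) p) r)
      fun u _ => hy.twist hp.out _ ((mem_rootsOfUnity _ _).mp u.2)
    rw [Finset.prod_const, Finset.card_univ, ← Nat.card_eq_fintype_card,
      HasEnoughRootsOfUnity.natCard_rootsOfUnity Qb p] at h
    exact h
  have hrhs := (((hgal hs).qExpand p).qExpand p).mul hprod
  rw [← htser, ← pow_eq_qExpand_frobenius, pow_eq_qExpand_frobenius p
    (coeffMap (frobenius (ResidueField A) p) r), ← map_mul] at hrhs
  obtain ⟨k, hk, hk'⟩ := (hu.qExpand p).unique hrhs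
  have hk'' : s ^ p * coeffMap (frobenius (ResidueField A) p)
      (coeffMap (frobenius (ResidueField A) p) r) = algebraMap _ _ k * u := by
    refine qExpand_injective (R := ResidueField A) (N := p) ?_
    rw [hk', map_mul (qExpand (ResidueField A) p) (algebraMap _ _ k),
      algebraMap_laurentSeries_eq_single, qExpand_single, mul_zero]
  rw [mul_comm _ (s ^ p)] at hsum
  exact chi_eq_of_isRed hℓ hMA hℓA hsum (hk'' ▸ hu.const_mul hk)

end Fermat.Agent.DeligneSerre.Curve
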