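import Fermat.Agent.DeligneSerre.Curve.Kummer

/-!
# The field of `±Γ₁(M)` over `ℚ̄` as a simple extension of that of `Γ₀(M)`

`U = uK ℚ̄ 1` generates, its minimal polynomial is `∏ (X - u_a)`, and the diamond automorphisms
`u_a ↦ u_{a r}` are defined over `ℚ`.
-/

set_option autoImplicit false

noncomputable section

open Polynomial ModularCurve
open Fermat.Agent.ModFun (Hol qExp qExp_mem_FC laurentBaseChange_eq_fullC)
open scoped Classical

attribute [local instance 10000] SubalgebraClass.toAlgebra
attribute [-instance] IsScalarTower.of_algHom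

namespace Fermat.Agent.DeligneSerre.Curve

local notation "Qb" => AlgebraicClosure ℚ

variable {M : ℕ} [NeZero M] [GoodLevel M]

/-! ### Interpolation over `ℚ` -/

variable (M) in
/-- The interpolation polynomial of `u_a` on series. -/
def interpQ (a : (ZMod M)ˣ) : Polynomial (LaurentSeries ℚ) :=
  ∑ q : Idx M, C (uK ℚ (a * q.out)) *
    ∏ q' ∈ Finset.univ.erase q, (X - C (uK ℚ q'.out))

theorem coeff_interpQ_mem (a : (ZMod M)ˣ) (n : ℕ) :
    (interpQ M a).coeff n ∈ modularFunctionFieldFull M := by
  refine JacTorsion.mem_of_coeffMap_mem_cExt (ι := algebraMap ℚ ℂ) ?_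
  show coeffEmb ℂ ((interpQ M a).coeff n) ∈ laurentBaseChange ℂ (modularFunctionFieldFull M)
  have h : (interpQ M a).map (coeffEmb ℂ) = (interp1 (uC (M := M) a)).map (qExp1 M).toRingHom := by
    rw [interpQ, interp1, Polynomial.map_sum, Polynomial.map_sum]
    refine Finset.sum_congr rfl fun q _ => ?_
    rw [Polynomial.map_mul, Polynomial.map_mul, Polynomial.map_prod, Polynomial.map_prod,
      Polynomial.map_C, Polynomial.map_C]
    refine congrArg₂ (· * ·) (congrArg C ?_) (Finset.prod_congr rfl fun q' _ => ?_)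
    · show coeffEmb ℂ (uK ℚ (a * q.out)) = qExp1 M (dia M q.out (uC a))
      rw [coeffEmb_uK, dia_uC, qExp1_uC]
    · rw [Polynomial.map_sub, Polynomial.map_sub, Polynomial.map_X, Polynomial.map_X,
        Polynomial.map_C, Polynomial.map_C]
      refine congrArg (fun x : LaurentSeries ℂ => X - C x) ?_
      show coeffEmb ℂ (uK ℚ q'.out) = qExp1 M (dia M q'.out (uC 1))
      rw [coeffEmb_uK, dia_uC_one, qExp1_uC]
  have h2 := congrArg (fun P => Polynomial.coeff P n) h
  simp only [coeff_map] at h2
  obtain ⟨g, hg⟩ := exists_hol_coeff (P := interp1 (uC (M := M) a))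
    (fun r => map_dia_interp1 r _) n
  rw [h2, ← hg, laurentBaseChange_eq_fullC]
  show qExp1 M _ ∈ _
  rw [qExp1_inclusion]
  exact qExp_mem_FC g

section Field

variable (L : Type*) [Field L] [Algebra ℚ L] [CharZero L]

omit [Algebra ℚ L] in
theorem uK_ne_of_ne {q q' : Idx M} (h : q ≠ q') : uK (M := M) L q.out ≠ uK L q'.out := fun he =>
  h (idx_eq_of_eq_or_neg (uK_eq_iff (K := L) (Nat.cast_ne_zero.2 (NeZero.ne M)) he)).symm

omit [Algebra ℚ L] in
theorem uK_out (a : (ZMod M)ˣ) : uK (M := M) L (QuotientGroup.mk a : Idx M).out = uK L a := by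
  rcases out_mk_eq a with h | h <;> rw [h]
  rw [uK_neg]

/-- Interpolation: `u_a` is rational in `u_1` over the field of `Γ₀(M)`. -/
theorem uK_mem_adjoin_one (a : (ZMod M)ˣ) :
    uK L a ∈ IntermediateField.adjoin L
      ((laurentBaseChange L (modularFunctionFieldFull M) : Set (LaurentSeries L))
        ∪ {uK (M := M) L 1}) := by
  set S := IntermediateField.adjoin L
      ((laurentBaseChange L (modularFunctionFieldFull M) : Set (LaurentSeries L))
        ∪ {uK (M := M) L 1})
  have hc : ∀ {P : Polynomial (LaurentSeries ℚ)}, (∀ n, P.coeff n ∈ modularFunctionFieldFull M) →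
      (P.map (coeffEmb L)).eval (uK (M := M) L 1) ∈ S := by
    intro P hP
    rw [eval_map, eval₂_eq_sum_range]
    have h1 : uK (M := M) L 1 ∈ S :=
      IntermediateField.subset_adjoin L _ (Set.mem_union_right _ (Set.mem_singleton _))
    refine sum_mem fun i _ => mul_mem ?_ (pow_mem h1 i)
    exact IntermediateField.subset_adjoin L _
      (Set.mem_union_left _ (coeffEmb_mem_laurentBaseChange L (hP i)))
  set q₁ : Idx M := QuotientGroup.mk 1
  have hq₁ : uK (M := M) L q₁.out = uK L 1 := uK_out (M := M) L 1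
  -- Interpolate: the value at `u₁` is `u_a` times the product over the other conjugates.
  have hint : ((interpQ M a).map (coeffEmb L)).eval (uK (M := M) L 1) =
      uK (M := M) L a * ∏ q' ∈ Finset.univ.erase q₁, (uK (M := M) L 1 - uK (M := M) L q'.out) := by
    simp only [interpQ, Polynomial.map_sum, Polynomial.map_mul, Polynomial.map_prod,
      Polynomial.map_sub, map_X, map_C, coeffEmb_uK, eval_finsetSum, eval_mul, eval_C, eval_prod,
      eval_sub, eval_X]
    rw [Finset.sum_eq_single q₁]
    · have hq : q₁.out = 1 ∨ q₁.out = -1 := out_mk_eq (1 : (ZMod M)ˣ)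
      have ha : uK (M := M) L (a * q₁.out) = uK (M := M) L a := by
        rcases hq with h | h <;> rw [h]
        · rw [mul_one]
        · rw [mul_neg_one, uK_neg]
      rw [ha]
    · intro b _ hb
      rw [Finset.prod_eq_zero (Finset.mem_erase.mpr ⟨Ne.symm hb, Finset.mem_univ _⟩)
        (by rw [hq₁, sub_self]), mul_zero]
    · simp
  -- The derivative of the full product gives that same product.
  have hder : ((derivative (diaPolyQ M)).map (coeffEmb L)).eval (uK (M := M) L 1) =
      ∏ q' ∈ Finset.univ.erase q₁, (uK (M := M) L 1 - uK (M := M) L q'.out) := by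
    simp only [← derivative_map, diaPolyQ, Polynomial.map_prod, Polynomial.map_sub, map_X, map_C,
      coeffEmb_uK]
    rw [derivative_prod_finset, eval_finsetSum, Finset.sum_eq_single q₁]
    · simp [eval_prod, hq₁]
    · intro b _ hb
      rw [eval_mul, eval_prod,
        Finset.prod_eq_zero (Finset.mem_erase.mpr ⟨Ne.symm hb, Finset.mem_univ _⟩)
          (by simp [hq₁]), zero_mul]
    · simp
  have hne : (∏ q' ∈ Finset.univ.erase q₁, (uK (M := M) L 1 - uK (M := M) L q'.out)) ≠ 0 :=
    Finset.prod_ne_zero_iff.mpr fun q' hq' => sub_ne_zero.mpr (by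
      rw [← hq₁]; exact uK_ne_of_ne L (Finset.ne_of_mem_erase hq').symm)
  have h : uK (M := M) L a = ((interpQ M a).map (coeffEmb L)).eval (uK (M := M) L 1) /
      ((derivative (diaPolyQ M)).map (coeffEmb L)).eval (uK (M := M) L 1) := by
    rw [hint, hder, mul_div_cancel_right₀ _ hne]
  rw [h]
  refine div_mem (hc (coeff_interpQ_mem a)) (hc fun n => ?_)
  rw [coeff_derivative]
  exact mul_mem (coeff_diaPolyQ_mem _)
    (by simpa only [Nat.cast_add, Nat.cast_one] using natCast_mem (modularFunctionFieldFull M) (n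
      + 1))

theorem baseChange_F1_eq_one :
    laurentBaseChange L (F1 M) = IntermediateField.adjoin L
      ((laurentBaseChange L (modularFunctionFieldFull M) : Set (LaurentSeries L))
        ∪ {uK (M := M) L 1}) := by
  refine le_antisymm ?_ (IntermediateField.adjoin_le_iff.mpr ?_)
  · rw [baseChange_F1_eq, IntermediateField.adjoin_le_iff]
    rintro x (hx | ⟨a, rfl⟩)
    · exact IntermediateField.subset_adjoin L _ (Or.inl hx)
    · exact uK_mem_adjoin_one L a
  · rintro x (hx | rfl)
    · exact baseChange_full_le L hx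
    · exact uK_mem_baseChange L 1

end Field

/-! ### Diamond automorphisms over `ℂ` -/

omit [NeZero M] [GoodLevel M] in
theorem dia_injective (r : (ZMod M)ˣ) : Function.Injective (dia M r) := fun f g h => by
  have := congrArg (dia M r⁻¹) h
  rwa [dia_dia, dia_dia, mul_inv_cancel, dia_one, dia_one] at this

theorem toF1C_comp_dia_injective (r : (ZMod M)ˣ) :
    Function.Injective ((toF1C M).toRingHom.comp (dia M r).toRingHom) := by
  intro a b h
  rw [RingHom.comp_apply, RingHom.comp_apply] at h
  exact dia_injective r (toF1C_injective h)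

variable (M) in
/-- The diamond automorphism of `F1C M`, as a ring homomorphism. -/
def diaFR (r : (ZMod M)ˣ) : F1C M →+* F1C M := IsFractionRing.lift (toF1C_comp_dia_injective r)

theorem diaFR_toF1C (r : (ZMod M)ˣ) (a : Hol1 M) :
    diaFR M r (toF1C M a) = toF1C M (dia M r a) := by
  rw [← algebraMap_hol1_apply, diaFR, IsFractionRing.lift_algebraMap]
  rfl

variable (M) in
/-- The diamond automorphism of `F1C M`. -/
def diaF (r : (ZMod M)ˣ) : F1C M →ₐ[ℂ] F1C M :=
  { diaFR M r with
    commutes' := fun c => by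
      show diaFR M r (algebraMap ℂ (F1C M) c) = _
      rw [← (toF1C M).commutes c, diaFR_toF1C, (dia M r).commutes] }

theorem diaF_toF1C (r : (ZMod M)ˣ) (a : Hol1 M) :
    diaF M r (toF1C M a) = toF1C M (dia M r a) := diaFR_toF1C r a

theorem coe_diaF_uK (r a : (ZMod M)ˣ) (x : F1C M) (hx : (x : LaurentSeries ℂ) = uK ℂ a) :
    (diaF M r x : LaurentSeries ℂ) = uK ℂ (a * r) := by
  rw [show x = toF1C M (uC a) from Subtype.ext (hx.trans (qExp1_uC a).symm), diaF_toF1C, dia_uC,
    coe_toF1C, qExp1_uC]

theorem diaF_fix (r : (ZMod M)ˣ) (x : F1C M)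
    (hx : (x : LaurentSeries ℂ) ∈ laurentBaseChange ℂ (modularFunctionFieldFull M)) :
    diaF M r x = x := by
  rw [laurentBaseChange_eq_fullC] at hx
  obtain ⟨a, b, -, hab⟩ := ModFun.exists_div_eq (⟨_, hx⟩ : ModFun.FC M)
  have hx' : x = toF1C M (Subalgebra.inclusion Hol_le_Hol1 a) /
      toF1C M (Subalgebra.inclusion Hol_le_Hol1 b) := by
    refine Subtype.ext ?_
    rw [IntermediateField.coe_div, coe_toF1C, coe_toF1C, qExp1_inclusion, qExp1_inclusion]
    exact congrArg Subtype.val hab
  rw [hx', map_div₀, diaF_toF1C, diaF_toF1C, dia_inclusion, dia_inclusion]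

/-! ### The extension over `ℚ̄` -/

variable (M) in
/-- The field of `Γ₀(M)` as a subfield. -/
def inclF0 : modularFunctionFieldBar M →ₐ[Qb] JacTorsion.FQ (F1 M) :=
  IntermediateField.inclusion (baseChange_full_le Qb)

omit [NeZero M] in
theorem coe_inclF0 (x : modularFunctionFieldBar M) :
    (inclF0 M x : LaurentSeries Qb) = (x : LaurentSeries Qb) :=
  IntermediateField.coe_inclusion _ x

instance algebraF0 : Algebra (modularFunctionFieldBar M) (JacTorsion.FQ (F1 M)) :=
  (inclF0 M).toRingHom.toAlgebra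

omit [NeZero M] in
theorem algebraMap_F0_apply (x : modularFunctionFieldBar M) :
    algebraMap (modularFunctionFieldBar M) (JacTorsion.FQ (F1 M)) x = inclF0 M x := rfl

instance isScalarTower_F0 :
    IsScalarTower Qb (modularFunctionFieldBar M) (JacTorsion.FQ (F1 M)) :=
  IsScalarTower.of_algebraMap_eq fun x => by rw [algebraMap_F0_apply, AlgHom.commutes]

attribute [local instance 10001] algebraF0
attribute [-instance] LieRinehartAlgebra.toIsScalarTower
attribute [local instance 9000] Algebra.toModule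

omit [NeZero M] in
theorem coe_algebraMap_F0 (x : modularFunctionFieldBar M) :
    ((algebraMap (modularFunctionFieldBar M) (JacTorsion.FQ (F1 M)) x :
      JacTorsion.FQ (F1 M)) : LaurentSeries Qb) = (x : LaurentSeries Qb) := coe_inclF0 x

variable (M) in
/-- The generator `u_a`. -/
def uQ (a : (ZMod M)ˣ) : JacTorsion.FQ (F1 M) := ⟨uK Qb a, uK_mem_baseChange Qb a⟩

omit [NeZero M] in
theorem coe_uQ (a : (ZMod M)ˣ) : (uQ M a : LaurentSeries Qb) = uK Qb a := rfl

variable (M) in
/-- `∏ (X - u_a)` over the field of `Γ₀(M)`. -/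
def phiQ : Polynomial (modularFunctionFieldBar M) :=
  Polynomial.ofFn ((diaPolyQ M).natDegree + 1) fun i =>
    ⟨coeffEmb Qb ((diaPolyQ M).coeff i),
      coeffEmb_mem_laurentBaseChange Qb (coeff_diaPolyQ_mem _)⟩

theorem map_phiQ :
    (phiQ M).map (modularFunctionFieldBar M).val.toRingHom =
      ∏ q : Idx M, (X - C (uK Qb q.out)) := by
  have h : (diaPolyQ M).map (coeffEmb Qb) = ∏ q : Idx M, (X - C (uK Qb q.out)) := by
    simp only [diaPolyQ, Polynomial.map_prod, Polynomial.map_sub, map_X, map_C, coeffEmb_uK]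
  rw [← h]
  ext n : 1
  rw [coeff_map, coeff_map, phiQ]
  by_cases hn : n < (diaPolyQ M).natDegree + 1
  · rw [Polynomial.ofFn_coeff_eq_val_of_lt _ hn]; rfl
  · rw [Polynomial.ofFn_coeff_eq_zero_of_ge _ (not_lt.mp hn), map_zero,
      coeff_eq_zero_of_natDegree_lt (by omega), map_zero]

theorem phiQ_monic : (phiQ M).Monic := by
  refine monic_of_injective (f := (modularFunctionFieldBar M).val.toRingHom)
    (modularFunctionFieldBar M).val.injective ?_
  rw [map_phiQ]
  exact monic_prod_of_monic _ _ fun _ _ => monic_X_sub_C _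

theorem natDegree_phiQ : (phiQ M).natDegree = Fintype.card (Idx M) := by
  rw [← phiQ_monic.natDegree_map (modularFunctionFieldBar M).val.toRingHom, map_phiQ,
    natDegree_finsetProd_X_sub_C_eq_card, Finset.card_univ]

theorem aeval_phiQ (a : (ZMod M)ˣ) : aeval (uQ M a) (phiQ M) = 0 := by
  refine Subtype.ext ?_
  have h : (JacTorsion.FQ (F1 M)).val.toRingHom.comp
      (algebraMap (modularFunctionFieldBar M) (JacTorsion.FQ (F1 M)))
        = (modularFunctionFieldBar M).val.toRingHom := RingHom.ext fun y => coe_algebraMap_F0 y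
  show (JacTorsion.FQ (F1 M)).val.toRingHom (aeval (uQ M a) (phiQ M)) = 0
  rw [aeval_def, hom_eval₂, h, ← eval_map, map_phiQ, eval_prod]
  refine Finset.prod_eq_zero (Finset.mem_univ (QuotientGroup.mk a : Idx M)) ?_
  rw [eval_sub, eval_X, eval_C, uK_out]
  exact sub_self _

theorem adjoin_uQ_one :
    IntermediateField.adjoin (modularFunctionFieldBar M) {uQ M 1} = ⊤ := by
  refine eq_top_iff.mpr fun x _ => ?_
  set T := IntermediateField.adjoin (modularFunctionFieldBar M) {uQ M 1}
  have key : ∀ z ∈ IntermediateField.adjoin Qb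
      ((laurentBaseChange Qb (modularFunctionFieldFull M) : Set (LaurentSeries Qb))
        ∪ {uK (M := M) Qb 1}), ∃ w ∈ T, (w : LaurentSeries Qb) = z := by
    intro z hz
    induction hz using IntermediateField.adjoin_induction with
    | mem y hy =>
      rcases hy with hy | hy
      · exact ⟨algebraMap (modularFunctionFieldBar M) (JacTorsion.FQ (F1 M)) ⟨y, hy⟩,
          T.algebraMap_mem _, coe_algebraMap_F0 _⟩
      · rw [Set.mem_singleton_iff] at hy
        exact ⟨uQ M 1, IntermediateField.subset_adjoin _ _ (Set.mem_singleton _),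
          (coe_uQ 1).trans hy.symm⟩
    | algebraMap c =>
      refine ⟨algebraMap Qb (JacTorsion.FQ (F1 M)) c, ?_, rfl⟩
      rw [IsScalarTower.algebraMap_apply Qb (modularFunctionFieldBar M) (JacTorsion.FQ (F1 M))]
      exact T.algebraMap_mem _
    | add a b _ _ ha hb =>
      obtain ⟨u, hu, rfl⟩ := ha
      obtain ⟨w, hw, rfl⟩ := hb
      exact ⟨u + w, add_mem hu hw, IntermediateField.coe_add _ u w⟩
    | inv a _ ha =>
      obtain ⟨u, hu, rfl⟩ := ha
      exact ⟨u⁻¹, inv_mem hu, IntermediateField.coe_inv _ u⟩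
    | mul a b _ _ ha hb =>
      obtain ⟨u, hu, rfl⟩ := ha
      obtain ⟨w, hw, rfl⟩ := hb
      exact ⟨u * w, mul_mem hu hw, IntermediateField.coe_mul _ u w⟩
  obtain ⟨w, hw, he⟩ := key x (by rw [← baseChange_F1_eq_one]; exact x.2)
  rwa [Subtype.ext he] at hw

theorem finiteDimensional_F0 :
    FiniteDimensional (modularFunctionFieldBar M) (JacTorsion.FQ (F1 M)) := by
  have := IntermediateField.adjoin.finiteDimensional (K := modularFunctionFieldBar M)
    (x := uQ M 1) ⟨phiQ M, phiQ_monic, aeval_phiQ 1⟩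
  rw [adjoin_uQ_one] at this
  exact Module.Finite.equiv (IntermediateField.topEquiv.toLinearEquiv)

/-- Every conjugate `u_a` is a root of the minimal polynomial of `u_1`. -/
theorem minpoly_uQ_one : minpoly (modularFunctionFieldBar M) (uQ M 1) = phiQ M := by
  have hint : IsIntegral (modularFunctionFieldBar M) (uQ M 1) := ⟨phiQ M, phiQ_monic, aeval_phiQ 1⟩
  set P := minpoly (modularFunctionFieldBar M) (uQ M 1)
  -- Applying the diamond operators, every conjugate is a root of the minimal polynomial.
  have hroot : ∀ q : Idx M,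
      (P.map ((coeffMap JacTorsion.ιQ).comp (modularFunctionFieldBar M).val.toRingHom)).eval
        (uK ℂ q.out) = 0 := by
    intro q
    let e := (JacTorsion.extQ (F1 M)).emb
    let F := (F1C M).val.toRingHom.comp ((diaF M q.out).toRingHom.comp e)
    have h0 : F (aeval (uQ M 1) P) = 0 := by
      show F (aeval (uQ M 1) (minpoly _ (uQ M 1))) = 0
      rw [minpoly.aeval, map_zero]
    have hcomp : F.comp (algebraMap (modularFunctionFieldBar M) (JacTorsion.FQ (F1 M))) =
        (coeffMap JacTorsion.ιQ).comp (modularFunctionFieldBar M).val.toRingHom := by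
      refine RingHom.ext fun y => ?_
      show ((diaF M q.out) (e (algebraMap _ (JacTorsion.FQ (F1 M)) y)) : LaurentSeries ℂ) = _
      rw [diaF_fix q.out]
      · rw [JacTorsion.coe_extQ, coe_algebraMap_F0]
        rfl
      · rw [JacTorsion.coe_extQ, coe_algebraMap_F0,
          ← JacTorsion.cExt_laurentBaseChange (ι := JacTorsion.ιQ)]
        exact JacTorsion.coeffMap_mem_cExt _ _ y.2
    have hU : F (uQ M 1) = uK ℂ q.out := by
      show ((diaF M q.out) (e (uQ M 1)) : LaurentSeries ℂ) = _
      rw [coe_diaF_uK q.out 1 _ (by rw [JacTorsion.coe_extQ, coe_uQ, coeffMap_uK]), one_mul]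
    rw [aeval_def, hom_eval₂, hcomp, hU, ← eval_map] at h0
    exact h0
  have hinj : Function.Injective fun q : Idx M => uK ℂ q.out := fun q q' h =>
    by_contra fun hne => uK_ne_of_ne ℂ hne h
  -- So its degree is at least the number of conjugates.
  have hcard : Fintype.card (Idx M) ≤ P.natDegree := by
    by_contra! hlt
    have hmap : (P.map ((coeffMap JacTorsion.ιQ).comp
        (modularFunctionFieldBar M).val.toRingHom)) ≠ 0 :=
      ((minpoly.monic hint).map _).ne_zero
    refine hmap (eq_zero_of_natDegree_lt_card_of_eval_eq_zero _ hinj hroot ?_)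
    exact lt_of_le_of_lt natDegree_map_le hlt
  refine (minpoly.unique' _ _ phiQ_monic (aeval_phiQ 1) ?_).symm
  intro R hR
  rw [or_iff_not_imp_left]
  intro hR0 h0
  have h1 := natDegree_le_natDegree (minpoly.degree_le_of_ne_zero _ _ hR0 h0)
  have h2 := natDegree_lt_natDegree hR0 hR
  rw [natDegree_phiQ] at h2
  have h3 : P.natDegree ≤ R.natDegree := h1
  omega

variable (M) in
/-- The power basis of `u_1`. -/
def pbU : PowerBasis (modularFunctionFieldBar M) (JacTorsion.FQ (F1 M)) :=
  (IntermediateField.adjoin.powerBasis (K := modularFunctionFieldBar M) (x := uQ M 1)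
    ⟨phiQ M, phiQ_monic, aeval_phiQ 1⟩).map
    ((IntermediateField.equivOfEq (adjoin_uQ_one (M := M))).trans IntermediateField.topEquiv)

theorem pbU_gen : (pbU M).gen = uQ M 1 := rfl

theorem pbU_dim : (pbU M).dim = Fintype.card (Idx M) := by
  show (minpoly _ (uQ M 1)).natDegree = _
  rw [minpoly_uQ_one, natDegree_phiQ]

variable (M) in
/-- The diamond automorphism over `ℚ̄`. -/
def diaQ (r : (ZMod M)ˣ) :
    JacTorsion.FQ (F1 M) →ₐ[modularFunctionFieldBar M] JacTorsion.FQ (F1 M) :=
  (pbU M).lift (uQ M r) (by rw [pbU_gen, minpoly_uQ_one]; exact aeval_phiQ r)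

theorem diaQ_uQ_one (r : (ZMod M)ˣ) : diaQ M r (uQ M 1) = uQ M r := by
  exact (congrArg (diaQ M r) pbU_gen.symm).trans
    ((pbU M).lift_gen (uQ M r) (by rw [pbU_gen, minpoly_uQ_one]; exact aeval_phiQ r))

theorem hom_ext_FQ {R : Type*} [Field R] {f g : JacTorsion.FQ (F1 M) →+* R}
    (h0 : ∀ x, f (algebraMap (modularFunctionFieldBar M) _ x) =
      g (algebraMap (modularFunctionFieldBar M) _ x)) (hU : f (uQ M 1) = g (uQ M 1)) : f = g := by
  refine RingHom.ext fun x => ?_
  have hx : x ∈ IntermediateField.adjoin (modularFunctionFieldBar M) {uQ M 1} := by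
    rw [adjoin_uQ_one]; trivial
  induction hx using IntermediateField.adjoin_induction with
  | mem z hz => rwa [Set.mem_singleton_iff.mp hz]
  | algebraMap a => exact h0 a
  | add a b _ _ ha hb => rw [map_add, map_add, ha, hb]
  | inv a _ ha => rw [map_inv₀, map_inv₀, ha]
  | mul a b _ _ ha hb => rw [map_mul, map_mul, ha, hb]

theorem emb_diaQ (r : (ZMod M)ˣ) (x : JacTorsion.FQ (F1 M)) :
    (JacTorsion.extQ (F1 M)).emb (diaQ M r x) = diaF M r ((JacTorsion.extQ (F1 M)).emb x) := by
  refine DFunLike.congr_fun (hom_ext_FQ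
    (f := (JacTorsion.extQ (F1 M)).emb.comp (diaQ M r).toRingHom)
    (g := (diaF M r).toRingHom.comp (JacTorsion.extQ (F1 M)).emb) (fun y => ?_) ?_) x
  · show (JacTorsion.extQ (F1 M)).emb (diaQ M r _) = diaF M r _
    rw [AlgHom.commutes, diaF_fix]
    rw [JacTorsion.coe_extQ, coe_algebraMap_F0,
      ← JacTorsion.cExt_laurentBaseChange (ι := JacTorsion.ιQ)]
    exact JacTorsion.coeffMap_mem_cExt _ _ y.2
  · show (JacTorsion.extQ (F1 M)).emb (diaQ M r (uQ M 1)) = diaF M r _
    refine Subtype.ext ?_
    rw [diaQ_uQ_one, coe_diaF_uK r 1 _ (by rw [JacTorsion.coe_extQ, coe_uQ, coeffMap_uK]),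
      one_mul, JacTorsion.coe_extQ, coe_uQ, coeffMap_uK]

end Fermat.Agent.DeligneSerre.Curve
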