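import Fermat.Agent.ModFun.Degree
import Fermat.Agent.RT.GammaH.Level

/-!
# Holomorphic functions for `±Γ₁(M)` and the diamond automorphisms
-/

set_option autoImplicit false

noncomputable section

open UpperHalfPlane hiding I
open Function Filter CongruenceSubgroup
open Fermat.Agent.ModFun
open scoped Manifold MatrixGroups

namespace Fermat.Agent.DeligneSerre.Curve

variable {M : ℕ}

/-- `±Γ₁(M)`. -/
abbrev G1 (M : ℕ) : Subgroup SL(2, ℤ) :=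
  RT.GammaH.gammaH M (Subgroup.zpowers (-1))

theorem mem_G1_iff {g : SL(2, ℤ)} :
    g ∈ G1 M ↔ (g 1 0 : ZMod M) = 0 ∧ ((g 1 1 : ZMod M) = 1 ∨ (g 1 1 : ZMod M) = -1) := by
  have key : ∀ e : ZMod M, (g 1 0 : ZMod M) = 0 → e * e = 1 →
      ((g 0 0 : ZMod M) = e ↔ (g 1 1 : ZMod M) = e) := by
    intro e h0 he
    have hd : (g 0 0 : ZMod M) * g 1 1 - g 0 1 * g 1 0 = 1 := by
      exact_mod_cast congrArg (Int.cast : ℤ → ZMod M) (Gamma0.det_eq g)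
    rw [h0, mul_zero, sub_zero] at hd
    constructor
    · intro h
      rw [h] at hd
      calc (g 1 1 : ZMod M) = e * e * g 1 1 := by rw [he, one_mul]
        _ = e := by rw [mul_assoc, hd, mul_one]
    · intro h
      rw [h] at hd
      calc (g 0 0 : ZMod M) = g 0 0 * (e * e) := by rw [he, mul_one]
        _ = e := by rw [← mul_assoc, hd, one_mul]
  rw [RT.GammaH.mem_gammaH]
  refine and_congr_right fun h0 => ⟨?_, ?_⟩
  · rintro ⟨u, hu, hau⟩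
    obtain ⟨k, rfl⟩ := Subgroup.mem_zpowers_iff.1 hu
    rcases Int.even_or_odd k with hk | hk
    · exact Or.inl ((key 1 h0 (one_mul 1)).1 (by simpa [hk.neg_one_zpow] using hau))
    · exact Or.inr ((key (-1) h0 (by ring)).1 (by simpa [hk.neg_one_zpow] using hau))
  · rintro (h | h)
    · exact ⟨1, one_mem _, by simpa using (key 1 h0 (one_mul 1)).2 h⟩
    · exact ⟨-1, Subgroup.mem_zpowers _, by simpa using (key (-1) h0 (by ring)).2 h⟩

theorem G1_le_Gamma0 : G1 M ≤ Gamma0 M := RT.GammaH.gammaH_le_Gamma0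

theorem neg_one_mem_G1 : (-1 : SL(2, ℤ)) ∈ G1 M :=
  RT.GammaH.neg_one_mem_gammaH (Subgroup.mem_zpowers _)

theorem T_mem_G1 : ModularGroup.T ∈ G1 M :=
  mem_G1_iff.2 ⟨by simp [ModularGroup.coe_T], Or.inl (by simp [ModularGroup.coe_T])⟩

theorem conj_T_pow_mem_G1 (g : SL(2, ℤ)) :
    g * ModularGroup.T ^ (M : ℤ) * g⁻¹ ∈ G1 M := by
  refine RT.GammaH.Gamma_le_gammaH ((Gamma_normal M).conj_mem _ ?_ g)
  rw [Gamma_mem, ModularGroup.coe_T_zpow]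
  simp

/-- Holomorphic `±Γ₁(M)`-invariant functions, meromorphic at every cusp. -/
def Hol1 (M : ℕ) : Subalgebra ℂ (ℍ → ℂ) where
  carrier := {f | MDiff f ∧ (∀ g ∈ G1 M, ∀ τ : ℍ, f (g • τ) = f τ) ∧
    ∀ g : SL(2, ℤ), MeroAtInfty fun τ => f (g • τ)}
  mul_mem' hf hg := ⟨hf.1.mul hg.1,
    fun g hg' τ => by simp only [Pi.mul_apply, hf.2.1 g hg' τ, hg.2.1 g hg' τ],
    fun g => (hf.2.2 g).mul (hg.2.2 g)⟩
  add_mem' hf hg := ⟨hf.1.add hg.1,
    fun g hg' τ => by simp only [Pi.add_apply, hf.2.1 g hg' τ, hg.2.1 g hg' τ],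
    fun g => (hf.2.2 g).add (hg.2.2 g)⟩
  algebraMap_mem' c := ⟨mdifferentiable_const, fun _ _ _ => rfl,
    fun _ => MeroAtInfty.of_isBounded (isBounded_const c)⟩

theorem Hol_le_Hol1 : Hol M ≤ Hol1 M :=
  fun _ hf => ⟨hf.1, fun g hg => hf.2.1 g (G1_le_Gamma0 hg), hf.2.2⟩

theorem Hol1_le_CuspAlg_one : Hol1 M ≤ CuspAlg 1 := by
  intro f hf
  refine ⟨hf.1, fun τ => ?_, by simpa using hf.2.2 1⟩
  rw [Nat.cast_one, ← modular_T_smul]
  exact hf.2.1 _ T_mem_G1 τ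

theorem comp_SL_mem_CuspAlg1 {f : ℍ → ℂ} (hf : f ∈ Hol1 M) (g : SL(2, ℤ)) :
    (fun τ => f (g • τ)) ∈ CuspAlg M := by
  refine ⟨mdifferentiable_comp_SL hf.1 g, fun τ => ?_, hf.2.2 g⟩
  have h1 := hf.2.1 _ (conj_T_pow_mem_G1 g) (g • τ)
  rw [← mul_smul, inv_mul_cancel_right, mul_smul, modular_T_zpow_smul, Int.cast_natCast] at h1
  exact h1

/-- The expansion of an element of `Hol1 M` at infinity. -/
def qExp1 (M : ℕ) : Hol1 M →ₐ[ℂ] LaurentSeries ℂ :=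
  (laurentExp 1).comp (Subalgebra.inclusion (Hol1_le_CuspAlg_one (M := M)))

theorem qExp1_injective : Function.Injective (qExp1 M) :=
  (laurentExp_injective 1).comp (Subalgebra.inclusion_injective (Hol1_le_CuspAlg_one (M := M)))

instance : IsDomain (Hol1 M) :=
  Function.Injective.isDomain (qExp1 M).toRingHom qExp1_injective

/-- On `Hol M` the expansion for `±Γ₁(M)` is the one for `Γ₀(M)`. -/
theorem qExp1_inclusion (f : Hol M) :
    qExp1 M (Subalgebra.inclusion Hol_le_Hol1 f) = qExp M f := rfl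

theorem hol1_ext {f g : Hol1 M} (H : ∀ τ, (f : ℍ → ℂ) τ = (g : ℍ → ℂ) τ) : f = g :=
  Subtype.ext (funext H)

/-- `f ↦ f ∘ g` into `CuspAlg M`. -/
def compSL1 (M : ℕ) (g : SL(2, ℤ)) : Hol1 M →ₐ[ℂ] CuspAlg M where
  toFun f := ⟨_, comp_SL_mem_CuspAlg1 f.2 g⟩
  map_one' := rfl
  map_mul' _ _ := rfl
  map_zero' := rfl
  map_add' _ _ := rfl
  commutes' _ := rfl

@[simp]
theorem compSL1_apply (g : SL(2, ℤ)) (f : Hol1 M) (τ : ℍ) :
    (compSL1 M g f : ℍ → ℂ) τ = (f : ℍ → ℂ) (g • τ) := rfl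

theorem compSL1_injective (g : SL(2, ℤ)) : Function.Injective (compSL1 M g) := by
  intro f₁ f₂ h
  refine hol1_ext fun τ => ?_
  have := congrArg (fun x : CuspAlg M => (x : ℍ → ℂ) (g⁻¹ • τ)) h
  simpa [smul_inv_smul] using this

/-- The coset space `SL(2,ℤ) / ±Γ₁(M)`. -/
abbrev Coset1 (M : ℕ) : Type := SL(2, ℤ) ⧸ G1 M

instance [NeZero M] : Finite (Coset1 M) := Subgroup.finite_quotient_of_finiteIndex

/-- The translate of `f` attached to a left coset: `τ ↦ f (c⁻¹ τ)`. -/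
def tr1 (M : ℕ) (c : Coset1 M) : Hol1 M →ₐ[ℂ] CuspAlg M := compSL1 M c.out⁻¹

theorem tr1_mk (g : SL(2, ℤ)) (f : Hol1 M) (τ : ℍ) :
    (tr1 M (g : Coset1 M) f : ℍ → ℂ) τ = (f : ℍ → ℂ) (g⁻¹ • τ) := by
  obtain ⟨h, hh⟩ := QuotientGroup.mk_out_eq_mul (G1 M) g
  rw [tr1, compSL1_apply, hh, mul_inv_rev, mul_smul]
  exact f.2.2.1 _ (inv_mem h.2) _

theorem tr1_one (f : Hol1 M) (τ : ℍ) :
    (tr1 M ((1 : SL(2, ℤ)) : Coset1 M) f : ℍ → ℂ) τ = (f : ℍ → ℂ) τ := by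
  rw [tr1_mk, inv_one, one_smul]

/-- Translates transform under `SL₂(ℤ)` through the action on cosets. -/
theorem tr1_smul_eq (g : SL(2, ℤ)) (c : Coset1 M) (f : Hol1 M) (τ : ℍ) :
    (tr1 M c f : ℍ → ℂ) (g • τ) = (tr1 M (g⁻¹ • c) f : ℍ → ℂ) τ := by
  induction c using QuotientGroup.induction_on with
  | H x =>
    rw [MulAction.Quotient.smul_coe, tr1_mk, tr1_mk, smul_eq_mul, mul_inv_rev, inv_inv, mul_smul]

/-! ### Diamond automorphisms -/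

theorem G1_conj_mem {γ g : SL(2, ℤ)} (hγ : γ ∈ Gamma0 M) (hg : g ∈ G1 M) :
    γ * g * γ⁻¹ ∈ G1 M := by
  rw [mem_G1_iff] at hg ⊢
  have hc := Gamma0_mem.1 hγ
  have hd : (γ 0 0 : ZMod M) * γ 1 1 - γ 0 1 * γ 1 0 = 1 := by
    exact_mod_cast congrArg (Int.cast : ℤ → ZMod M) (Gamma0.det_eq γ)
  rw [hc, mul_zero, sub_zero] at hd
  simp only [Matrix.SpecialLinearGroup.coe_mul, Matrix.mul_apply, Fin.sum_univ_two,
    Matrix.SpecialLinearGroup.coe_inv, Matrix.adjugate_fin_two]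
  simp [hc, hg.1]
  rcases hg.2 with h | h
  · exact Or.inl (by linear_combination (γ 1 1 : ZMod M) * (γ 0 0 : ZMod M) * h + hd)
  · exact Or.inr (by linear_combination (γ 1 1 : ZMod M) * (γ 0 0 : ZMod M) * h - hd)

theorem exists_gamma0_lowerRight (u : (ZMod M)ˣ) :
    ∃ g ∈ Gamma0 M, (g 1 1 : ZMod M) = u := by
  obtain ⟨g, hg, h⟩ := RT.GammaH.exists_gamma0_upperLeft u⁻¹
  refine ⟨g, hg, ?_⟩
  have hd : (g 0 0 : ZMod M) * g 1 1 - g 0 1 * g 1 0 = 1 := by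
    exact_mod_cast congrArg (Int.cast : ℤ → ZMod M) (Gamma0.det_eq g)
  rw [Gamma0_mem.1 hg, mul_zero, sub_zero, h] at hd
  have h2 := congrArg (fun x => (u : ZMod M) * x) hd
  simpa [← mul_assoc] using h2

/-- A chosen element of `Γ₀(M)` with lower right entry `u`. -/
def diaRep (u : (ZMod M)ˣ) : SL(2, ℤ) := (exists_gamma0_lowerRight u).choose

theorem diaRep_mem (u : (ZMod M)ˣ) : diaRep u ∈ Gamma0 M :=
  (exists_gamma0_lowerRight u).choose_spec.1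

theorem diaRep_lowerRight (u : (ZMod M)ˣ) : (diaRep u 1 1 : ZMod M) = u :=
  (exists_gamma0_lowerRight u).choose_spec.2

theorem comp_gamma0_mem_Hol1 {f : ℍ → ℂ} (hf : f ∈ Hol1 M) {γ : SL(2, ℤ)}
    (hγ : γ ∈ Gamma0 M) : (fun τ => f (γ • τ)) ∈ Hol1 M := by
  refine ⟨mdifferentiable_comp_SL hf.1 γ, fun g hg τ => ?_, fun g => ?_⟩
  · have h := hf.2.1 _ (G1_conj_mem hγ hg) (γ • τ)
    rw [← mul_smul, inv_mul_cancel_right, mul_smul] at h
    exact h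
  · simpa only [mul_smul] using hf.2.2 (γ * g)

/-- The diamond automorphism `f ↦ f ∘ γ_u`, `γ_u` with lower right entry `u`. -/
def dia (M : ℕ) (u : (ZMod M)ˣ) : Hol1 M →ₐ[ℂ] Hol1 M where
  toFun f := ⟨_, comp_gamma0_mem_Hol1 f.2 (diaRep_mem u)⟩
  map_one' := rfl
  map_mul' _ _ := rfl
  map_zero' := rfl
  map_add' _ _ := rfl
  commutes' _ := rfl

@[simp]
theorem dia_apply (u : (ZMod M)ˣ) (f : Hol1 M) (τ : ℍ) :
    (dia M u f : ℍ → ℂ) τ = (f : ℍ → ℂ) (diaRep u • τ) := rfl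

theorem gamma0_inv_mul_mem_G1 {γ δ : SL(2, ℤ)} (hγ : γ ∈ Gamma0 M) (hδ : δ ∈ Gamma0 M)
    (h : (γ 1 1 : ZMod M) = δ 1 1 ∨ (γ 1 1 : ZMod M) = -(δ 1 1 : ZMod M)) :
    γ * δ⁻¹ ∈ G1 M := by
  rw [mem_G1_iff]
  have hc := Gamma0_mem.1 hγ
  have hc' := Gamma0_mem.1 hδ
  have hd : (δ 0 0 : ZMod M) * δ 1 1 - δ 0 1 * δ 1 0 = 1 := by
    exact_mod_cast congrArg (Int.cast : ℤ → ZMod M) (Gamma0.det_eq δ)
  rw [hc', mul_zero, sub_zero] at hd
  simp only [Matrix.SpecialLinearGroup.coe_mul, Matrix.mul_apply, Fin.sum_univ_two,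
    Matrix.SpecialLinearGroup.coe_inv, Matrix.adjugate_fin_two]
  simp [hc, hc']
  rcases h with h | h
  · exact Or.inl (by linear_combination (δ 0 0 : ZMod M) * h + hd)
  · exact Or.inr (by linear_combination (δ 0 0 : ZMod M) * h - hd)

/-- `dia` only depends on the lower right entry up to sign. -/
theorem comp_gamma0_eq_dia (f : Hol1 M) {γ : SL(2, ℤ)} (hγ : γ ∈ Gamma0 M) (u : (ZMod M)ˣ)
    (h : (γ 1 1 : ZMod M) = u ∨ (γ 1 1 : ZMod M) = -(u : ZMod M)) (τ : ℍ) :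
    (f : ℍ → ℂ) (γ • τ) = (dia M u f : ℍ → ℂ) τ := by
  rw [dia_apply]
  have h1 := f.2.2.1 _ (gamma0_inv_mul_mem_G1 hγ (diaRep_mem u)
    (by rwa [diaRep_lowerRight])) (diaRep u • τ)
  rwa [← mul_smul, inv_mul_cancel_right] at h1

theorem dia_neg (u : (ZMod M)ˣ) (f : Hol1 M) : dia M (-u) f = dia M u f :=
  hol1_ext fun τ => by
    rw [dia_apply, comp_gamma0_eq_dia f (diaRep_mem (-u)) u
      (Or.inr (by rw [diaRep_lowerRight]; simp))]

theorem dia_one (f : Hol1 M) : dia M 1 f = f :=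
  hol1_ext fun τ => by
    rw [← comp_gamma0_eq_dia f (one_mem _) 1 (Or.inl (by simp)), one_smul]

theorem dia_dia (u v : (ZMod M)ˣ) (f : Hol1 M) : dia M u (dia M v f) = dia M (v * u) f := by
  refine hol1_ext fun τ => ?_
  rw [dia_apply, dia_apply, ← mul_smul]
  refine comp_gamma0_eq_dia f (mul_mem (diaRep_mem v) (diaRep_mem u)) (v * u) (Or.inl ?_) τ
  have hc : ((diaRep v) 1 0 : ZMod M) = 0 := Gamma0_mem.1 (diaRep_mem v)
  simp [Matrix.mul_apply, Fin.sum_univ_two, hc, diaRep_lowerRight]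

theorem dia_inclusion (u : (ZMod M)ˣ) (f : Hol M) :
    dia M u (Subalgebra.inclusion Hol_le_Hol1 f) = Subalgebra.inclusion Hol_le_Hol1 f :=
  hol1_ext fun τ => f.2.2.1 _ (diaRep_mem u) τ

/-- A function fixed by all diamonds is `Γ₀(M)`-invariant. -/
theorem mem_Hol_of_dia_fixed (f : Hol1 M) (hf : ∀ u, dia M u f = f) :
    (f : ℍ → ℂ) ∈ Hol M := by
  refine ⟨f.2.1, fun g hg τ => ?_, f.2.2.2⟩
  have hd : (g 0 0 : ZMod M) * g 1 1 - g 0 1 * g 1 0 = 1 := by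
    exact_mod_cast congrArg (Int.cast : ℤ → ZMod M) (Gamma0.det_eq g)
  rw [Gamma0_mem.1 hg, mul_zero, sub_zero] at hd
  obtain ⟨u, hu⟩ : IsUnit (g 1 1 : ZMod M) := IsUnit.of_mul_eq_one _ ((mul_comm _ _).trans hd)
  rw [comp_gamma0_eq_dia f hg u (Or.inl hu.symm), hf u]

end Fermat.Agent.DeligneSerre.Curve
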