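import Fermat.Agent.DeligneSerre.Curve.KummerSurj
import Fermat.Agent.JacTorsion.DescentEquiv
import Fermat.Agent.Gamma0.Count

/-!
# The Kummer group of the field of `±Γ₁(M)` over `ℚ̄`

`kummerChar1 M m` identifies it with the homomorphisms on `±Γ₁(M)` with values in `ℤ/m` killing
elliptic and parabolic elements.
-/

set_option autoImplicit false

noncomputable section

open UpperHalfPlane hiding I
open Function Filter CongruenceSubgroup AlgebraicCurve
open Fermat.Agent.JacTorsion (
  zetaPow zetaPow_pow zetaPow_zero zetaPow_add zetaPow_injective exists_zetaPow zetaPow_ne_zero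
  actMer_mul eq_of_zetaPow_mul algebraMap_ne_zero' exists_const_mul
  const_eq_denom_zpow exists_differentiableOn_pow_eq divGrp powGrp KummerGrp
  tendsto_valueAtInfty qZpow qZpow_apply laurentExp_qZpow tendsto_renormalised
  smul_eq_of_eq_or_neg meroAtInfty_of_pow quot_smul order_qExpand trace_sq_le_of_fixed)
open Fermat.Agent.ModFun (
  MerH HolH CuspAlg BddAlg laurentExp toMerH jd evalC actMer actHol valAt valHol ordMer ordHol
  valAt_constant valAt_algebraMap valHol_apply valAt_actMer ordMer_algebraMap ordMer_mul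
  ordMer_div actMer_algebraMap placeOfEmb mem_placeOfEmb exists_pos_mul_of_mem_iff
  places_iff_orbits jH jC jSubHol jSubHol_ne_zero toMerH_jC_sub
  exists_stab denom_mul_apply genusJ_eq ordHol_pos_iff ordHol_jSubHol_jH jH_smul valInf
  valInf_constant valInf_apply valInf_twist ordL_valInf rootInv rootInv_zpow_eq_one twist
  coeff_twist laurentExp_shift order_laurentExp_jC qFun PerH MeroAtInfty toMerH_apply
  cast_ordHol coe_actHol qFun_ne_zero mdifferentiable_comp_SL CuspAlg_le_mul laurentExp_mul
  laurentExp_injective isBounded_one mdifferentiable_discriminant)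

namespace Fermat.Agent.DeligneSerre.Curve

variable {M : ℕ} [NeZero M] [GoodLevel M]

variable (M : ℕ) [NeZero M] [GoodLevel M] (m : ℕ) [NeZero m]

/-- The monodromy map on Kummer groups. -/
def charHom1 : KummerGrp ℂ (F1C M) m →* Multiplicative (Gamma0.ellParHoms (G1 M) (ZMod m)) :=
  QuotientGroup.lift (powGrp ℂ (F1C M) m)
    (MonoidHom.mk' (fun f => Multiplicative.ofAdd (rootChar1 M m f))
      fun f g => by rw [← ofAdd_add, ← rootChar1_mul])
    fun f hf => by
      show Multiplicative.ofAdd (rootChar1 M m f) = 1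
      rw [rootChar1_pow_eq_zero hf]; rfl

theorem charHom1_mk (f : divGrp ℂ (F1C M) m) :
    charHom1 M m (QuotientGroup.mk f) = Multiplicative.ofAdd (rootChar1 M m f) := rfl

theorem charHom1_bijective : Function.Bijective (charHom1 M m) := by
  constructor
  · refine (injective_iff_map_eq_one _).mpr fun x hx => ?_
    obtain ⟨f, rfl⟩ := QuotientGroup.mk_surjective x
    exact (QuotientGroup.eq_one_iff f).mpr (mem_powGrp_of_rootChar1_eq_zero hx)
  · intro x
    obtain ⟨f, hf⟩ := exists_rootChar1_eq (M := M) (m := m) x.toAdd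
    exact ⟨QuotientGroup.mk f, by rw [charHom1_mk, hf]; rfl⟩

omit [GoodLevel M] in
theorem finite_ellParHoms1 : Finite (Gamma0.ellParHoms (G1 M) (ZMod m)) :=
  Nat.finite_of_card_ne_zero (by
    rw [Gamma0.natCard_ellParHoms_of_neg_one_mem (neg_one_mem_G1), Nat.card_zmod]
    exact pow_ne_zero _ (NeZero.ne m))

omit [NeZero M] in
theorem gal_jBase1 (σ : ℂ ≃ₐ[ℚ] ℂ) :
    JacTorsion.gal (F1 M) σ • jBase1 M ℂ = jBase1 M ℂ := by
  refine Subtype.ext ?_
  rw [JacTorsion.coe_gal_smul, coe_jBase1]
  exact ModularCurve.coeffMap_jqModC _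

/-- Monodromy on the Kummer group over `ℚ̄`. -/
def kummerChar1 : KummerGrp (AlgebraicClosure ℚ) (JacTorsion.FQ (F1 M)) m →*
    Multiplicative (Gamma0.ellParHoms (G1 M) (ZMod m)) :=
  (charHom1 M m).comp (JacTorsion.kummerExt (F₀ := F1 M) m)

theorem kummerChar1_bijective : Function.Bijective (kummerChar1 M m) := by
  have := finite_ellParHoms1 M m
  have hfin : Finite (KummerGrp ℂ (F1C M) m) :=
    Finite.of_injective _ (charHom1_bijective M m).injective
  exact (charHom1_bijective M m).comp
    ⟨JacTorsion.kummerExt_injective m, JacTorsion.kummerExt_surjective m hfin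
      (transcendental_jBase1 M ℂ) (gal_jBase1 M)⟩

section RamificationBar

variable {M}

theorem emb_jBase1 :
    (JacTorsion.extQ (F1 M)).emb (jBase1 M (AlgebraicClosure ℚ)) = jF1 M := by
  refine Subtype.ext ?_
  rw [JacTorsion.coe_extQ, coe_jBase1, coe_jF1]
  exact ModularCurve.coeffMap_jqModC _

theorem ord_jBase1_sub_dvd (P : Place (AlgebraicClosure ℚ) (JacTorsion.FQ (F1 M)))
    (a : AlgebraicClosure ℚ)
    (h : 0 < P.ord (jBase1 M (AlgebraicClosure ℚ) - algebraMap _ _ a)) :
    P.ord (jBase1 M (AlgebraicClosure ℚ) - algebraMap _ _ a) ∣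
      ((if a = 0 then 3 else if a = 1728 then 2 else 1 : ℕ) : ℤ) := by
  obtain ⟨w, hw⟩ := JacTorsion.exists_place_over (JacTorsion.extQ (F1 M)) P
    (JacTorsion.residueConst_of_isFunctionField P)
  rw [← hw, map_sub, emb_jBase1, (JacTorsion.extQ (F1 M)).emb_algebraMap] at h ⊢
  have h3 := ord_jF1_sub_dvd w _ h
  have e0 : ((JacTorsion.extQ (F1 M)).base a = 0) ↔ a = 0 := map_eq_zero _
  have e1728 : ((JacTorsion.extQ (F1 M)).base a = 1728) ↔ a = 1728 := by
    rw [show (1728 : ℂ) = (JacTorsion.extQ (F1 M)).base 1728 from (map_ofNat _ 1728).symm]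
    exact (JacTorsion.extQ (F1 M)).base.injective.eq_iff
  simpa only [e0, e1728] using h3

theorem ord_jBase1_dvd (P : Place (AlgebraicClosure ℚ) (JacTorsion.FQ (F1 M)))
    (h : P.ord (jBase1 M (AlgebraicClosure ℚ)) < 0) :
    P.ord (jBase1 M (AlgebraicClosure ℚ)) ∣ (M : ℤ) := by
  obtain ⟨w, hw⟩ := JacTorsion.exists_place_over (JacTorsion.extQ (F1 M)) P
    (JacTorsion.residueConst_of_isFunctionField P)
  rw [← hw, emb_jBase1] at h ⊢
  exact ord_jF1_dvd w h

end RamificationBar

end Fermat.Agent.DeligneSerre.Curve
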