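import Fermat.Agent.DeligneSerre.Curve.KummerRoot

/-!
# The character of a function of `±Γ₁(M)` with divisor divisible by `m`
-/

set_option autoImplicit false

noncomputable section

open UpperHalfPlane hiding I
open Filter CongruenceSubgroup AlgebraicCurve
open scoped MatrixGroups
open Fermat.Agent.JacTorsion (
  zetaPow zetaPow_pow zetaPow_zero zetaPow_add zetaPow_injective exists_zetaPow zetaPow_ne_zero
  actMer_mul eq_of_zetaPow_mul algebraMap_ne_zero' exists_const_mul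
  const_eq_denom_zpow exists_differentiableOn_pow_eq divGrp powGrp KummerGrp
  tendsto_valueAtInfty qZpow qZpow_apply laurentExp_qZpow tendsto_renormalised
  smul_eq_of_eq_or_neg meroAtInfty_of_pow quot_smul order_qExpand trace_sq_le_of_fixed ordMer_pow
  exists_root_aux eq_one_of_fixed_aux actHol_eq_of_div period_dvd_of_conj eq_one_of_parabolic_aux
  exists_char_of_pow eq_one_of_trace_sq exists_semiinvariant dvd_ordMer_of_stab
    perH_of_semiinvariant
  order_pow_eq)
open Fermat.Agent.ModFun (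
  MerH HolH CuspAlg BddAlg laurentExp toMerH jd evalC actMer actHol valAt valHol ordMer ordHol
  valAt_constant valAt_algebraMap valHol_apply valAt_actMer ordMer_algebraMap ordMer_mul
  ordMer_div actMer_algebraMap placeOfEmb mem_placeOfEmb exists_pos_mul_of_mem_iff
  places_iff_orbits jH jC jSubHol jSubHol_ne_zero toMerH_jC_sub
  exists_stab denom_mul_apply genusJ_eq ordHol_pos_iff ordHol_jSubHol_jH jH_smul valInf
  valInf_constant valInf_apply valInf_twist ordL_valInf rootInv rootInv_zpow_eq_one twist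
  coeff_twist laurentExp_shift order_laurentExp_jC qFun PerH MeroAtInfty toMerH_apply
  cast_ordHol coe_actHol qFun_ne_zero mdifferentiable_comp_SL CuspAlg_le_mul laurentExp_mul
  laurentExp_injective isBounded_one mdifferentiable_discriminant)

namespace Fermat.Agent.DeligneSerre.Curve

variable {M : ℕ} [NeZero M] [GoodLevel M]

variable {m : ℕ} [NeZero m]

/-- `φ` describes the monodromy of the `m`-th roots of `x`. -/
def IsRootChar1 (x : F1C M) (φ : Additive (G1 M) →+ ZMod m) : Prop :=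
  ∀ h : MerH, h ^ m = e11 M x → ∀ γ : G1 M,
    actMer (γ : SL(2, ℤ)) h = algebraMap ℂ MerH (zetaPow m (φ (Additive.ofMul γ))) * h

theorem root_ne_zero1 {x : F1C M} (hx0 : x ≠ 0) {h : MerH} (hh : h ^ m = e11 M x) : h ≠ 0 := by
  rintro rfl
  rw [zero_pow (NeZero.ne m)] at hh
  exact (map_ne_zero (e11 M)).mpr hx0 hh.symm

theorem IsRootChar1.unique {x : F1C M} (hx0 : x ≠ 0) {φ ψ : Additive (G1 M) →+ ZMod m}
    {h : MerH} (hh : h ^ m = e11 M x) (hφ : IsRootChar1 x φ) (hψ : IsRootChar1 x ψ) : φ = ψ := by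
  refine AddMonoidHom.ext fun γ => ?_
  have h1 := hφ h hh γ.toMul
  rw [hψ h hh γ.toMul] at h1
  simpa using (eq_of_zetaPow_mul (root_ne_zero1 hx0 hh) h1).symm

/-- A single root suffices to establish the monodromy. -/
theorem isRootChar1_of_root {x : F1C M} (hx0 : x ≠ 0) {φ : Additive (G1 M) →+ ZMod m}
    {h : MerH} (hh : h ^ m = e11 M x)
    (hφ : ∀ γ : G1 M,
      actMer (γ : SL(2, ℤ)) h = algebraMap ℂ MerH (zetaPow m (φ (Additive.ofMul γ))) * h) :
    IsRootChar1 x φ := by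
  intro h' hh' γ
  obtain ⟨ζ, -, rfl⟩ := exists_const_mul (NeZero.ne m) (root_ne_zero1 hx0 hh) (hh'.trans hh.symm)
  rw [map_mul, AlgEquiv.commutes, hφ]
  ring

theorem exists_isRootChar1 {x : F1C M} (hx0 : x ≠ 0)
    (hx : ∀ P : Place ℂ (F1C M), (m : ℤ) ∣ P.ord x) :
    ∃ φ ∈ Gamma0.ellParHoms (G1 M) (ZMod m), IsRootChar1 x φ := by
  obtain ⟨H, b, C, -, hb, hHC, hC, hh⟩ := exists_root1 hx0 hx
  set h : MerH := algebraMap HolH MerH H / e11 M (toF1C M b) with hdef
  have h0 : h ≠ 0 := root_ne_zero1 hx0 hh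
  obtain ⟨φ, hφ⟩ := exists_char_of_pow (Γ := G1 M) h0 fun γ hγ => by rw [hh, actMer_e11 hγ]
  refine ⟨φ, fun γ hγ => zetaPow_injective ?_, isRootChar1_of_root hx0 hh hφ⟩
  rw [zetaPow_zero]
  exact eq_one_of_trace_sq hγ (fun τ hτ => const_eq_one_of_fixed1 γ.2 hτ hx0 hx hh (hφ γ))
    fun α k hk hγα => const_eq_one_of_parabolic1 hk γ.2 hγα hx0 hx hb hHC hC (zetaPow_pow _)
      (e11_algebraMap_inv γ.2 hb (hφ γ))

/-- The monodromy of the `m`-th roots. -/
def rootChar1 (M : ℕ) [NeZero M] [GoodLevel M] (m : ℕ) [NeZero m] (f : divGrp ℂ (F1C M) m) :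
    Gamma0.ellParHoms (G1 M) (ZMod m) :=
  ⟨(exists_isRootChar1 (Units.ne_zero (f : (F1C M)ˣ)) f.2).choose,
    (exists_isRootChar1 (Units.ne_zero (f : (F1C M)ˣ)) f.2).choose_spec.1⟩

theorem rootChar1_spec (f : divGrp ℂ (F1C M) m) :
    IsRootChar1 ((f : (F1C M)ˣ) : F1C M) (rootChar1 M m f).1 :=
  (exists_isRootChar1 (Units.ne_zero (f : (F1C M)ˣ)) f.2).choose_spec.2

theorem exists_mer_rootC (f : divGrp ℂ (F1C M) m) :
    ∃ h : MerH, h ^ m = e11 M ((f : (F1C M)ˣ) : F1C M) := by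
  obtain ⟨H, b, C, -, -, -, -, hh⟩ := exists_root1 (Units.ne_zero (f : (F1C M)ˣ)) f.2
  exact ⟨_, hh⟩

/-- The monodromy of the roots is the only character describing it. -/
theorem rootChar1_eq_of_isRootChar1 (f : divGrp ℂ (F1C M) m) {φ : Additive (G1 M) →+ ZMod m}
    (hφ : IsRootChar1 ((f : (F1C M)ˣ) : F1C M) φ) : (rootChar1 M m f).1 = φ := by
  obtain ⟨h, hh⟩ := exists_mer_rootC f
  exact (rootChar1_spec f).unique (Units.ne_zero _) hh hφ

theorem rootChar1_mul (f g : divGrp ℂ (F1C M) m) :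
    rootChar1 M m (f * g) = rootChar1 M m f + rootChar1 M m g := by
  refine Subtype.ext (rootChar1_eq_of_isRootChar1 _ ?_)
  obtain ⟨hf, hhf⟩ := exists_mer_rootC f
  obtain ⟨hg, hhg⟩ := exists_mer_rootC g
  refine isRootChar1_of_root (Units.ne_zero _) (h := hf * hg) ?_ fun γ => ?_
  · rw [mul_pow, hhf, hhg, ← map_mul]; rfl
  · rw [map_mul, rootChar1_spec f hf hhf γ, rootChar1_spec g hg hhg γ, AddSubgroup.coe_add,
      AddMonoidHom.add_apply, zetaPow_add, map_mul]
    ring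

theorem rootChar1_pow_eq_zero {f : divGrp ℂ (F1C M) m} (hf : f ∈ powGrp ℂ (F1C M) m) :
    rootChar1 M m f = 0 := by
  obtain ⟨g, hg⟩ := hf
  refine Subtype.ext (rootChar1_eq_of_isRootChar1 _ ?_)
  refine isRootChar1_of_root (Units.ne_zero _) (h := e11 M (g : F1C M)) ?_ fun γ => ?_
  · rw [← map_pow, ← Units.val_pow_eq_pow_val]
    rw [powMonoidHom_apply] at hg
    rw [hg]; rfl
  · rw [actMer_e11 γ.2]
    simp [zetaPow_zero]

theorem mem_powGrp_of_rootChar1_eq_zero {f : divGrp ℂ (F1C M) m} (hf : rootChar1 M m f = 0) :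
    f ∈ powGrp ℂ (F1C M) m := by
  have hx0 := Units.ne_zero (f : (F1C M)ˣ)
  obtain ⟨H, b, C, hH0, hb, hHC, hC, hh⟩ := exists_root1 hx0 f.2
  have hb' : e11 M (toF1C M b) ≠ 0 :=
    (map_ne_zero _).mpr fun h => hb (toF1C_injective (h.trans (map_zero (toF1C M)).symm))
  have hinv : ∀ γ : G1 M, actHol (γ : SL(2, ℤ)) H = H := fun γ => by
    have h1 := rootChar1_spec f _ hh γ
    rw [hf, ZeroMemClass.coe_zero, AddMonoidHom.zero_apply, zetaPow_zero] at h1
    have h2 := e11_algebraMap_inv γ.2 hb (c := 1) h1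
    rwa [map_one, one_mul] at h2
  have hmem : (H : ℍ → ℂ) ∈ Hol1 M := by
    refine ⟨H.2, fun g hg τ => congrFun (congrArg Subtype.val (hinv ⟨g, hg⟩)) τ, fun g => ?_⟩
    refine meroAtInfty_of_pow (m := m) ?_
    have : (fun τ => (H : ℍ → ℂ) (g • τ)) ^ m = fun τ => (C : ℍ → ℂ) (g • τ) := by
      funext τ
      exact congrFun (congrArg Subtype.val hHC) (g • τ)
    rw [this]
    exact C.2.2.2 g
  set H' : Hol1 M := ⟨_, hmem⟩ with hH'
  have hHH : hol1ToHolH M H' = H := rfl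
  have hne : toF1C M H' / toF1C M b ≠ 0 := by
    refine div_ne_zero (fun h => hH0 ?_) fun h => hb
        (toF1C_injective (h.trans (map_zero (toF1C M)).symm))
    rw [← hHH, toF1C_injective (h.trans (map_zero (toF1C M)).symm), map_zero]
  refine ⟨Units.mk0 _ hne, Units.ext ((e11 M).toRingHom.injective ?_)⟩
  show e11 M ((Units.mk0 _ hne ^ m : (F1C M)ˣ) : F1C M) = e11 M ((f : (F1C M)ˣ) : F1C M)
  rw [Units.val_pow_eq_pow_val, Units.val_mk0, map_pow, map_div₀, e11_toF1C, hHH]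
  exact hh

end Fermat.Agent.DeligneSerre.Curve
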