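import Fermat.Agent.DeligneSerre.Curve.Places
import Fermat.Agent.JacTorsion.CharInjective
import Fermat.Agent.JacTorsion.CharSurjective

/-!
# Roots on the upper half plane of functions of `±Γ₁(M)` with divisible divisor
-/

set_option autoImplicit false

noncomputable section

open UpperHalfPlane hiding I
open Filter AlgebraicCurve
open scoped MatrixGroups
open Fermat.Agent.JacTorsion (
  zetaPow zetaPow_pow zetaPow_zero zetaPow_add zetaPow_injective exists_zetaPow zetaPow_ne_zero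
  actMer_mul eq_of_zetaPow_mul algebraMap_ne_zero' exists_const_mul
  const_eq_denom_zpow exists_differentiableOn_pow_eq divGrp powGrp KummerGrp
  tendsto_valueAtInfty qZpow qZpow_apply laurentExp_qZpow tendsto_renormalised
  smul_eq_of_eq_or_neg meroAtInfty_of_pow quot_smul order_qExpand trace_sq_le_of_fixed ordMer_pow
  exists_root_aux eq_one_of_fixed_aux actHol_eq_of_div period_dvd_of_conj eq_one_of_parabolic_aux
  exists_char_of_pow eq_one_of_trace_sq exists_semiinvariant dvd_ordMer_of_stab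
    perH_of_semiinvariant
  order_pow_eq)
open Fermat.Agent.ModFun (
  MerH HolH CuspAlg BddAlg laurentExp toMerH jd evalC actMer actHol valAt valHol ordMer ordHol
  valAt_constant valAt_algebraMap valHol_apply valAt_actMer ordMer_algebraMap ordMer_mul
  ordMer_div actMer_algebraMap placeOfEmb mem_placeOfEmb exists_pos_mul_of_mem_iff
  places_iff_orbits jH jC jSubHol jSubHol_ne_zero toMerH_jC_sub
  exists_stab denom_mul_apply genusJ_eq ordHol_pos_iff ordHol_jSubHol_jH jH_smul valInf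
  valInf_constant valInf_apply valInf_twist ordL_valInf rootInv rootInv_zpow_eq_one twist
  coeff_twist laurentExp_shift order_laurentExp_jC qFun PerH MeroAtInfty toMerH_apply
  cast_ordHol coe_actHol qFun_ne_zero mdifferentiable_comp_SL CuspAlg_le_mul laurentExp_mul
  laurentExp_injective isBounded_one mdifferentiable_discriminant)

namespace Fermat.Agent.DeligneSerre.Curve

variable {M : ℕ} [NeZero M] [GoodLevel M]

/-- The function field as meromorphic functions on `ℍ`. -/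
abbrev e11 (M : ℕ) [NeZero M] [GoodLevel M] : F1C M →ₐ[ℂ] MerH := emb1 M ((1 : SL(2, ℤ)) : Coset1 M)

omit [NeZero M] [GoodLevel M] in
theorem tr1_injective (c : Coset1 M) : Function.Injective (tr1 M c) := compSL1_injective _

/-- `Hol1 M` inside `HolH`. -/
def hol1ToHolH (M : ℕ) [NeZero M] [GoodLevel M] : Hol1 M →ₐ[ℂ] HolH := Subalgebra.inclusion fun _
    hf => hf.1

theorem hol1ToHolH_ne_zero {a : Hol1 M} (ha : a ≠ 0) : hol1ToHolH M a ≠ 0 := fun h =>
  ha (Subalgebra.inclusion_injective (fun _ (hf : _ ∈ Hol1 M) => hf.1) (h.trans (map_zero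
      (hol1ToHolH M)).symm))

theorem e11_toF1C (a : Hol1 M) : e11 M (toF1C M a) = algebraMap HolH MerH (hol1ToHolH M a) := by
  rw [emb1_toF1C, toMerH_apply]
  exact congrArg _ (Subtype.ext (funext (tr1_one a)))

/-- Elements of the function field are invariant under `±Γ₁(M)` on the upper half plane. -/
theorem actMer_e11 {g : SL(2, ℤ)} (hg : g ∈ G1 M) (x : F1C M) : actMer g (e11 M x) = e11 M x := by
  rw [emb1_smul, MulAction.Quotient.smul_coe, smul_eq_mul, mul_one]
  have : ((g⁻¹ : SL(2, ℤ)) : Coset1 M) = ((1 : SL(2, ℤ)) : Coset1 M) := by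
    rw [QuotientGroup.eq]; simpa using hg
  rw [this]

/-- A function whose divisor is divisible by `m` has an `m`-th root on `ℍ`. -/
theorem exists_root1 {m : ℕ} [NeZero m] {x : F1C M} (hx0 : x ≠ 0)
    (hx : ∀ P : Place ℂ (F1C M), (m : ℤ) ∣ P.ord x) :
    ∃ (H : HolH) (b C : Hol1 M), H ≠ 0 ∧ b ≠ 0 ∧ H ^ m = hol1ToHolH M C ∧
      toF1C M C = x * toF1C M b ^ m ∧
      (algebraMap HolH MerH H / e11 M (toF1C M b)) ^ m = e11 M x := by
  obtain ⟨k, hk⟩ : ∃ k, m = k + 1 := ⟨m - 1, by have := NeZero.ne m; omega⟩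
  obtain ⟨a, b, hb, rfl⟩ := exists_div_eq1 x
  have ha : a ≠ 0 := fun h => hx0 (by rw [h, map_zero, zero_div])
  set C : HolH := hol1ToHolH M a * hol1ToHolH M b ^ k with hCdef
  have hC0 : C ≠ 0 := mul_ne_zero (hol1ToHolH_ne_zero ha) (pow_ne_zero _ (hol1ToHolH_ne_zero hb))
  have hbF : toF1C M b ≠ 0 := fun h => hb (toF1C_injective (h.trans (map_zero (toF1C M)).symm))
  have heC : algebraMap HolH MerH C = e11 M (toF1C M a / toF1C M b) * e11 M (toF1C M b) ^ m := by
    rw [map_div₀, hk, pow_succ', ← mul_assoc, div_mul_cancel₀ _ ((map_ne_zero _).mpr hbF),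
      hCdef, map_mul, map_pow, e11_toF1C, e11_toF1C]
  obtain ⟨G, hG0, hGm, hroot⟩ := exists_root_aux hC0 ((map_ne_zero _).mpr hx0)
    ((map_ne_zero _).mpr hbF) heC fun τ => by
      obtain ⟨μ, -, hM⟩ := exists_ordMer_eq_mul1 (M := M) τ
      rw [hM _ hx0]
      exact dvd_mul_of_dvd_right (hx _) μ
  exact ⟨G, b, a * b ^ k, hG0, hb, by rw [hGm, hCdef, map_mul, map_pow],
    by rw [map_mul, map_pow, hk, pow_succ', ← mul_assoc, div_mul_cancel₀ _ hbF], hroot⟩

/-- An element fixing a point acts trivially on roots of functions in the field. -/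
theorem const_eq_one_of_fixed1 {m : ℕ} [NeZero m] {τ : ℍ} {γ : SL(2, ℤ)} (hγ : γ ∈ G1 M)
    (hτ : γ • τ = τ) {x : F1C M} (hx0 : x ≠ 0) (hx : ∀ P : Place ℂ (F1C M), (m : ℤ) ∣ P.ord x)
    {h : MerH} (hh : h ^ m = e11 M x) {c : ℂ} (hc : actMer γ h = algebraMap ℂ MerH c * h) :
    c = 1 := by
  obtain ⟨μ, -, hM⟩ := exists_ordMer_eq_mul1 (M := M) τ
  obtain ⟨t, ht0, ht⟩ := FF.exists_uniformizer (placeAt1 M τ)
  have hh0 : h ≠ 0 := by
    rintro rfl
    rw [zero_pow (NeZero.ne m)] at hh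
    exact (map_ne_zero (e11 M)).mpr hx0 hh.symm
  refine eq_one_of_fixed_aux (m := m) hτ ((map_ne_zero (e11 M)).mpr ht0) (actMer_e11 hγ t) hh0 ?_ hc
  obtain ⟨D, hD⟩ := hx (placeAt1 M τ)
  rw [hh, hM _ ht0, ht, hM _ hx0, hD]
  exact ⟨D, by ring⟩

theorem e11_algebraMap_inv {γ : SL(2, ℤ)} (hγ : γ ∈ G1 M) {H : HolH} {b : Hol1 M} {c : ℂ}
    (hb : b ≠ 0)
    (hc : actMer γ (algebraMap HolH MerH H / e11 M (toF1C M b))
      = algebraMap ℂ MerH c * (algebraMap HolH MerH H / e11 M (toF1C M b))) :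
    actHol γ H = algebraMap ℂ HolH c * H := by
  have hb' : e11 M (toF1C M b) ≠ 0 :=
    (map_ne_zero _).mpr fun h => hb (toF1C_injective (h.trans (map_zero (toF1C M)).symm))
  exact actHol_eq_of_div hb' (actMer_e11 hγ _) hc

/-- Parabolic elements act trivially on roots of functions in the field. -/
theorem const_eq_one_of_parabolic1 {m : ℕ} [NeZero m] {γ α : SL(2, ℤ)} {k : ℤ} (hk : k ≠ 0)
    (hγ : γ ∈ G1 M)
    (hγα : γ = α * ModularGroup.T ^ k * α⁻¹ ∨ γ = -(α * ModularGroup.T ^ k * α⁻¹))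
    {x : F1C M} (hx0 : x ≠ 0) (hx : ∀ P : Place ℂ (F1C M), (m : ℤ) ∣ P.ord x)
    {H : HolH} {b C : Hol1 M} (hb : b ≠ 0) (hHC : H ^ m = hol1ToHolH M C)
    (hC : toF1C M C = x * toF1C M b ^ m) {c : ℂ} (hcm : c ^ m = 1)
    (hc : actHol γ H = algebraMap ℂ HolH c * H) : c = 1 := by
  set c₀ : Coset1 M := ((α⁻¹ : SL(2, ℤ)) : Coset1 M) with hc₀
  obtain ⟨μ, -, hMp, hM⟩ := exists_order_eq_mul1 (M := M) c₀
  have hbF : toF1C M b ≠ 0 := fun h => hb (toF1C_injective (h.trans (map_zero (toF1C M)).symm))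
  have hC0 : toF1C M C ≠ 0 := by rw [hC]; exact mul_ne_zero hx0 (pow_ne_zero _ hbF)
  have hC0' : tr1 M c₀ C ≠ 0 := fun h => hC0 (by
    rw [tr1_injective c₀ (h.trans (map_zero (tr1 M c₀)).symm), map_zero])
  obtain ⟨D, hD⟩ := hx (placeCusp1 M c₀)
  have hord : (laurentExp M (tr1 M c₀ C)).order =
      (m : ℤ) * (μ * (D + (placeCusp1 M c₀).ord (toF1C M b))) := by
    rw [← cuspEmb1_toF1C, hM _ hC0, hC, (placeCusp1 M c₀).ord_mul hx0 (pow_ne_zero _ hbF), hD,
      FF.ord_pow]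
    ring
  refine eq_one_of_parabolic_aux hk hγα hC0' (fun τ => ?_) hMp
    (period_dvd_of_conj neg_one_mem_G1 hγ hγα) hord hcm hc
  rw [hc₀, tr1_mk, inv_inv]
  exact (congrFun (congrArg Subtype.val hHC) (α • τ)).symm

end Fermat.Agent.DeligneSerre.Curve
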