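import Fermat.Agent.DeligneSerre.Curve.KummerChar
import Fermat.Agent.JacTorsion.CharSurjective

/-!
# Every character of `±Γ₁(M)` killing elliptic and parabolic elements occurs
-/

set_option autoImplicit false

noncomputable section

open UpperHalfPlane hiding I
open Filter CongruenceSubgroup AlgebraicCurve
open scoped MatrixGroups
open Fermat.Agent.JacTorsion (
  zetaPow zetaPow_pow zetaPow_zero zetaPow_add zetaPow_injective exists_zetaPow zetaPow_ne_zero
  actMer_mul eq_of_zetaPow_mul algebraMap_ne_zero' exists_const_mul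
  const_eq_denom_zpow exists_differentiableOn_pow_eq divGrp powGrp KummerGrp
  tendsto_valueAtInfty qZpow qZpow_apply laurentExp_qZpow tendsto_renormalised
  smul_eq_of_eq_or_neg meroAtInfty_of_pow quot_smul order_qExpand trace_sq_le_of_fixed ordMer_pow
  exists_root_aux eq_one_of_fixed_aux actHol_eq_of_div period_dvd_of_conj eq_one_of_parabolic_aux
  exists_char_of_pow eq_one_of_trace_sq exists_semiinvariant dvd_ordMer_of_stab
    perH_of_semiinvariant
  order_pow_eq)
open Fermat.Agent.ModFun (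
  MerH HolH CuspAlg BddAlg laurentExp toMerH jd evalC actMer actHol valAt valHol ordMer ordHol
  valAt_constant valAt_algebraMap valHol_apply valAt_actMer ordMer_algebraMap ordMer_mul
  ordMer_div actMer_algebraMap placeOfEmb mem_placeOfEmb exists_pos_mul_of_mem_iff
  places_iff_orbits jH jC jSubHol jSubHol_ne_zero toMerH_jC_sub
  exists_stab denom_mul_apply genusJ_eq ordHol_pos_iff ordHol_jSubHol_jH jH_smul valInf
  valInf_constant valInf_apply valInf_twist ordL_valInf rootInv rootInv_zpow_eq_one twist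
  coeff_twist laurentExp_shift order_laurentExp_jC qFun PerH MeroAtInfty toMerH_apply
  cast_ordHol coe_actHol qFun_ne_zero mdifferentiable_comp_SL CuspAlg_le_mul laurentExp_mul
  laurentExp_injective isBounded_one mdifferentiable_discriminant)

namespace Fermat.Agent.DeligneSerre.Curve

variable {M : ℕ} [NeZero M] [GoodLevel M]

variable {m : ℕ} [NeZero m]

/-- Orders of invariant functions: the value group at `placeAt1 τ`. -/
theorem exists_stab_period1 (τ : ℍ) : ∃ (s : SL(2, ℤ)) (e ℓ : ℕ) (μ : ℤ), s • τ = τ ∧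
    s ^ ℓ ∈ G1 M ∧ (∀ k : ℤ, (denom s τ ^ 2) ^ k = 1 → (e : ℤ) ∣ k) ∧
    (∀ x : F1C M, x ≠ 0 → ordMer τ (e11 M x) = μ * (placeAt1 M τ).ord x) ∧
    μ * ℓ = e ∧ ℓ ≠ 0 := by
  classical
  obtain ⟨s, hs, hprim, -, -, hper⟩ := places_over_point1 (M := M) τ
  obtain ⟨e, hord⟩ : ∃ e : ℕ, ordHol τ (jSubHol (jH τ)) = e := ⟨_, rfl⟩
  rw [hord] at hprim
  set c₁ : Coset1 M := ((1 : SL(2, ℤ)) : Coset1 M)
  set ℓ := Function.minimalPeriod (fun d : Coset1 M => s • d) c₁ with hℓ
  have hP : placeAt1 M (c₁.out⁻¹ • τ) = placeAt1 M τ := by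
    rw [placeAt1_inv_out_smul, inv_one, one_smul]
  have h2 : (placeAt1 M τ).ord (jF1 M - algebraMap ℂ (F1C M) (jH τ)) = ℓ := by
    rw [← hP]; exact hper c₁
  have hℓ0 : ℓ ≠ 0 := by
    have hp : 0 < (placeAt1 M τ).ord (jF1 M - algebraMap ℂ (F1C M) (jH τ)) :=
      ord_jF1_sub_placeAt1_pos τ
    omega
  obtain ⟨μ, -, hM⟩ := exists_ordMer_eq_mul1 (M := M) τ
  have hne : jF1 M - algebraMap ℂ (F1C M) (jH τ) ≠ 0 := fun h0 => by
    rw [h0, Place.ord_zero] at h2; omega
  refine ⟨s, e, ℓ, μ, hs, ?_, hprim, hM, ?_, hℓ0⟩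
  · have hfix := Function.isPeriodicPt_minimalPeriod (fun d : Coset1 M => s • d) c₁
    rw [← hℓ] at hfix
    have h3 : s ^ ℓ • c₁ = c₁ := by
      rw [← smul_iterate_apply]; exact hfix
    rw [MulAction.Quotient.smul_coe, smul_eq_mul, mul_one, QuotientGroup.eq] at h3
    simpa using h3
  · have h4 := hM _ hne
    rw [map_sub, AlgHom.commutes, h2] at h4
    have e11 : e11 M (jF1 M) - algebraMap ℂ MerH (jH τ) = algebraMap HolH MerH (jSubHol (jH τ))
        := by
      rw [← toMerH_jC_sub (N := M)]; exact congrArg (· - _) (emb1_jF1 _)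
    rw [e11, ordMer_algebraMap (jSubHol_ne_zero _), hord] at h4
    exact h4.symm

/-- Every character killing elliptic and parabolic elements is the monodromy of some function. -/
theorem exists_rootChar1_eq (φ : Gamma0.ellParHoms (G1 M) (ZMod m)) :
    ∃ f : divGrp ℂ (F1C M) m, rootChar1 M m f = φ := by
  obtain ⟨H, hH0, hmero, hact⟩ := exists_semiinvariant neg_one_mem_G1 φ
  have hpow : ∀ γ : G1 M, actHol (γ : SL(2, ℤ)) (H ^ m) = H ^ m := fun γ => by
    rw [map_pow, hact, mul_pow, ← map_pow, zetaPow_pow, map_one, one_mul]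
  have hmem : ((H ^ m : HolH) : ℍ → ℂ) ∈ Hol1 M := by
    refine ⟨(H ^ m).2, fun g hg τ => congrFun (congrArg Subtype.val (hpow ⟨g, hg⟩)) τ, fun g => ?_⟩
    have : (fun τ => ((H ^ m : HolH) : ℍ → ℂ) (g • τ)) = (fun τ => (H : ℍ → ℂ) (g • τ)) ^ m := rfl
    rw [this]
    exact (hmero g).pow m
  set C : Hol1 M := ⟨_, hmem⟩ with hC
  have hCH : hol1ToHolH M C = H ^ m := rfl
  have hC0 : toF1C M C ≠ 0 := fun h0 => pow_ne_zero m hH0 (by
    rw [← hCH, toF1C_injective (h0.trans (map_zero (toF1C M)).symm), map_zero])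
  have hh : (algebraMap HolH MerH H) ^ m = e11 M (toF1C M C) := by
    rw [e11_toF1C, hCH, map_pow]
  have h0 : algebraMap HolH MerH H ≠ 0 := algebraMap_ne_zero' hH0
  have hact' : ∀ γ : G1 M, actMer (γ : SL(2, ℤ)) (algebraMap HolH MerH H)
      = algebraMap ℂ MerH (zetaPow m (φ.1 (Additive.ofMul γ))) * algebraMap HolH MerH H := fun γ
          => by
    rw [actMer_algebraMap, hact, map_mul, ← IsScalarTower.algebraMap_apply ℂ HolH MerH]
  -- `C = H ^ m` is a function of the curve. At a point its order is divisible by `m` as `φ` kills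
  -- elliptic elements, at a cusp as `φ` kills parabolic ones.
  have hdiv : Units.mk0 _ hC0 ∈ divGrp ℂ (F1C M) m := by
    intro P
    rw [Units.val_mk0]
    rcases exists_eq_placeAt1_or_placeCusp1 P with ⟨τ, rfl⟩ | ⟨c, rfl⟩
    · obtain ⟨s, e, ℓ, μ, hs, hsℓ, hprim, hM, hMℓ, hℓ0⟩ := exists_stab_period1 (M := M) τ
      have hfix : actMer (s ^ ℓ) (algebraMap HolH MerH H) = algebraMap HolH MerH H := by
        rw [hact' ⟨_, hsℓ⟩, φ.2 ⟨_, hsℓ⟩, zetaPow_zero, map_one, one_mul]
        have hτ : s ^ ℓ • τ = τ := by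
          have : s ∈ MulAction.stabilizer (SL(2, ℤ)) τ := hs
          exact pow_mem this ℓ
        exact trace_sq_le_of_fixed hτ
      have hd' := dvd_ordMer_of_stab hs hprim hMℓ hℓ0 h0 hfix
      obtain ⟨q, hq⟩ := hd'
      have h1 := hM _ hC0
      rw [← hh] at h1
      rw [ordMer_pow h0, hq] at h1
      have hM0 : μ ≠ 0 := by
        rintro rfl
        obtain ⟨t, ht0, ht⟩ := FF.exists_uniformizer (placeAt1 M τ)
        obtain ⟨μ', hM'0, hM'⟩ := exists_ordMer_eq_mul1 (M := M) τ
        have := hM' _ ht0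
        rw [hM _ ht0, ht] at this
        omega
      exact ⟨q, mul_left_cancel₀ hM0 (by linear_combination -h1)⟩
    · obtain ⟨μ, hMpos, hMp, hM⟩ := exists_order_eq_mul1 (M := M) c
      set p := MulAction.period ModularGroup.T c with hp
      set g : SL(2, ℤ) := c.out with hg
      have hp0 : NeZero p := ⟨fun h0 => by
        rw [h0] at hMp; simp [eq_comm, NeZero.ne M] at hMp⟩
      have hper : PerH p fun τ => (H : ℍ → ℂ) (g⁻¹ • τ) := perH_of_semiinvariant φ hact c
      let G : CuspAlg p := ⟨fun τ => (H : ℍ → ℂ) (g⁻¹ • τ),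
        mdifferentiable_comp_SL H.2 _, hper, hmero g⁻¹⟩
      obtain ⟨Mn, rfl⟩ := Int.eq_ofNat_of_zero_le hMpos.le
      have hMn : NeZero Mn := ⟨by omega⟩
      have hMpn : Mn * p = M := by exact_mod_cast hMp
      have hord : (laurentExp M (tr1 M c C)).order
          = (Mn : ℤ) * ((m : ℤ) * (laurentExp p G).order) :=
        order_pow_eq hMpn (fun h0 => hH0 (Subtype.ext (funext fun τ => by
          have := congrFun (congrArg Subtype.val h0) (g • τ)
          simpa [G] using this))) fun τ => rfl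
      have h2 := hM _ hC0
      rw [cuspEmb1_toF1C, hord] at h2
      exact ⟨(laurentExp p G).order,
        mul_left_cancel₀ (Int.natCast_ne_zero.mpr (NeZero.ne Mn)) h2.symm⟩
  refine ⟨⟨_, hdiv⟩, Subtype.ext (rootChar1_eq_of_isRootChar1 _ ?_)⟩
  exact isRootChar1_of_root hC0 hh hact'

end Fermat.Agent.DeligneSerre.Curve
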