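import Fermat.Agent.DeligneSerre.Curve.Embed
import Fermat.Agent.ModFun.Ramification

/-!
# The places of the complex function field of `±Γ₁(M)` and the ramification of `j`
-/

set_option autoImplicit false

noncomputable section

open UpperHalfPlane hiding I
open Filter Complex AlgebraicCurve
open scoped MatrixGroups
open Fermat.Agent.ModFun (
  MerH HolH CuspAlg BddAlg laurentExp toMerH jd evalC actMer actHol valAt valHol ordMer ordHol
  valAt_constant valAt_algebraMap valHol_apply valAt_actMer ordMer_algebraMap ordMer_mul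
  ordMer_div actMer_algebraMap placeOfEmb mem_placeOfEmb exists_pos_mul_of_mem_iff
  places_iff_orbits dvd_mul_ordL_of_twist_iterate jH jC jSubHol jSubHol_ne_zero toMerH_jC_sub
  exists_stab denom_mul_apply denom_sq_zpow_inv genusJ_eq ordHol_pos_iff ordHol_jSubHol_jH jH_smul
  valInf
  valInf_constant valInf_apply valInf_twist ordL_valInf rootInv rootInv_zpow_eq_one twist
  coeff_twist laurentExp_shift order_laurentExp_jC qFun PerH MeroAtInfty toMerH_apply
  cast_ordHol coe_actHol qFun_ne_zero mdifferentiable_comp_SL CuspAlg_le_mul laurentExp_mul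
  laurentExp_injective isBounded_one mdifferentiable_discriminant)

attribute [local instance 20000] SubalgebraClass.toAlgebra

namespace Fermat.Agent.DeligneSerre.Curve

variable {M : ℕ} [NeZero M] [GoodLevel M]

theorem emb1_mk_eq (g : SL(2, ℤ)) (x : F1C M) :
    emb1 M (g : Coset1 M) x = actMer g⁻¹ (emb1 M ((1 : SL(2, ℤ)) : Coset1 M) x) := by
  rw [emb1_smul, inv_inv, MulAction.Quotient.smul_coe, smul_eq_mul, mul_one]

theorem one_lt_valAt_inv_jF1_sub (τ : ℍ) :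
    1 < valAt τ (emb1 M ((1 : SL(2, ℤ)) : Coset1 M)
      ((jF1 M - algebraMap ℂ (F1C M) (jH τ))⁻¹)) := by
  rw [map_inv₀, map_inv₀, map_sub, emb1_jF1, AlgHom.commutes, toMerH_jC_sub, valAt_algebraMap]
  have hv := valHol_apply (τ := τ) (jSubHol_ne_zero (jH τ))
  rw [one_lt_inv₀ (zero_lt_iff.mpr (by rw [hv]; exact WithZero.exp_ne_zero)), hv,
    ← WithZero.exp_zero, WithZero.exp_lt_exp]
  have h2 : 0 < ordHol τ (jSubHol (jH τ)) :=
    (ordHol_pos_iff (jSubHol_ne_zero _) τ).mpr (sub_self _)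
  omega

/-- The place of the function field at `τ ∈ ℍ`. -/
def placeAt1 (M : ℕ) [NeZero M] [GoodLevel M] (τ : ℍ) : Place ℂ (F1C M) :=
  placeOfEmb (valAt τ) (fun _ hc => valAt_constant hc τ) (emb1 M ((1 : SL(2, ℤ)) : Coset1 M))
    (one_lt_valAt_inv_jF1_sub τ)

theorem mem_placeAt1_iff (τ : ℍ) (x : F1C M) :
    x ∈ (placeAt1 M τ).toValuationSubring ↔
      valAt τ (emb1 M ((1 : SL(2, ℤ)) : Coset1 M) x) ≤ 1 :=
  mem_placeOfEmb _ _ _ _ x

theorem mem_placeAt1_inv_smul_iff (g : SL(2, ℤ)) (τ : ℍ) (x : F1C M) :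
    x ∈ (placeAt1 M (g⁻¹ • τ)).toValuationSubring ↔ valAt τ (emb1 M (g : Coset1 M) x) ≤ 1 := by
  rw [mem_placeAt1_iff, emb1_mk_eq g, valAt_actMer]

theorem placeAt1_smul {g : SL(2, ℤ)} (hg : g ∈ G1 M) (τ : ℍ) :
    placeAt1 M (g • τ) = placeAt1 M τ := by
  apply Place.ext
  ext x
  have h1 := mem_placeAt1_inv_smul_iff (M := M) g⁻¹ τ x
  rw [inv_inv] at h1
  rw [h1, show ((g⁻¹ : SL(2, ℤ)) : Coset1 M) = ((1 : SL(2, ℤ)) : Coset1 M) from
    QuotientGroup.eq.mpr (by simpa using hg), mem_placeAt1_iff]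

/-- `ord_τ` is a positive multiple of the order at `placeAt1 τ`. -/
theorem exists_ordMer_eq_mul1 (τ : ℍ) : ∃ m : ℤ, 0 < m ∧ ∀ x : F1C M, x ≠ 0 →
    ordMer τ (emb1 M ((1 : SL(2, ℤ)) : Coset1 M) x) = m * (placeAt1 M τ).ord x :=
  exists_pos_mul_of_mem_iff (placeAt1 M τ) (valAt τ) (emb1 M ((1 : SL(2, ℤ)) : Coset1 M))
    (mem_placeAt1_iff τ)

/-- The permutation of the cosets induced by left multiplication. -/
def cosetPerm1 (g : SL(2, ℤ)) : Equiv.Perm (Coset1 M) := MulAction.toPerm g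

omit [NeZero M] [GoodLevel M] in
theorem mem_orbit_cosetPerm1 {g : SL(2, ℤ)} {c c' : Coset1 M}
    (h : c ∈ MulAction.orbit (Subgroup.zpowers (cosetPerm1 (M := M) g)) c') :
    ∃ k : ℤ, g ^ k • c' = c := by
  obtain ⟨⟨p, hp⟩, rfl⟩ := h
  obtain ⟨k, hk⟩ := Subgroup.mem_zpowers_iff.mp hp
  refine ⟨k, ?_⟩
  show (g ^ k) • c' = p c'
  rw [← hk, cosetPerm1, ← MulAction.toPermHom_apply, ← map_zpow]
  rfl

open scoped Classical in
/-- Places over `j = j τ₀`, labelled by the cosets. -/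
theorem places_over_point1 (τ₀ : ℍ) : ∃ s : SL(2, ℤ), s • τ₀ = τ₀ ∧
    (∀ k : ℤ, (denom s τ₀ ^ 2) ^ k = 1 → (ordHol τ₀ (jSubHol (jH τ₀)) : ℤ) ∣ k) ∧
    (∀ v : Place ℂ (F1C M), 0 < v.ord (jF1 M - algebraMap ℂ (F1C M) (jH τ₀)) ↔
      ∃ c : Coset1 M, v = placeAt1 M (c.out⁻¹ • τ₀)) ∧
    (∀ c c' : Coset1 M, placeAt1 M (c.out⁻¹ • τ₀) = placeAt1 M (c'.out⁻¹ • τ₀) →
      ∃ k : ℤ, s ^ k • c' = c) ∧
    ∀ c : Coset1 M, (placeAt1 M (c.out⁻¹ • τ₀)).ord (jF1 M - algebraMap ℂ (F1C M) (jH τ₀))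
      = Function.minimalPeriod (fun d : Coset1 M => s • d) c := by
  obtain ⟨s, e, hs, he, hord, hprim⟩ := exists_stab τ₀
  let _ : Fintype (Coset1 M) := Fintype.ofFinite _
  have hs' : s⁻¹ • τ₀ = τ₀ := by rw [inv_smul_eq_iff, hs]
  have hprim' : ∀ k : ℤ, (denom (s⁻¹ : SL(2, ℤ)) τ₀ ^ 2) ^ k = 1 → (e : ℤ) ∣ k :=
    fun k hk => hprim k (by rw [denom_sq_zpow_inv hs k, hk, inv_one])
  have h := places_iff_orbits (jF1 M) (jH τ₀) transcendental_jF1 (valAt τ₀)
    (fun _ hc => valAt_constant hc τ₀) (emb1 M) emb1_injective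
    (by rw [← Nat.card_eq_fintype_card]; exact finrank_jF1.symm)
    (toMerH M (jC M)) emb1_jF1 e he
    (by
      rw [toMerH_jC_sub]
      show ordMer τ₀ _ = _
      rw [ordMer_algebraMap (jSubHol_ne_zero _), hord])
    (cosetPerm1 s) (actMer s⁻¹).toAlgHom.toRingHom
    (fun c x => by
      show emb1 M (s • c) x = actMer s⁻¹ (emb1 M c x)
      rw [emb1_smul, inv_inv])
    (fun g => by
      show valAt τ₀ (actMer s⁻¹ g) = _
      rw [valAt_actMer, hs'])
    (fun n g hg hfix => Genus.ordMer_dvd hs' e hprim' n g hg hfix)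
    (fun c : Coset1 M => placeAt1 M (c.out⁻¹ • τ₀))
    (fun c x => by rw [mem_placeAt1_inv_smul_iff, QuotientGroup.out_eq'])
  exact ⟨s, hs, hord ▸ hprim, h.1, fun c c' hcc' => mem_orbit_cosetPerm1 ((h.2.1 c c').mp hcc'),
    h.2.2⟩

theorem placeAt1_inv_out_smul (g : SL(2, ℤ)) (τ : ℍ) :
    placeAt1 M ((g : Coset1 M).out⁻¹ • τ) = placeAt1 M (g⁻¹ • τ) := by
  obtain ⟨h, hh⟩ := QuotientGroup.mk_out_eq_mul (G1 M) g
  rw [hh, mul_inv_rev, mul_smul, placeAt1_smul (inv_mem h.2)]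

theorem ord_jF1_sub_placeAt1_pos (τ : ℍ) :
    0 < (placeAt1 M τ).ord (jF1 M - algebraMap ℂ (F1C M) (jH τ)) := by
  obtain ⟨s, -, -, h1, -, -⟩ := places_over_point1 (M := M) τ
  refine (h1 _).mpr ⟨((1 : SL(2, ℤ)) : Coset1 M), ?_⟩
  rw [placeAt1_inv_out_smul, inv_one, one_smul]

/-- A place where `j` has no pole is a `placeAt1`. -/
theorem exists_eq_placeAt1 {v : Place ℂ (F1C M)} (hv : jF1 M ∈ v.toValuationSubring) :
    ∃ τ : ℍ, v = placeAt1 M τ := by
  obtain ⟨a, ha'⟩ := FF.exists_sub_mem_ordGe_one v hv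
  have hne : jF1 M - algebraMap ℂ (F1C M) a ≠ 0 := fun h =>
    transcendental_jF1 (M := M) (by rw [sub_eq_zero.mp h]; exact isAlgebraic_algebraMap a)
  have ha : 0 < v.ord (jF1 M - algebraMap ℂ (F1C M) a) := by
    have := FF.le_ord_of_mem_ordGe v hne ha'
    omega
  obtain ⟨τ₀, hτ₀⟩ := Genus.jH_surjective a
  obtain ⟨s, -, -, h1, -, -⟩ := places_over_point1 (M := M) τ₀
  rw [← genusJ_eq, hτ₀] at h1
  obtain ⟨c, hc⟩ := (h1 v).mp ha
  exact ⟨_, hc⟩

theorem cuspEmb1_T_smul (c : Coset1 M) (x : F1C M) :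
    cuspEmb1 M (ModularGroup.T • c) x = twist (rootInv M) (cuspEmb1 M c x) := by
  obtain ⟨a, b, -, rfl⟩ := exists_div_eq1 x
  have key : ∀ f : Hol1 M, laurentExp M (tr1 M (ModularGroup.T • c) f)
      = twist (rootInv M) (laurentExp M (tr1 M c f)) := fun f => by
    refine laurentExp_shift _ _ fun τ => ?_
    have h := tr1_smul_eq (ModularGroup.T⁻¹) c f τ
    rw [inv_inv, show ModularGroup.T⁻¹ = ModularGroup.T ^ (-1 : ℤ) from (zpow_neg_one _).symm,
      modular_T_zpow_smul] at h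
    exact h.symm
  simp only [map_div₀, cuspEmb1_toF1C, key]

theorem one_lt_valInf_jF1 (c : Coset1 M) : 1 < valInf ℂ (cuspEmb1 M c (jF1 M)) := by
  rw [cuspEmb1_jF1, valInf_apply order_laurentExp_jC.2, order_laurentExp_jC.1, ← WithZero.exp_zero,
    WithZero.exp_lt_exp]
  have := Nat.pos_of_ne_zero (NeZero.ne M)
  omega

/-- The place of the function field at the cusp of `c`. -/
def placeCusp1 (M : ℕ) [NeZero M] [GoodLevel M] (c : Coset1 M) : Place ℂ (F1C M) :=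
  placeOfEmb (valInf ℂ) (fun _ hc => valInf_constant hc) (cuspEmb1 M c) (one_lt_valInf_jF1 c)

theorem mem_placeCusp1_iff (c : Coset1 M) (x : F1C M) :
    x ∈ (placeCusp1 M c).toValuationSubring ↔ valInf ℂ (cuspEmb1 M c x) ≤ 1 :=
  mem_placeOfEmb _ _ _ _ x

open scoped Classical in
/-- The places over `j = ∞`, labelled by the cusps; ramification = width. -/
theorem places_over_infty1 :
    (∀ v : Place ℂ (F1C M), jF1 M ∉ v.toValuationSubring ↔ ∃ c : Coset1 M, v = placeCusp1 M c) ∧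
    (∀ c c' : Coset1 M, placeCusp1 M c = placeCusp1 M c' ↔
      ∃ k : ℤ, ModularGroup.T ^ k • c' = c) ∧
    ∀ c : Coset1 M, (placeCusp1 M c).ord (jF1 M)
      = -(MulAction.period ModularGroup.T c : ℤ) := by
  let _ : Fintype (Coset1 M) := Fintype.ofFinite _
  have ht : Transcendental ℂ (jF1 M)⁻¹ := fun h => transcendental_jF1 (IsAlgebraic.inv_iff.mp h)
  have hne : (jF1 M) ≠ 0 := fun h => transcendental_jF1 (h ▸ isAlgebraic_zero)
  -- Apply the general orbit criterion to `1 / j`.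
  have h := places_iff_orbits (jF1 M)⁻¹ 0 ht (valInf ℂ) (fun _ hc => valInf_constant hc)
    (cuspEmb1 M) cuspEmb1_injective
    (by rw [FF.finrank_adjoin_inv, ← Nat.card_eq_fintype_card]; exact finrank_jF1.symm)
    (laurentExp M (jC M))⁻¹ (fun c => by rw [map_inv₀, cuspEmb1_jF1]) M (NeZero.ne M)
    (by
      rw [map_zero, sub_zero, Genus.ordL, map_inv₀, WithZero.log_inv,
        valInf_apply order_laurentExp_jC.2, order_laurentExp_jC.1]
      simp)
    (cosetPerm1 ModularGroup.T) (twist (rootInv M)) (fun c x => cuspEmb1_T_smul c x)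
    (valInf_twist _)
    (fun n g hg hfix => dvd_mul_ordL_of_twist_iterate hg hfix)
    (placeCusp1 M) mem_placeCusp1_iff
  rw [map_zero, sub_zero] at h
  refine ⟨fun v => ?_, fun c c' => ?_, fun c => ?_⟩
  · rw [← h.1 v, v.ord_inv, FF.mem_iff_ord v hne]
    omega
  · refine (h.2.1 c c').trans ⟨mem_orbit_cosetPerm1, ?_⟩
    rintro ⟨k, rfl⟩
    refine ⟨⟨(cosetPerm1 ModularGroup.T) ^ k, Subgroup.zpow_mem_zpowers _ k⟩, ?_⟩
    show ((cosetPerm1 ModularGroup.T) ^ k) c' = _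
    rw [cosetPerm1, ← MulAction.toPermHom_apply, ← map_zpow]
    rfl
  · have h1 := h.2.2 c
    rw [(placeCusp1 M c).ord_inv] at h1
    rw [MulAction.period_eq_minimalPeriod]
    have h2 : Function.minimalPeriod (fun d : Coset1 M => ModularGroup.T • d) c
        = Function.minimalPeriod ((cosetPerm1 (M := M) ModularGroup.T) • ·) c := rfl
    rw [h2, ← h1, neg_neg]

/-- Every place is a `placeAt1` or a `placeCusp1`. -/
theorem exists_eq_placeAt1_or_placeCusp1 (v : Place ℂ (F1C M)) :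
    (∃ τ : ℍ, v = placeAt1 M τ) ∨ ∃ c : Coset1 M, v = placeCusp1 M c := by
  by_cases hv : jF1 M ∈ v.toValuationSubring
  · exact Or.inl (exists_eq_placeAt1 hv)
  · exact Or.inr ((places_over_infty1.1 v).mp hv)

/-- `cuspEmb1 c` computes the order at `placeCusp1 c` up to a positive factor. -/
theorem exists_order_eq_mul1 (c : Coset1 M) : ∃ m : ℤ, 0 < m ∧
    (m * MulAction.period ModularGroup.T c = M) ∧ ∀ x : F1C M, x ≠ 0 →
      (cuspEmb1 M c x).order = m * (placeCusp1 M c).ord x := by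
  obtain ⟨m, hm, h⟩ := exists_pos_mul_of_mem_iff (placeCusp1 M c) (valInf ℂ) (cuspEmb1 M c)
    (mem_placeCusp1_iff c)
  have hne : (jF1 M) ≠ 0 := fun h => transcendental_jF1 (h ▸ isAlgebraic_zero)
  refine ⟨m, hm, ?_, fun x hx => by
    rw [← ordL_valInf ((_root_.map_ne_zero _).mpr hx)]; exact h x hx⟩
  have h1 := h _ hne
  rw [cuspEmb1_jF1, ordL_valInf order_laurentExp_jC.2, order_laurentExp_jC.1,
    places_over_infty1.2.2 c] at h1
  linear_combination h1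

open scoped Classical in
theorem ord_jF1_sub_dvd (v : Place ℂ (F1C M)) (a : ℂ)
    (h : 0 < v.ord (jF1 M - algebraMap ℂ (F1C M) a)) :
    v.ord (jF1 M - algebraMap ℂ (F1C M) a) ∣
      ((if a = 0 then 3 else if a = 1728 then 2 else 1 : ℕ) : ℤ) := by
  obtain ⟨τ₀, hτ₀⟩ := Genus.jH_surjective a
  rw [genusJ_eq] at hτ₀
  subst hτ₀
  obtain ⟨s, -, -, h1, -, -⟩ := places_over_point1 (M := M) τ₀
  obtain ⟨c, rfl⟩ := (h1 v).mp h
  set τ := c.out⁻¹ • τ₀ with hτ
  have hj : jH τ = jH τ₀ := jH_smul _ _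
  rw [← hj, ← ordHol_jSubHol_jH τ]
  obtain ⟨m, -, hm⟩ := exists_ordMer_eq_mul1 (M := M) τ
  have hne : jF1 M - algebraMap ℂ (F1C M) (jH τ) ≠ 0 := fun h0 => by
    rw [hj] at h0; rw [h0, Place.ord_zero] at h; exact lt_irrefl _ h
  have h2 := hm _ hne
  rw [map_sub, emb1_jF1, AlgHom.commutes, toMerH_jC_sub,
    ordMer_algebraMap (jSubHol_ne_zero _)] at h2
  exact ⟨m, by rw [h2, mul_comm]⟩

theorem ord_jF1_dvd (v : Place ℂ (F1C M)) (h : v.ord (jF1 M) < 0) :
    v.ord (jF1 M) ∣ (M : ℤ) := by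
  have hne : jF1 M ≠ 0 := fun h0 => by rw [h0, Place.ord_zero] at h; exact lt_irrefl _ h
  obtain ⟨c, rfl⟩ := (places_over_infty1.1 v).mp fun hmem => by
    have := (FF.mem_iff_ord v hne).mp hmem
    omega
  obtain ⟨m, -, hm, -⟩ := exists_order_eq_mul1 (M := M) c
  rw [places_over_infty1.2.2 c, Int.neg_dvd]
  exact ⟨m, by rw [← hm, mul_comm]⟩

end Fermat.Agent.DeligneSerre.Curve
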