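import Fermat.Agent.DeligneSerre.Curve.Gen
import Fermat.Agent.DeligneSerre.PowerLift
import Fermat.Agent.DeligneSerre.RedRel
import Fermat.Agent.EichlerShimura.GlobalRed

/-!
# Reduction of the field of `±Γ₁(M)` at a place prime to `M`

For algebraically closed residue field, every nonzero function has a reduction up to a constant, and
a function with divisor divisible by a prime `ℓ` other than the residue characteristic whose
reduction is a constant is an `ℓ`-th power.

Main result: `exists_red_and_lift`.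
-/

set_option autoImplicit false

noncomputable section

open Polynomial IsLocalRing AlgebraicCurve ModularCurve

namespace Fermat.Agent.DeligneSerre.Curve

open Fermat.Agent.EichlerShimura Fermat.Agent.FF Fermat.Agent.RedTorsion

attribute [local instance 10000] SubalgebraClass.toAlgebra HahnSeries.powerSeriesAlgebra

local notation "Qb" => AlgebraicClosure ℚ

variable {M : ℕ} [NeZero M] [GoodLevel M] {A : ValuationSubring Qb}

local notation "Fb" => modularFunctionFieldBar M
local notation "Fk" => modularFunctionFieldFullC (Kappa A) M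
local notation "F1Q" => JacTorsion.FQ (F1 M)

/-! ## The generators in the residue field -/

omit [NeZero M] [GoodLevel M] in
/-- `1 / M` is integral at a place prime to `M`. -/
theorem inv_natCast_mem (hMA : (M : Kappa A) ≠ 0) : ((M : Qb))⁻¹ ∈ A := by
  rcases ValuationSubring.mem_or_inv_mem A (M : Qb) with h | h
  · have hu : IsUnit (⟨(M : Qb), h⟩ : A) := by
      by_contra hnu
      refine hMA ?_
      rw [← map_natCast (residue A), IsLocalRing.residue_eq_zero_iff, mem_maximalIdeal]
      exact hnu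
    obtain ⟨b, hb⟩ := hu.exists_right_inv
    have h1 : (M : Qb) * b = 1 := congrArg Subtype.val hb
    rw [← eq_inv_of_mul_eq_one_right h1]
    exact b.2
  · exact h

omit [GoodLevel M] in
theorem residue_inv_natCast (hMA : (M : Kappa A) ≠ 0) :
    residue A ⟨_, inv_natCast_mem hMA⟩ = (M : Kappa A)⁻¹ := by
  refine eq_inv_of_mul_eq_one_left ?_
  rw [← map_natCast (residue A), ← map_mul, ← map_one (residue A)]
  exact congrArg _ (Subtype.ext (inv_mul_cancel₀ (Nat.cast_ne_zero.mpr (NeZero.ne M))))

/-- The expansions of the generators in the residue field depend on `± a` only. -/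
theorem uK_out_kappa (hMA : (M : Kappa A) ≠ 0) (a : (ZMod M)ˣ) :
    uK (Kappa A) (QuotientGroup.mk a : Idx M).out = uK (Kappa A) a := by
  rcases out_mk_eq a with h | h <;> rw [h]
  have h1 : uSer A (⟨_, inv_natCast_mem hMA⟩ : A) (-a) =
      uSer A (⟨_, inv_natCast_mem hMA⟩ : A) a := by
    refine HahnSeries.ext (funext fun n => Subtype.ext ?_)
    have h2 : coeffMap A.subtype (uSer A (⟨_, inv_natCast_mem hMA⟩ : A) (-a)) =
        coeffMap A.subtype (uSer A (⟨_, inv_natCast_mem hMA⟩ : A) a) := by
      rw [coeffMap_uSer, coeffMap_uSer]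
      exact uK_neg Qb a
    simpa using congrArg (fun z => HahnSeries.coeff z n) h2
  have h3 := congrArg (coeffMap (residue A)) h1
  rw [coeffMap_uSer, coeffMap_uSer, residue_inv_natCast hMA] at h3
  exact h3

/-- Integrality and reduction of `∏ (X - u_a)`. -/
theorem exists_phiInt (hMA : (M : Kappa A) ≠ 0) :
    ∃ P : Polynomial (sint A Fb), P.map (sint A Fb).subtype = phiQ M ∧
      P.map (sred (A := A) (F := Fb)) = ∏ q : Idx M, (X - C (uK (Kappa A) q.out)) := by
  set im : A := ⟨_, inv_natCast_mem hMA⟩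
  let PA : Polynomial (LaurentSeries A) := ∏ q : Idx M, (X - C (uSer A im q.out))
  have h1 : PA.map (coeffMap A.subtype) = ∏ q : Idx M, (X - C (uK Qb q.out)) := by
    simp only [PA, Polynomial.map_prod, Polynomial.map_sub, map_X, map_C, coeffMap_uSer]
    rfl
  have h2 : PA.map (coeffMap (residue A)) = ∏ q : Idx M, (X - C (uK (Kappa A) q.out)) := by
    have hres : residue A im = (M : Kappa A)⁻¹ := residue_inv_natCast hMA
    simp only [PA, Polynomial.map_prod, Polynomial.map_sub, map_X, map_C, coeffMap_uSer, hres]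
    rfl
  have hval : ∀ n, (((phiQ M).coeff n : Fb) : LaurentSeries Qb)
      = coeffMap A.subtype (PA.coeff n) := by
    intro n
    have h3 := congrArg (fun Q => Polynomial.coeff Q n) (map_phiQ (M := M))
    rw [← h1] at h3
    rw [coeff_map, coeff_map] at h3
    exact h3
  have hlift : phiQ M ∈ Polynomial.lifts (sint A Fb).subtype := by
    rw [lifts_iff_coeff_lifts]
    exact fun n => ⟨⟨_, mem_sint.mpr ⟨PA.coeff n, (hval n).symm⟩⟩, rfl⟩
  obtain ⟨P, hP⟩ := (mem_lifts _).mp hlift
  refine ⟨P, hP, ?_⟩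
  rw [← h2]
  ext n : 1
  rw [coeff_map, coeff_map, ← serRed_coeffMap (PA.coeff n) ⟨_, rfl⟩]
  refine congrArg (serRed A) (Subtype.ext ?_)
  show (((P.coeff n : sint A Fb) : Fb) : LaurentSeries Qb) = coeffMap A.subtype (PA.coeff n)
  refine Eq.trans ?_ (hval n)
  rw [← hP, coeff_map]
  rfl

/-! ## Reductions of values of integral polynomials -/

/-- Evaluating an integral polynomial and then reducing is reducing and then lifting to the root. -/
private theorem reduce_apply_eval₂_eq_lift {R R' K K' : Type*} [CommRing R] [CommRing R']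
    [CommRing K] [CommRing K'] (red : R →+* R') (Φ : R[X]) (i : R' →+* K') (a : K')
    (ha : (Φ.map red).eval₂ i a = 0) (fl : K →+* K') (incl : R →+* K) (U : K)
    (hincl : ∀ r, fl (incl r) = i (red r)) (hU : fl U = a) (P : R[X]) :
    fl (eval₂RingHom incl U P) =
      AdjoinRoot.lift i a ha ((AdjoinRoot.mk (Φ.map red)).comp (mapRingHom red) P) := by
  rw [coe_eval₂RingHom, RingHom.comp_apply, coe_mapRingHom, AdjoinRoot.lift_mk, eval₂_map,
    hom_eval₂, hU, show fl.comp incl = i.comp red from RingHom.ext hincl]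

/-- An element with integral coordinates in a power basis is a value of an integral polynomial. -/
private theorem reduce_exists_eval₂_eq {E E1 : Type*} [CommRing E] [CommRing E1] [Algebra E E1]
    {n : ℕ} (b : Module.Basis (Fin n) E E1) {U : E1} (hb : ∀ i : Fin n, b i = U ^ (i : ℕ))
    (S : Subring E) (y : E1) (hy : ∀ j, b.repr y j ∈ S) :
    ∃ R : S[X], eval₂RingHom ((algebraMap E E1).comp S.subtype) U R = y := by
  refine ⟨∑ j : Fin n, monomial (j : ℕ) ⟨_, hy j⟩, ?_⟩
  conv_rhs => rw [← b.sum_repr y]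
  rw [map_sum]
  refine Finset.sum_congr rfl fun j _ => ?_
  rw [hb, Algebra.smul_def, coe_eval₂RingHom, eval₂_monomial]
  rfl

/-- The reduction of a fraction of integral series. -/
private theorem reduce_isRed_fracLift {Q : Submonoid (serInt A)}
    (hQ0 : ∀ d ∈ Q, serRed A d ≠ 0) (e : fracPart (serInt A).subtype Q)
    (hne : fracLift (ι := (serInt A).subtype) Subtype.val_injective (serRed A) hQ0 e ≠ 0) :
    IsRed A (e : LaurentSeries Qb)
      (fracLift (ι := (serInt A).subtype) Subtype.val_injective (serRed A) hQ0 e) := by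
  obtain ⟨p, d, hd, h⟩ := e.2
  rw [fracLift_eq _ _ _ _ hd h] at hne ⊢
  exact IsRed.of_frac (hQ0 d hd) (div_ne_zero_iff.mp hne).1 h

/-- Constants do not change the reduction. -/
private theorem reduce_isRed_scale {L : Type*} [Field L] {B : ValuationSubring L}
    {f g : LaurentSeries L} {r : LaurentSeries (ResidueField B)} {c : L} (hc : c ≠ 0)
    (h : IsRed B g r) (hf : f = algebraMap L (LaurentSeries L) c * g) : IsRed B f r := by
  have h' := (IsRed.const (A := B) hc).mul h
  rwa [one_mul, ← hf] at h'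

/-- A reduction of a series reducing to one is a constant. -/
private theorem reduce_eq_const_of_isRed_one {L : Type*} [Field L] {B : ValuationSubring L}
    {f : LaurentSeries L} {r : LaurentSeries (ResidueField B)} (h : IsRed B f 1)
    (h' : IsRed B f r) : ∃ k : ResidueField B, k ≠ 0 ∧
      r = algebraMap _ (LaurentSeries (ResidueField B)) k := by
  obtain ⟨k, hk, hk'⟩ := IsRed.unique h h'
  exact ⟨k, hk, hk'.trans (mul_one _)⟩

/-- Over an algebraically closed field, a constant is the value at the root of an `ℓ`-th power in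
the adjoined root ring. -/
private theorem reduce_exists_pow_eq_const {K S F : Type*} [Field K] [IsAlgClosed K] [CommRing F]
    [CommRing S] [Algebra K F] [Algebra K S] (p : F[X]) (i : F →+* S) (a : S)
    (h : p.eval₂ i a = 0) (hi : ∀ c : K, i (algebraMap K F c) = algebraMap K S c)
    (k : K) {ℓ : ℕ} (hℓ : 0 < ℓ) :
    ∃ g : AdjoinRoot p, algebraMap K S k = AdjoinRoot.lift i a h (g ^ ℓ) := by
  obtain ⟨k', rfl⟩ := IsAlgClosed.exists_pow_nat_eq k hℓ
  exact ⟨AdjoinRoot.of p (algebraMap K F k'), by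
    rw [map_pow, map_pow, AdjoinRoot.lift_of, hi]⟩

/-- A monic polynomial whose root algebra has a nonzero discriminant and no idempotents other than
`0` and `1` is irreducible. -/
private theorem reduce_irreducible_of_idem {k F ι : Type*} [Field k] [Field F] [Fintype ι]
    {p : F[X]} [Algebra k (AdjoinRoot p)] (b : Module.Basis ι k (AdjoinRoot p))
    [Nontrivial (AdjoinRoot p)] (hdisc : ∀ [DecidableEq ι], Algebra.discr k b ≠ 0) (hp : p.Monic)
    (hidem : ∀ e : AdjoinRoot p, IsIdempotentElem e → e = 0 ∨ e = 1) : Irreducible p := by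
  classical
  have : IsReduced (AdjoinRoot p) := isReduced_of_discr_ne_zero b hdisc
  have : Module.Finite k (AdjoinRoot p) := Module.Finite.of_basis b
  have : IsArtinianRing (AdjoinRoot p) := IsArtinianRing.of_finite k _
  have hfield : IsField (AdjoinRoot p) := isField_of_idem hidem
  exact ((Ideal.span_singleton_prime hp.ne_zero).mp
    (Ideal.Quotient.maximal_of_isField _ hfield).isPrime).irreducible

/-- Elements of the lattice of `adjoinModel` are values of integral polynomials, and reduce to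
their values. -/
private theorem reduce_exists_evU_eq {L : Type*} [Field L] {B : ValuationSubring L} {ι : Type*}
    [Fintype ι] {E : Type*} [CommRing E] [Algebra (RatFunc L) E] {Eb : Type*} [Field Eb]
    [Algebra (RatFunc (Kappa B)) Eb] [Algebra.IsSeparable (RatFunc (Kappa B)) Eb] {E1 : Type*}
    [CommRing E1] [Algebra E E1] [Algebra (RatFunc L) E1] [IsScalarTower (RatFunc L) E E1]
    {M : Model B ι E Eb} {Φ : M.S[X]} {U : E1} {n : ℕ} {b1 : Module.Basis (Fin n) E E1}
    (hb1 : ∀ i : Fin n, b1 i = U ^ (i : ℕ)) (hm : Φ.Monic) (hn : Φ.natDegree = n)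
    (hroot : evU M U Φ = 0) (hsep : (Φ.map M.red).Separable)
    (y : (adjoinModel hb1 hm hn hroot hsep).S) :
    ∃ R : M.S[X], evU M U R = (y : E1) ∧
      (adjoinModel hb1 hm hn hroot hsep).red y = evB M Φ R := by
  obtain ⟨R, hR⟩ : ∃ R : M.S[X], evU M U R = (y : E1) :=
    reduce_exists_eval₂_eq b1 hb1 M.S (y : E1) fun j i => by
      have := y.2 (i, j)
      rwa [show (adjoinModel hb1 hm hn hroot hsep).b = M.b.smulTower b1 from rfl,
        Module.Basis.smulTower_repr] at this
  exact ⟨R, hR, (congrArg _ (Subtype.ext hR.symm)).trans (red_evU hb1 hm hn hroot hsep R)⟩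

/-- If `ℓ` divides the orders of `c z` for a nonzero constant `c`, it divides those of `z`. -/
private theorem reduce_dvd_ord_of_const_mul {K F : Type*} [Field K] [Field F] [Algebra K F]
    {c : K} (hc : c ≠ 0) {z : F} (hz : z ≠ 0) {ℓ : ℤ} (P : Place K F)
    (h : ℓ ∣ P.ord (algebraMap K F c * z)) : ℓ ∣ P.ord z := by
  rwa [P.ord_mul ((_root_.map_ne_zero _).mpr hc) hz, ord_algebraMap, zero_add] at h

/-- The first generator lifts to an integral series with the reduced generator as reduction. -/
private theorem reduce_exists_uSer (hMA : (M : Kappa A) ≠ 0) :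
    ∃ e : serInt A, (e : LaurentSeries Qb) = uK Qb (1 : (ZMod M)ˣ) ∧
      serRed A e = uK (Kappa A) (1 : (ZMod M)ˣ) := by
  refine ⟨⟨_, uSer A ⟨_, inv_natCast_mem hMA⟩ (1 : (ZMod M)ˣ), rfl⟩,
    coeffMap_uSer A.subtype _ _, ?_⟩
  rw [serRed_coeffMap, coeffMap_uSer, residue_inv_natCast hMA]
  rfl

/-- The first generator is a root of `∏ (X - u_a)`. -/
private theorem reduce_eval_prod_eq_zero (hMA : (M : Kappa A) ≠ 0) :
    (∏ q : Idx M, (X - C (uK (Kappa A) q.out))).eval (uK (Kappa A) (1 : (ZMod M)ˣ)) = 0 := by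
  rw [eval_prod]
  refine Finset.prod_eq_zero (Finset.mem_univ (QuotientGroup.mk 1 : Idx M)) ?_
  rw [eval_sub, eval_X, eval_C, uK_out_kappa hMA]
  exact sub_self _

/-- A separable irreducible polynomial generates a separable extension. -/
private theorem reduce_isSeparable_adjoinRoot {F : Type*} [Field F] {p : F[X]}
    [Fact (Irreducible p)] (hp : p.Separable) :
    Algebra.IsSeparable F (AdjoinRoot p) := by
  have hsr : IsSeparable F (AdjoinRoot.root p) :=
    Separable.of_dvd hp (minpoly.dvd _ _ (by rw [AdjoinRoot.aeval_eq, AdjoinRoot.mk_self]))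
  refine ⟨fun z => mem_separableClosure_iff.mp
    (IntermediateField.adjoin_simple_le_iff.mpr (mem_separableClosure_iff.mpr hsr)
      (IntermediateField.algebra_adjoin_le_adjoin F _ (?_ :
        z ∈ Algebra.adjoin F {AdjoinRoot.root p})))⟩
  rw [AdjoinRoot.adjoinRoot_eq_top]; trivial

/-- The ramification of `x = j` on `X₁(M)`: index dividing `3` over `0`, `2` over `1728`, `1`
over other finite points and `M` over `∞`. -/
private theorem reduce_ord_j_dvd {x : F1Q} (hxj : x = jBase1 M Qb) :
    (∀ Q : Place Qb F1Q, 0 < Q.ord x → Q.ord x ∣ 3) ∧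
    (∀ Q : Place Qb F1Q, 0 < Q.ord (x - algebraMap Qb F1Q 1728) →
      Q.ord (x - algebraMap Qb F1Q 1728) ∣ 2) ∧
    (∀ a : Qb, a ≠ 0 → a ≠ 1728 → ∀ Q : Place Qb F1Q,
      0 < Q.ord (x - algebraMap Qb F1Q a) → Q.ord (x - algebraMap Qb F1Q a) ∣ 1) ∧
    ∀ Q : Place Qb F1Q, Q.ord x < 0 → Q.ord x ∣ (M : ℤ) := by
  subst hxj
  exact ⟨fun Q hQ => by simpa using ord_jBase1_sub_dvd Q 0 (by simpa using hQ),
    fun Q hQ => by simpa using ord_jBase1_sub_dvd Q 1728 hQ,
    fun a ha ha' Q hQ => by simpa [ha, ha'] using ord_jBase1_sub_dvd Q a hQ,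
    fun Q hQ => ord_jBase1_dvd Q hQ⟩

/-- Evaluating an integral polynomial at an integral series gives a series reducing to the value of
the reduced polynomial, when coefficients are fractions of integral series reducing compatibly. -/
private theorem reduce_isRed_eval₂ {R R' : Type*} [CommRing R] [CommRing R'] (red : R →+* R')
    (incl : R →+* LaurentSeries Qb) (i : R' →+* LaurentSeries (Kappa A))
    (hfrac : ∀ z, ∃ d p : serInt A, serRed A d ≠ 0 ∧ incl z * d = p ∧
      i (red z) * serRed A d = serRed A p)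
    (u : serInt A) (Φ : R[X]) (hroot : (Φ.map red).eval₂ i (serRed A u) = 0) (P : R[X])
    (hne : AdjoinRoot.lift i _ hroot ((AdjoinRoot.mk (Φ.map red)).comp (mapRingHom red) P) ≠ 0) :
    IsRed A (eval₂ incl (u : LaurentSeries Qb) P)
      (AdjoinRoot.lift i _ hroot ((AdjoinRoot.mk (Φ.map red)).comp (mapRingHom red) P)) := by
  let Q : Submonoid (serInt A) := (nonZeroDivisors (LaurentSeries (Kappa A))).comap (serRed A)
  have hQ : ∀ {d : serInt A}, d ∈ Q ↔ serRed A d ≠ 0 := fun {d} => by
    rw [Submonoid.mem_comap, mem_nonZeroDivisors_iff_ne_zero]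
  have hQ0 : ∀ d ∈ Q, serRed A d ≠ 0 := fun d hd => hQ.mp hd
  let fl := fracLift (ι := (serInt A).subtype) Subtype.val_injective (serRed A) hQ0
  let inclS : R →+* fracPart (serInt A).subtype Q :=
    incl.codRestrict _ fun z => by
      obtain ⟨d, p, hd, h, -⟩ := hfrac z
      exact ⟨p, d, hQ.mpr hd, h⟩
  have hinclS : ∀ z, fl (inclS z) = i (red z) := fun z => by
    obtain ⟨d, p, hd, h, hr⟩ := hfrac z
    rw [show fl (inclS z) = serRed A p / serRed A d from fracLift_eq _ _ _ _ (hQ.mpr hd) h, ← hr,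
      mul_div_cancel_right₀ _ hd]
  let UF : fracPart (serInt A).subtype Q := ⟨(serInt A).subtype u, apply_mem_fracPart u⟩
  have hev := reduce_apply_eval₂_eq_lift red Φ i _ hroot fl inclS UF hinclS
    (fracLift_apply _ _ _ u) P
  rw [← hev] at hne ⊢
  have hval : eval₂ incl (u : LaurentSeries Qb) P =
      ((eval₂RingHom inclS UF P : fracPart (serInt A).subtype Q) : LaurentSeries Qb) := by
    rw [coe_eval₂RingHom, show incl = (fracPart (serInt A).subtype Q).subtype.comp inclS from rfl]
    exact (hom_eval₂ P inclS (fracPart (serInt A).subtype Q).subtype UF).symm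
  rw [hval]
  exact reduce_isRed_fracLift hQ0 _ hne

/-- The polynomial of the generators over the lattice of the model of `±Γ₀(M)`, with separable
reduction `∏ (X - u_a)`. -/
private theorem reduce_exists_phiModel [IsAlgClosed (Kappa A)] (hMA : (M : Kappa A) ≠ 0) :
    letI := ratAlgebra (transcendental_jF (F := Fb) hFb)
    letI := ratAlgebra (transcendental_jF (K := Kappa A) (N := M) (F := Fk) rfl)
    ∃ Φ : (model (A := A) (hFb (N := M)) hMA).S[X], Φ.Monic ∧
      Φ.natDegree = Fintype.card (Idx M) ∧ evU (model hFb hMA) (uQ M 1) Φ = 0 ∧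
      (Φ.map (model hFb hMA).red).map (Fk).val.toRingHom =
        ∏ q : Idx M, (X - C (uK (Kappa A) q.out)) ∧
      (Φ.map (model (A := A) (hFb (N := M)) hMA).red).Separable := by
  let _ := ratAlgebra (transcendental_jF (F := Fb) hFb)
  let _ := ratAlgebra (transcendental_jF (K := Kappa A) (N := M) (F := Fk) rfl)
  set M0 := model (A := A) (hFb (N := M)) hMA
  obtain ⟨P, hP, hPred⟩ := exists_phiInt (M := M) (A := A) hMA
  let toS : sint A Fb →+* M0.S :=
    (sint A Fb).subtype.codRestrict M0.S fun y => mem_model_S hFb hMA y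
  set Φ : M0.S[X] := P.map toS with hΦ
  have hΦval : Φ.map M0.S.subtype = phiQ M := by
    rw [hΦ, Polynomial.map_map, ← hP]; rfl
  have hmon : Φ.Monic := monic_of_injective (f := M0.S.subtype) Subtype.val_injective
    (by rw [hΦval]; exact phiQ_monic)
  have hredΦ : (Φ.map M0.red).map (Fk).val.toRingHom =
      ∏ q : Idx M, (X - C (uK (Kappa A) q.out)) := by
    rw [← hPred, hΦ, Polynomial.map_map, Polynomial.map_map]
    refine congrArg (fun h => P.map h) (RingHom.ext fun y => ?_)
    show ((M0.red ⟨(y : Fb), mem_model_S hFb hMA y⟩ : Fk) : LaurentSeries (Kappa A)) =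
      sred (A := A) (F := Fb) y
    rw [show M0.red ⟨(y : Fb), mem_model_S hFb hMA y⟩ = redF hFb hMA y from model_red hFb hMA y,
      coe_redF]
  refine ⟨Φ, hmon, by rw [← hmon.natDegree_map M0.S.subtype, hΦval, natDegree_phiQ], ?_, hredΦ, ?_⟩
  · show eval₂ ((algebraMap Fb F1Q).comp M0.S.subtype) (uQ M 1) Φ = 0
    rw [← eval₂_map, hΦval, ← aeval_def]
    exact aeval_phiQ 1
  · rw [← separable_map (Fk).val.toRingHom, hredΦ]
    exact separable_prod_X_sub_C_iff.mpr fun q q' h => by_contra fun hne =>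
      hne (idx_eq_of_eq_or_neg (uK_eq_iff hMA h.symm))

/-! ## Reductions exist and powers lift -/

-- the model is assembled here
/-- Reductions exist, and powers lift. -/
theorem exists_red_and_lift [IsAlgClosed (Kappa A)] (hMA : (M : Kappa A) ≠ 0)
    (f : F1Q) (hf : f ≠ 0) :
    (∃ r, IsRed A (f : LaurentSeries Qb) r) ∧
      ∀ ℓ : ℕ, ℓ.Prime → (ℓ : Kappa A) ≠ 0 → (∀ P : Place Qb F1Q, (ℓ : ℤ) ∣ P.ord f) →
        IsRed A (f : LaurentSeries Qb) 1 → ∃ w : F1Q, w ^ ℓ = f := by
  have hM0 : (M : Qb) ≠ 0 := Nat.cast_ne_zero.mpr (NeZero.ne M)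
  -- shortcuts for instance search
  let _ : Algebra (Kappa A) (LaurentSeries (Kappa A)) := inferInstance
  let _ : Algebra (Kappa A) Fk := inferInstance
  let _ : Algebra Qb (LaurentSeries Qb) := inferInstance
  let _ : Algebra Qb Fb := inferInstance
  let _ : Algebra Qb F1Q := inferInstance
  let _ : Algebra Fb F1Q := inferInstance
  let _ : Module Fb F1Q := Algebra.toModule
  -- the base model
  let _ := ratAlgebra (transcendental_jF (F := Fb) hFb)
  let _ := ratAlgebra (transcendental_jF (K := Kappa A) (N := M) (F := Fk) rfl)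
  have := isScalarTower_ratAlgebra (transcendental_jF (F := Fb) hFb)
  have := finiteDimensional_jF (F := Fb) hFb hM0
  have := finite_ratAlgebra (transcendental_jF (F := Fb) hFb)
  have := finiteDimensional_jF (K := Kappa A) (N := M) (F := Fk) rfl hMA
  have := finite_ratAlgebra (transcendental_jF (K := Kappa A) (N := M) (F := Fk) rfl)
  have := isSeparable_jF (K := Kappa A) (N := M) (F := Fk) rfl hMA
  have := isSeparable_ratAlgebra (transcendental_jF (K := Kappa A) (N := M) (F := Fk) rfl)
  set M0 := model (A := A) (hFb (N := M)) hMA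
  let _ : Algebra (RatFunc Qb) F1Q :=
    ((algebraMap Fb F1Q).comp (algebraMap (RatFunc Qb) Fb)).toAlgebra
  have : IsScalarTower (RatFunc Qb) Fb F1Q := IsScalarTower.of_algebraMap_eq fun _ => rfl
  have : IsScalarTower Qb (RatFunc Qb) F1Q := IsScalarTower.of_algebraMap_eq fun c => by
    show algebraMap Qb F1Q c = algebraMap Fb F1Q (algebraMap (RatFunc Qb) Fb
      (algebraMap Qb (RatFunc Qb) c))
    rw [← IsScalarTower.algebraMap_apply Qb (RatFunc Qb) Fb,
      ← IsScalarTower.algebraMap_apply Qb Fb F1Q]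
  have := finiteDimensional_F0 (M := M)
  have : FiniteDimensional (RatFunc Qb) F1Q := Module.Finite.trans Fb F1Q
  -- the polynomial
  obtain ⟨Φ, hmon, hn, hroot, hredΦ, hsep⟩ := reduce_exists_phiModel (M := M) (A := A) hMA
  let _ : Algebra Fk (AdjoinRoot (Φ.map M0.red)) := AdjoinRoot.instAlgebra _
  let b1 : Module.Basis (Fin (Fintype.card (Idx M))) Fb F1Q :=
    (pbU M).basis.reindex (finCongr pbU_dim)
  have hb1 : ∀ i, b1 i = (uQ M 1) ^ (i : ℕ) := fun i => by
    simp [b1, ← pbU_gen]
  set M1 := adjoinModel (M := M0) (U := uQ M 1) hb1 hmon hn hroot hsep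
  -- the reduction is a field
  have harch := isArchVal_algebraicClosure A
  set x : F1Q := algebraMap Fb F1Q (jF (hFb (N := M))) with hx
  have hxj : x = jBase1 M Qb := Subtype.ext (by rw [hx, coe_algebraMap_F0, coe_jF, coe_jBase1])
  have hx' : algebraMap (RatFunc Qb) F1Q RatFunc.X = x := by
    show algebraMap Fb F1Q (algebraMap (RatFunc Qb) Fb RatFunc.X) = _
    exact congrArg _ (ratLine_X _)
  obtain ⟨h0, h1728, hgen, hpole⟩ := reduce_ord_j_dvd hxj
  have : Nontrivial (AdjoinRoot (Φ.map M0.red)) := AdjoinRoot.nontrivial _ (by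
    rw [hmon.degree_map, degree_eq_natDegree hmon.ne_zero, hn]
    exact_mod_cast Fintype.card_ne_zero (α := Idx M))
  have hirr : Irreducible (Φ.map M0.red) :=
    reduce_irreducible_of_idem M1.bb M1.disc_ne (hmon.map _)
      fun e he => idem_eq_zero_or_one_of_ord M1 harch hx' (NeZero.ne M) h0 h1728 hgen hpole he
  have := Fact.mk hirr
  have : Algebra.IsSeparable Fk (AdjoinRoot (Φ.map M0.red)) :=
    have := Module.Finite.of_basis (basisAdjoinBar (M := M0) hmon hn)
    reduce_isSeparable_adjoinRoot hsep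
  have : Algebra.IsSeparable (RatFunc (Kappa A)) (AdjoinRoot (Φ.map M0.red)) :=
    Algebra.IsSeparable.trans (RatFunc (Kappa A)) Fk _
  -- comparison with series
  have hcden : ∀ z : M0.S, ∃ d p : serInt A, serRed A d ≠ 0 ∧
      ((z : Fb) : LaurentSeries Qb) * d = p ∧
      ((M0.red z : Fk) : LaurentSeries (Kappa A)) * serRed A d = serRed A p := by
    intro z
    obtain ⟨u, w, hw, hu, hred⟩ := exists_sint_frac hMA z
    exact ⟨toSerInt (A := A) (F := Fb) w, toSerInt (A := A) (F := Fb) u,
      fun h => hw (Subtype.ext h), congrArg Subtype.val hu.symm,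
      (congrArg Subtype.val hred).symm⟩
  obtain ⟨uA, huA, huAred⟩ := reduce_exists_uSer (A := A) hMA
  have hψroot : (Φ.map M0.red).eval₂ (Fk).val.toRingHom (serRed A uA) = 0 := by
    rw [huAred, ← eval_map, hredΦ, reduce_eval_prod_eq_zero hMA]
  let ψ : AdjoinRoot (Φ.map M0.red) →+* LaurentSeries (Kappa A) :=
    AdjoinRoot.lift (Fk).val.toRingHom _ hψroot
  -- every element of the lattice
  let inclS : M0.S →+* LaurentSeries Qb := (Fb).val.toRingHom.comp M0.S.subtype
  have hisRed : ∀ y : M1.S, M1.red y ≠ 0 →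
      IsRed A (((y : F1Q)) : LaurentSeries Qb) (ψ (M1.red y)) := fun y hy => by
    obtain ⟨R, hR, hred⟩ := reduce_exists_evU_eq hb1 hmon hn hroot hsep y
    have hval : ((evU M0 (uQ M 1) R : F1Q) : LaurentSeries Qb) = eval₂ inclS uA R := by
      have h : (F1Q).val.toRingHom.comp (evU M0 (uQ M 1)) =
          eval₂RingHom inclS (uA : LaurentSeries Qb) := by
        refine Polynomial.ringHom_ext (fun a => ?_) ?_
        · simp [evU, inclS, coe_algebraMap_F0]
        · simp [evU, coe_uQ, huA]
      exact DFunLike.congr_fun h R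
    rw [show (y : F1Q) = evU M0 (uQ M 1) R from hR.symm, hval, hred]
    refine reduce_isRed_eval₂ M0.red inclS (Fk).val.toRingHom hcden uA Φ hψroot R ?_
    rw [hred] at hy
    exact fun h => hy ((map_eq_zero_iff ψ ψ.injective).mp h)
  -- scale
  obtain ⟨c, hc, z, hfz, hz⟩ := M1.exists_scale' hf
  have hcst : algebraMap (RatFunc Qb) F1Q (RatFunc.C c) = algebraMap Qb F1Q c := by
    rw [← RatFunc.algebraMap_eq_C, ← IsScalarTower.algebraMap_apply]
  rw [hcst] at hfz
  have hfser : (f : LaurentSeries Qb) = algebraMap Qb _ c * ((z : F1Q) : LaurentSeries Qb) := by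
    rw [hfz]; rfl
  have hIR := reduce_isRed_scale hc (hisRed z hz) hfser
  refine ⟨⟨_, hIR⟩, fun ℓ hℓ hℓA hdvd hone => ?_⟩
  obtain ⟨k, hk, hk'⟩ := reduce_eq_const_of_isRed_one hone hIR
  obtain ⟨g, hg⟩ := reduce_exists_pow_eq_const (K := Kappa A) (Φ.map M0.red) _ _ hψroot
    (fun _ => rfl) k hℓ.pos
  have hgk : M1.red z = g ^ ℓ := ψ.injective (hk'.trans hg)
  have hg0 : g ≠ 0 := fun h => hz (hgk.trans (h.symm ▸ zero_pow hℓ.ne_zero))
  have hz0 : (z : F1Q) ≠ 0 := fun h => hz (by rw [show z = 0 from Subtype.ext h, map_zero])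
  have hzdvd : ∀ Q : Place Qb F1Q, (ℓ : ℤ) ∣ Q.ord (z : F1Q) := fun Q =>
    reduce_dvd_ord_of_const_mul hc hz0 Q (hfz ▸ hdvd Q)
  obtain ⟨w, hw⟩ := exists_pow_eq_of_red M1 harch hx' (NeZero.ne M) h0 h1728 hgen hpole hℓ hℓA z
    hg0 hgk hzdvd
  obtain ⟨c', hc'⟩ := IsAlgClosed.exists_pow_nat_eq c hℓ.pos
  exact ⟨algebraMap Qb F1Q c' * w, by rw [mul_pow, ← map_pow, hc', hw, hfz]⟩

end Fermat.Agent.DeligneSerre.Curve
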